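import Mathlib
import Fermat.Prelude.Def_FLTPrelim_FreyPackage
import Fermat.Agent.S05.Frey

set_option autoImplicit false

/-!
# S13: integrality of the invariants of the Frey curve, nonvanishing of its discriminant
-/

namespace Fermat.Agent.S13

open WeierstrassCurve WeierstrassCurve.Affine Fermat.Agent.S05

local notation "Qb" => AlgebraicClosure ℚ

theorem frey_sixteen_dvd (P : FreyPackage) : ∃ m : ℤ, -(P.a ^ P.p) * (P.b ^ P.p) = 16 * m := by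
  obtain ⟨b', hb'⟩ : (2 : ℤ) ∣ P.b := (ZMod.intCast_zmod_eq_zero_iff_dvd P.b 2).1 P.hb2
  obtain ⟨k, hk⟩ : ∃ k, P.p = 4 + k := ⟨P.p - 4, by have := P.hp5; omega⟩
  refine ⟨-(P.a ^ P.p) * (2 ^ k * b' ^ P.p), ?_⟩
  rw [hb', mul_pow]
  conv_lhs => rw [show (2 : ℤ) ^ P.p = 16 * 2 ^ k by rw [hk, pow_add]; norm_num]
  ring

theorem frey_Δ_ne_zero (P : FreyPackage) : P.freyCurve.Δ ≠ 0 := by
  have hflt : (P.a : ℚ) ^ P.p + (P.b : ℚ) ^ P.p = (P.c : ℚ) ^ P.p := by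
    exact_mod_cast congrArg (Int.cast : ℤ → ℚ) P.hFLT
  have h : P.freyCurve.Δ = ((P.a : ℚ) ^ P.p * (P.b : ℚ) ^ P.p * (P.c : ℚ) ^ P.p) ^ 2 / 256 := by
    simp only [WeierstrassCurve.Δ, WeierstrassCurve.b₂, WeierstrassCurve.b₄, WeierstrassCurve.b₆,
      WeierstrassCurve.b₈, FreyPackage.freyCurve]
    rw [← hflt]
    ring
  rw [h]
  have ha : (P.a : ℚ) ≠ 0 := by exact_mod_cast P.ha0
  have hb : (P.b : ℚ) ≠ 0 := by exact_mod_cast P.hb0
  have hc : (P.c : ℚ) ≠ 0 := by exact_mod_cast P.hc0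
  positivity

theorem frey_b_mem (P : FreyPackage) (A : ValuationSubring Qb) :
    (P.freyCurve⁄Qb).b₂ ∈ A ∧ (P.freyCurve⁄Qb).b₄ ∈ A ∧ (P.freyCurve⁄Qb).b₆ ∈ A ∧
      (P.freyCurve⁄Qb).b₈ ∈ A := by
  obtain ⟨m, hm⟩ := frey_sixteen_dvd P
  have hm' : -((P.a : Qb) ^ P.p) * ((P.b : Qb) ^ P.p) / 16 = (m : Qb) := by
    have h1 : -((P.a : Qb) ^ P.p) * ((P.b : Qb) ^ P.p) = 16 * (m : Qb) := by
      exact_mod_cast congrArg (Int.cast : ℤ → Qb) hm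
    rw [h1]
    field_simp
  refine ⟨?_, ?_, ?_, ?_⟩
  · rw [frey_b₂]
    exact sub_mem (pow_mem (intCast_mem A _) _) (pow_mem (intCast_mem A _) _)
  · rw [frey_b₄, hm']
    exact mul_mem (ofNat_mem A 2) (intCast_mem A _)
  · rw [frey_b₆]
    exact zero_mem A
  · rw [frey_b₈, hm']
    exact neg_mem (pow_mem (intCast_mem A _) _)

end Fermat.Agent.S13
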