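import Mathlib

set_option autoImplicit false
set_option linter.unusedSectionVars false
set_option linter.style.haveILetI false

/-!
# S13 (GLOB): linear algebra in a plane over `𝔽_p`
-/

namespace Fermat.Agent.S13

variable {p : ℕ} [Fact p.Prime] {V : Type*} [AddCommGroup V] [Module (ZMod p) V] [Finite V]

theorem la_finrank_le (hcard : Nat.card V ≤ p ^ 2) : Module.finrank (ZMod p) V ≤ 2 := by
  haveI : Module.Finite (ZMod p) V := Module.Finite.of_finite
  have hc := Module.natCard_eq_pow_finrank (K := ZMod p) (V := V)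
  rw [Nat.card_zmod] at hc
  rw [hc] at hcard
  exact (Nat.pow_le_pow_iff_right (Fact.out : p.Prime).one_lt).mp hcard

theorem la_finrank_line (hcard : Nat.card V ≤ p ^ 2) (N : Submodule (ZMod p) V) (h0 : N ≠ ⊥)
    (h1 : N ≠ ⊤) : Module.finrank (ZMod p) N = 1 := by
  haveI : Module.Finite (ZMod p) V := Module.Finite.of_finite
  have h2 := Submodule.finrank_lt h1
  have h3 : 1 ≤ Module.finrank (ZMod p) N := Submodule.one_le_finrank_iff.mpr h0
  have h4 := la_finrank_le hcard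
  omega

/-- a subgroup meets a line trivially or contains it. -/
theorem la_line (hcard : Nat.card V ≤ p ^ 2) (N : Submodule (ZMod p) V) (h0 : N ≠ ⊥)
    (h1 : N ≠ ⊤) (Y : AddSubgroup V) :
    (∀ x ∈ N, x ∈ Y → x = 0) ∨ (∀ x ∈ N, x ∈ Y) := by
  haveI : Module.Finite (ZMod p) V := Module.Finite.of_finite
  let Y' : Submodule (ZMod p) V := AddSubgroup.toZModSubmodule p Y
  have hY' : ∀ x, x ∈ Y' ↔ x ∈ Y := fun x => Iff.rfl
  have hN := la_finrank_line hcard N h0 h1
  by_cases hbot : N ⊓ Y' = ⊥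
  · left
    intro x hx hxY
    have : x ∈ N ⊓ Y' := ⟨hx, (hY' x).mpr hxY⟩
    rw [hbot] at this
    exact (Submodule.mem_bot _).mp this
  · right
    have h3 : 1 ≤ Module.finrank (ZMod p) (N ⊓ Y' : Submodule (ZMod p) V) :=
      Submodule.one_le_finrank_iff.mpr hbot
    have h4 : Module.finrank (ZMod p) (N ⊓ Y' : Submodule (ZMod p) V)
        ≤ Module.finrank (ZMod p) N := Submodule.finrank_mono inf_le_left
    have h5 : N ⊓ Y' = N := Submodule.eq_of_le_of_finrank_eq inf_le_left (by omega)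
    intro x hx
    rw [← h5] at hx
    exact (hY' x).mp hx.2

/-- a line and a vector outside it span the plane. -/
theorem la_sup (hcard : Nat.card V ≤ p ^ 2) (N : Submodule (ZMod p) V) (h0 : N ≠ ⊥)
    {z : V} (hz : z ∉ N) (X : V) : ∃ n ∈ N, ∃ c : ZMod p, X = n + c • z := by
  haveI : Module.Finite (ZMod p) V := Module.Finite.of_finite
  have h1 : N ≠ ⊤ := fun h => hz (h ▸ Submodule.mem_top)
  have hN := la_finrank_line hcard N h0 h1
  have hlt : N < N ⊔ Submodule.span (ZMod p) {z} := by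
    refine lt_of_le_of_ne le_sup_left fun h => hz ?_
    rw [h]
    exact Submodule.mem_sup_right (Submodule.mem_span_singleton_self z)
  have h2 := Submodule.finrank_lt_finrank_of_lt hlt
  have h3 := la_finrank_le (p := p) (V := V) hcard
  have h4 := Submodule.finrank_le (N ⊔ Submodule.span (ZMod p) {z})
  have htop : N ⊔ Submodule.span (ZMod p) {z} = ⊤ :=
    Submodule.eq_top_of_finrank_eq (by omega)
  have hX : X ∈ N ⊔ Submodule.span (ZMod p) {z} := htop ▸ Submodule.mem_top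
  obtain ⟨n, hn, w, hw, rfl⟩ := Submodule.mem_sup.mp hX
  obtain ⟨c, rfl⟩ := Submodule.mem_span_singleton.mp hw
  exact ⟨n, hn, c, rfl⟩

theorem la_map_smul (σ : V →+ V) (c : ZMod p) (x : V) : σ (c • x) = c • σ x :=
  (AddMonoidHom.toZModLinearMap p σ).map_smul c x

/-- the situation at the prime `2`. -/
theorem glob_two (hcard : Nat.card V ≤ p ^ 2) (N : Submodule (ZMod p) V) (h0 : N ≠ ⊥)
    (h1 : N ≠ ⊤) (σ : V →+ V) (hN : ∀ x ∈ N, σ x ∈ N) (Z : AddSubgroup V)
    (hZ1 : ∀ X, σ X - X ∈ Z) (hZ2 : ∀ X ∈ Z, σ X = X) :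
    (∀ x ∈ N, σ x = x) ∧ (∀ X, σ X - X ∈ N) := by
  have key : ∀ x ∈ N, σ x = x := by
    rcases la_line hcard N h0 h1 Z with h | h
    · intro x hx
      exact sub_eq_zero.mp (h _ (N.sub_mem (hN x hx) hx) (hZ1 x))
    · intro x hx
      exact hZ2 x (h x hx)
  refine ⟨key, fun X => ?_⟩
  by_cases hZ : ∀ z ∈ Z, z ∈ N
  · exact hZ _ (hZ1 X)
  · push Not at hZ
    obtain ⟨z, hzZ, hzN⟩ := hZ
    obtain ⟨n, hn, c, rfl⟩ := la_sup hcard N h0 hzN X
    rw [map_add, la_map_smul, key n hn, hZ2 z hzZ, sub_self]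
    exact N.zero_mem

/-- the situation at the prime `p`. -/
theorem glob_p (hcard : Nat.card V ≤ p ^ 2) (N : Submodule (ZMod p) V) (h0 : N ≠ ⊥)
    (h1 : N ≠ ⊤) (Y : AddSubgroup V) (hY : ∃ X, X ∉ Y) :
    (∀ y ∈ Y, y ∈ N) ∨ (∀ x ∈ N, x ∈ Y → x = 0) := by
  by_cases h : ∀ y ∈ Y, y ∈ N
  · exact Or.inl h
  · right
    push Not at h
    obtain ⟨y, hyY, hyN⟩ := h
    rcases la_line hcard N h0 h1 Y with h2 | h2
    · exact h2
    · exfalso
      obtain ⟨X, hX⟩ := hY
      obtain ⟨n, hn, c, rfl⟩ := la_sup hcard N h0 hyN X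
      apply hX
      refine Y.add_mem (h2 n hn) ?_
      exact (AddSubgroup.toZModSubmodule p Y).smul_mem c hyY

end Fermat.Agent.S13
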