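import Mathlib
import Fermat.Prelude.Def_FLTPrelim_Ramification
import Fermat.Agent.Lib.Frobenius

set_option autoImplicit false
set_option linter.style.haveILetI false

/-!
# S13 (MINK): an open normal subgroup of `G_ℚ` containing all inertia subgroups is everything
-/

namespace Fermat.Agent.S13

open scoped Pointwise NumberField
open Fermat.Agent.Lib.Frobenius

local notation "Qb" => AlgebraicClosure ℚ
local notation "Zb" => integralClosure ℤ (AlgebraicClosure ℚ)
local notation "GQ" => (AlgebraicClosure ℚ ≃ₐ[ℚ] AlgebraicClosure ℚ)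

universe u

/-- In a Galois number field different from `ℚ` some prime has non trivial inertia groups. -/
theorem exists_inertia_ne_one (F : Type*) [Field F] [NumberField F] [IsGalois ℚ F]
    (H : 1 < Module.finrank ℚ F) :
    ∃ p : ℕ, p.Prime ∧ ∀ (P : Ideal (𝓞 F)) (_ : P.IsPrime), (p : 𝓞 F) ∈ P →
      ∃ σ : F ≃ₐ[ℚ] F, σ ≠ 1 ∧ ∀ x : 𝓞 F, σ • x - x ∈ P := by
  obtain ⟨p, hp, hP⟩ := NumberField.exists_not_isUnramifiedAt_int_of_isGalois (𝒪 := 𝓞 F) H
  refine ⟨p, hp, fun P hPp hpP => ?_⟩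
  have h1 := hP P hPp hpP
  have := IsGaloisGroup.of_isFractionRing Gal(F/ℚ) ℤ (𝓞 F) ℚ F
  by_contra hcon
  push Not at hcon
  apply h1
  rw [← Ideal.ramificationIdx_eq_one_iff,
    ← Ideal.ramificationIdxIn_eq_ramificationIdx (P.under ℤ) P Gal(F/ℚ),
    ← Ideal.card_inertia_eq_ramificationIdxIn (G := Gal(F/ℚ)) (P.under ℤ) P]
  have hbot : P.inertia Gal(F/ℚ) = ⊥ := by
    rw [Subgroup.eq_bot_iff_forall]
    intro σ hσ
    by_contra hne
    obtain ⟨x, hx⟩ := hcon σ hne
    exact hx (hσ x)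
  rw [hbot]
  simp

/-- The same statement for an arbitrary `ℚ`-algebra structure. -/
theorem exists_inertia_ne_one' (F : Type*) [Field F] [CharZero F] [inst : Algebra ℚ F]
    [FiniteDimensional ℚ F] [IsGalois ℚ F] (H : 1 < Module.finrank ℚ F) :
    ∃ p : ℕ, p.Prime ∧ ∀ (P : Ideal (𝓞 F)) (_ : P.IsPrime), (p : 𝓞 F) ∈ P →
      ∃ σ : F ≃ₐ[ℚ] F, σ ≠ 1 ∧ ∀ x : 𝓞 F, σ • x - x ∈ P := by
  obtain rfl : inst = DivisionRing.toRatAlgebra := Subsingleton.elim _ _
  haveI : NumberField F := ⟨⟩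
  exact exists_inertia_ne_one F H

/-- Abstract lifting of inertia elements along a normal profinite subgroup. -/
theorem lift_aux {G : Type u} {B : Type*} [Group G] [CommRing B] [MulSemiringAction G B]
    (H : Subgroup G) [hH : H.Normal]
    [TopologicalSpace H] [CompactSpace H] [TotallyDisconnectedSpace H] [IsTopologicalGroup H]
    [TopologicalSpace B] [DiscreteTopology B] [ContinuousSMul H B]
    (Q : Ideal B) [Q.IsPrime] (σ : G)
    (hσ : ∀ b : B, (∀ h : H, h • b = b) → σ • b - b ∈ Q) :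
    ∃ h : H, ∀ b : B, ((h : G) * σ) • b - b ∈ Q := by
  let A' := FixedPoints.subalgebra ℤ B H
  have inv : Algebra.IsInvariant A' B H := ⟨fun b hb => ⟨⟨b, hb⟩, rfl⟩⟩
  have hnorm : ∀ (g : G) (b : B), (∀ h : H, h • b = b) → ∀ h : H, h • (g • b) = g • b := by
    intro g b hb h
    have h1 : g⁻¹ * (h : G) * g ∈ H := by
      have := hH.conj_mem (h : G) h.2 g⁻¹
      simpa using this
    have h2 := hb ⟨_, h1⟩
    change (g⁻¹ * (h : G) * g) • b = b at h2
    change (h : G) • (g • b) = g • b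
    conv_rhs => rw [← h2]
    simp only [mul_smul, smul_inv_smul]
  have hunder : (σ • Q).under A' = Q.under A' := by
    ext ⟨b, hb⟩
    change b ∈ σ • Q ↔ b ∈ Q
    rw [Ideal.mem_pointwise_smul_iff_inv_smul_mem]
    have h1 := hσ (σ⁻¹ • b) (hnorm σ⁻¹ b hb)
    rw [smul_inv_smul] at h1
    constructor
    · intro h
      have := Q.add_mem h1 h
      simpa using this
    · intro h
      have := Q.sub_mem h h1
      simpa using this
  obtain ⟨h₁, hh₁⟩ := Algebra.IsInvariant.exists_smul_of_under_eq_of_profinite (A := A') (G := H)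
    (σ • Q) Q hunder
  have hstab : ((h₁ : G) * σ) • Q = Q := by
    rw [mul_smul]
    exact hh₁.symm
  let e' : (B ⧸ Q) ≃ₐ[A' ⧸ Q.under A'] (B ⧸ Q) :=
    { Ideal.quotientEquiv Q Q (MulSemiringAction.toRingEquiv G B ((h₁ : G) * σ)) hstab.symm with
      commutes' := by
        rintro ⟨⟨a, ha⟩⟩
        change Ideal.Quotient.mk Q (((h₁ : G) * σ) • a) = Ideal.Quotient.mk Q a
        rw [Ideal.Quotient.eq, mul_smul]
        have h1 : (h₁ : G) • (σ • a) = σ • a := hnorm σ a ha h₁
        rw [h1]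
        exact hσ a ha }
  obtain ⟨⟨h₂, hh₂⟩, hh₂'⟩ := Ideal.Quotient.stabilizerHom_surjective_of_profinite (G := H)
    (Q.under A') Q e'
  have hkey : ∀ b : B, ((h₁ : G) * σ) • b - h₂ • b ∈ Q := by
    intro b
    have h := DFunLike.congr_fun hh₂' (Ideal.Quotient.mk Q b)
    rw [Ideal.Quotient.stabilizerHom_apply] at h
    change Ideal.Quotient.mk Q (h₂ • b) = Ideal.Quotient.mk Q (((h₁ : G) * σ) • b) at h
    rw [← Ideal.Quotient.eq]
    exact h.symm
  refine ⟨h₂⁻¹ * h₁, fun b => ?_⟩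
  have h3 : h₂⁻¹ • Q = Q := by
    rw [inv_smul_eq_iff]
    exact hh₂.symm
  have h4 : h₂⁻¹ • (((h₁ : G) * σ) • b - h₂ • b) ∈ h₂⁻¹ • Q :=
    (Ideal.smul_mem_pointwise_smul_iff).mpr (hkey b)
  rw [h3, smul_sub, inv_smul_smul] at h4
  have h5 : (((h₂⁻¹ * h₁ : H) : G) * σ) • b = h₂⁻¹ • (((h₁ : G) * σ) • b) := by
    change _ = ((h₂⁻¹ : H) : G) • (((h₁ : G) * σ) • b)
    rw [← mul_smul]
    congr 1
    simp [mul_assoc]
  rw [h5]
  exact h4

/-- Inertia at a finite level lifts to inertia in `G_ℚ`. -/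
theorem lift_inertia (F : IntermediateField ℚ Qb) (hF : ∀ (g : GQ), ∀ x ∈ F, g x ∈ F)
    (Q : Ideal Zb) [Q.IsPrime]
    (σ : GQ) (hσ : ∀ b : Zb, (b : Qb) ∈ F → σ • b - b ∈ Q) :
    ∃ τ : GQ, (∀ x ∈ F, τ x = σ x) ∧ ∀ b : Zb, τ • b - b ∈ Q := by
  letI : TopologicalSpace Zb := ⊥
  haveI : DiscreteTopology Zb := ⟨rfl⟩
  haveI : CompactSpace F.fixingSubgroup :=
    isCompact_iff_compactSpace.mp (InfiniteGalois.fixingSubgroup_isClosed F).isCompact
  haveI : ContinuousSMul F.fixingSubgroup Zb := by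
    rw [continuousSMul_iff_stabilizer_isOpen]
    intro x
    have h := stabilizer_isOpen_of_isIntegral (K := ℚ) (L := Qb) (x : Qb)
    have h2 : (MulAction.stabilizer F.fixingSubgroup x : Set F.fixingSubgroup) =
        Subtype.val ⁻¹' (MulAction.stabilizer GQ (x : Qb) : Set GQ) := by
      ext g
      simp only [SetLike.mem_coe, MulAction.mem_stabilizer_iff, Set.mem_preimage]
      exact Subtype.ext_iff
    rw [h2]
    exact h.preimage continuous_subtype_val
  haveI : F.fixingSubgroup.Normal := by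
    constructor
    intro n hn g
    rw [IntermediateField.mem_fixingSubgroup_iff] at hn ⊢
    intro x hx
    have h1 := hn (g⁻¹ x) (hF g⁻¹ x hx)
    simp only [AlgEquiv.mul_apply]
    rw [h1]
    exact AlgEquiv.apply_symm_apply g x
  obtain ⟨h, hh⟩ := lift_aux F.fixingSubgroup Q σ (by
    intro b hb
    apply hσ
    rw [← InfiniteGalois.fixedField_fixingSubgroup F]
    intro g
    exact congrArg Subtype.val (hb g))
  refine ⟨(h : GQ) * σ, fun x hx => ?_, hh⟩
  rw [AlgEquiv.mul_apply]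
  exact (IntermediateField.mem_fixingSubgroup_iff F _).mp h.2 _ (hF σ x hx)

/-- Criterion for membership in the inertia subgroup in terms of algebraic integers. -/
theorem mem_inertiaSubgroupIn (A : ValuationSubring Qb) (ℓ : ℕ) (hℓ : ℓ.Prime)
    (hA : A.LiesOverPrime ℓ) (τ : GQ) (hτ : ∀ b : Zb, τ • b - b ∈ center A) :
    τ ∈ A.inertiaSubgroupIn ℚ := by
  have hle : ∀ (g : GQ), (∀ b : Zb, g • b - b ∈ center A) → g • center A ≤ center A := by
    intro g hg b hb
    rw [Ideal.mem_pointwise_smul_iff_inv_smul_mem] at hb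
    have h1 := hg (g⁻¹ • b)
    rw [smul_inv_smul] at h1
    have := (center A).add_mem h1 hb
    simpa using this
  have hτ' : ∀ b : Zb, τ⁻¹ • b - b ∈ center A := by
    intro b
    have h1 := hτ (τ⁻¹ • b)
    rw [smul_inv_smul] at h1
    have := (center A).neg_mem h1
    simpa using this
  have hstab : τ • center A = center A := by
    apply le_antisymm (hle τ hτ)
    have := hle τ⁻¹ hτ'
    intro b hb
    rw [Ideal.mem_pointwise_smul_iff_inv_smul_mem]
    exact this ((Ideal.smul_mem_pointwise_smul_iff).mpr hb)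
  have hdec := mem_decompositionSubgroup A ℓ hℓ hA τ hstab
  refine ⟨⟨τ, hdec⟩, ?_, rfl⟩
  set g : A.decompositionSubgroup ℚ := ⟨τ, hdec⟩ with hg
  change g ∈ MonoidHom.ker _
  rw [MonoidHom.mem_ker]
  ext xbar
  change g • xbar = xbar
  obtain ⟨x, rfl⟩ := IsLocalRing.residue_surjective xbar
  obtain ⟨s, b, hs, hsb⟩ := exists_fraction A ℓ hℓ hA x x.2
  have key : ∀ c : Zb, g • IsLocalRing.residue A (incl A c) = IsLocalRing.residue A (incl A c) := by
    intro c
    rw [← IsLocalRing.ResidueField.residue_smul, ← sub_eq_zero, ← map_sub,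
      IsLocalRing.residue_eq_zero_iff]
    have h := hτ c
    rw [center, Ideal.mem_comap] at h
    exact h
  have hsx : incl A s * x = incl A b := Subtype.ext hsb
  have hs0 : IsLocalRing.residue A (incl A s) ≠ 0 := by
    rw [Ne, IsLocalRing.residue_eq_zero_iff]
    exact hs
  have h1 : g • (IsLocalRing.residue A (incl A s) * IsLocalRing.residue A x) =
      (IsLocalRing.residue A (incl A s) * IsLocalRing.residue A x) := by
    rw [← map_mul, hsx, key]
  rw [smul_mul', key] at h1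
  exact mul_left_cancel₀ hs0 h1

/-- **Minkowski**: an open normal subgroup of `G_ℚ` containing one inertia subgroup at each prime
is `⊤`. -/
theorem mink_subgroup' (H : Subgroup GQ) [hH : H.Normal] (hopen : IsOpen (H : Set GQ))
    (hI : ∀ q : ℕ, q.Prime → ∃ A : ValuationSubring Qb, A.LiesOverPrime q ∧
      A.inertiaSubgroupIn ℚ ≤ H) : H = ⊤ := by
  have hclosed : IsClosed (H : Set GQ) := H.isClosed_of_isOpen hopen
  let Hc : ClosedSubgroup GQ := ⟨H, hclosed⟩
  set F : IntermediateField ℚ Qb := IntermediateField.fixedField H with hFdef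
  have hfix : F.fixingSubgroup = H := InfiniteGalois.fixingSubgroup_fixedField Hc
  haveI hfin : FiniteDimensional ℚ F := by
    rw [← InfiniteGalois.isOpen_iff_finite, hfix]
    exact hopen
  haveI hgal : IsGalois ℚ F := by
    have h1 := (InfiniteGalois.normal_iff_isGalois F).mp (hfix ▸ hH)
    convert h1
    exact Subsingleton.elim _ _
  have hstable : ∀ (g : GQ), ∀ x ∈ F, g x ∈ F := by
    intro g x hx
    have := AlgEquiv.restrictNormal_commutes g F ⟨x, hx⟩
    change ((g.restrictNormal F ⟨x, hx⟩ : F) : Qb) = g x at this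
    rw [← this]
    exact (g.restrictNormal F ⟨x, hx⟩).2
  suffices hF : F = ⊥ by
    rw [← hfix, hF, IntermediateField.fixingSubgroup_bot]
  by_contra hne
  have hrank : 1 < Module.finrank ℚ F := by
    refine Nat.one_lt_iff_ne_zero_and_ne_one.mpr ⟨Module.finrank_pos.ne', ?_⟩
    rwa [ne_eq, IntermediateField.finrank_eq_one_iff]
  obtain ⟨p, hp, hP⟩ := exists_inertia_ne_one' F hrank
  obtain ⟨A, hA, hIA⟩ := hI p hp
  -- the map from the integers of `F` to all algebraic integers
  let j : 𝓞 F →+* Zb :=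
    { toFun := fun x => ⟨((x : F) : Qb), by
        have := x.2
        exact this.map (IsScalarTower.toAlgHom ℤ F Qb)⟩
      map_one' := rfl
      map_mul' := fun _ _ => rfl
      map_zero' := rfl
      map_add' := fun _ _ => rfl }
  obtain ⟨σF, hσ1, hσP⟩ := hP ((center A).comap j) (Ideal.comap_isPrime _ _) (by
    rw [Ideal.mem_comap, map_natCast]
    exact natCast_mem_center A p hA)
  let σ : GQ := σF.liftNormal Qb
  have hσ : ∀ x : F, σ (x : Qb) = ((σF x : F) : Qb) := fun x => σF.liftNormal_commutes Qb x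
  obtain ⟨τ, hτF, hτ⟩ := lift_inertia F hstable (center A) σ (by
    intro b hb
    have hint : IsIntegral ℤ (⟨(b : Qb), hb⟩ : F) := by
      have h1 : IsIntegral ℤ (algebraMap F Qb ⟨(b : Qb), hb⟩) := b.2
      exact (isIntegral_algebraMap_iff (algebraMap F Qb).injective).mp h1
    have h2 := hσP ⟨⟨(b : Qb), hb⟩, hint⟩
    rw [Ideal.mem_comap] at h2
    convert h2 using 1
    apply Subtype.ext
    change σ (b : Qb) - (b : Qb) = ((σF ⟨(b : Qb), hb⟩ : F) : Qb) - (b : Qb)
    rw [← hσ])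
  have hτH : τ ∈ H := hIA (mem_inertiaSubgroupIn A p hp hA τ hτ)
  apply hσ1
  ext x
  rw [← hσ, ← hτF _ x.2]
  have : τ ∈ F.fixingSubgroup := hfix ▸ hτH
  exact (IntermediateField.mem_fixingSubgroup_iff F _).mp this _ x.2

/-- **Minkowski**: an open normal subgroup of `G_ℚ` containing all inertia subgroups is `⊤`. -/
theorem mink_subgroup (H : Subgroup GQ) [hH : H.Normal] (hopen : IsOpen (H : Set GQ))
    (hI : ∀ q : ℕ, q.Prime → ∀ A : ValuationSubring Qb, A.LiesOverPrime q →
      A.inertiaSubgroupIn ℚ ≤ H) : H = ⊤ :=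
  mink_subgroup' H hopen fun q hq => by
    obtain ⟨A, hA⟩ := exists_liesOverPrime q hq
    exact ⟨A, hA, hI q hq A hA⟩

/-- A subgroup containing the pointwise stabiliser of a finite set of algebraic numbers is open. -/
theorem isOpen_of_finite_fixing (H : Subgroup GQ) (S : Set Qb) (hS : S.Finite)
    (hH : ∀ σ : GQ, (∀ x ∈ S, σ x = x) → σ ∈ H) : IsOpen (H : Set GQ) := by
  apply H.isOpen_of_mem_nhds (g := 1)
  have hopen : IsOpen (⋂ x ∈ S, (MulAction.stabilizer GQ x : Set GQ)) :=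
    hS.isOpen_biInter fun x _ => stabilizer_isOpen_of_isIntegral (K := ℚ) (L := Qb) x
  refine Filter.mem_of_superset (hopen.mem_nhds ?_) ?_
  · simp only [Set.mem_iInter, SetLike.mem_coe]
    intro x _
    exact one_mem _
  · intro σ hσ
    simp only [Set.mem_iInter, SetLike.mem_coe, MulAction.mem_stabilizer_iff] at hσ
    exact hH σ hσ

/-- **Minkowski**, convenient form. -/
theorem mink_of_finite (H : Subgroup GQ) [H.Normal] (S : Set Qb) (hS : S.Finite)
    (hH : ∀ σ : GQ, (∀ x ∈ S, σ x = x) → σ ∈ H)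
    (hI : ∀ q : ℕ, q.Prime → ∀ A : ValuationSubring Qb, A.LiesOverPrime q →
      ∀ σ ∈ A.inertiaSubgroupIn ℚ, σ ∈ H) (σ : GQ) : σ ∈ H := by
  have := mink_subgroup H (isOpen_of_finite_fixing H S hS hH) hI
  rw [this]
  exact Subgroup.mem_top σ

/-- **Minkowski**, convenient form with one place above each prime. -/
theorem mink_of_finite' (H : Subgroup GQ) [H.Normal] (S : Set Qb) (hS : S.Finite)
    (hH : ∀ σ : GQ, (∀ x ∈ S, σ x = x) → σ ∈ H)
    (hI : ∀ q : ℕ, q.Prime → ∃ A : ValuationSubring Qb, A.LiesOverPrime q ∧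
      ∀ σ ∈ A.inertiaSubgroupIn ℚ, σ ∈ H) (σ : GQ) : σ ∈ H := by
  have := mink_subgroup' H (isOpen_of_finite_fixing H S hS hH) hI
  rw [this]
  exact Subgroup.mem_top σ

end Fermat.Agent.S13
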