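import Mathlib
import Fermat.Prelude.Def_FLTPrelim_FreyPackage
import Fermat.Prelude.Def_FLTPrelim_GaloisRep
import Fermat.Prelude.Def_FLTPrelim_Ramification
import Fermat.Prelude.Def_FLTPrelim_CofixedLine
import Fermat.Agent.S05.XOnly
import Fermat.Agent.S13.Mink
import Fermat.Agent.S13.GlobLA

set_option autoImplicit false
set_option linter.style.haveILetI false
set_option linter.unusedSectionVars false

/-!
# S13 (GLOB): from the local statements to the cofixed line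
-/

namespace Fermat.Agent.S13

open WeierstrassCurve WeierstrassCurve.Affine WeierstrassCurve.Affine.Point Fermat.Agent.S05
open Fermat.Agent.Lib.Frobenius

local notation "Qb" => AlgebraicClosure ℚ
local notation "GQ" => (AlgebraicClosure ℚ ≃ₐ[ℚ] AlgebraicClosure ℚ)

section general

/-- the `p`-torsion. -/
noncomputable abbrev Tor (E : Affine ℚ) (p : ℕ) : Submodule ℤ (E⁄Qb).Point :=
  Submodule.torsionBy ℤ (E⁄Qb).Point p

variable (E : Affine ℚ) (p : ℕ)

theorem glob_mem_tor_iff (X : (E⁄Qb).Point) : X ∈ Tor E p ↔ p • X = 0 := by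
  rw [Submodule.mem_torsionBy_iff, natCast_zsmul]

/-- the coordinates of a point. -/
def coords : (E⁄Qb).Point → Set Qb
  | .zero => ∅
  | .some x y _ => {x, y}

theorem coords_finite (X : (E⁄Qb).Point) : (coords E X).Finite := by
  rcases X with _ | ⟨x, y, h⟩
  · exact Set.finite_empty
  · exact (Set.finite_singleton y).insert x

theorem smul_eq_of_coords (σ : GQ) (X : (E⁄Qb).Point) (h : ∀ x ∈ coords E X, σ x = x) :
    σ • X = X := by
  rcases X with _ | ⟨x, y, hxy⟩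
  · rfl
  · have hx : σ x = x := h x (by simp [coords])
    have hy : σ y = y := h y (by simp [coords])
    change Point.map σ.toAlgHom (Point.some x y hxy) = _
    simp only [Point.map_some]
    congr 1

/-- the subgroup acting trivially on a stable submodule. -/
def fixSub (N : Submodule (ZMod p) (Tor E p)) (_hN : IsGaloisStable ℚ N) : Subgroup GQ where
  carrier := {σ | ∀ x ∈ N, σ • x = x}
  one_mem' := fun x _ => one_smul _ x
  mul_mem' := by
    intro a b ha hb x hx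
    rw [mul_smul, hb x hx, ha x hx]
  inv_mem' := by
    intro a ha x hx
    rw [inv_smul_eq_iff, ha x hx]

/-- the subgroup acting trivially on the quotient by a stable submodule. -/
def cofixSub (N : Submodule (ZMod p) (Tor E p)) (hN : IsGaloisStable ℚ N) : Subgroup GQ where
  carrier := {σ | ∀ x : Tor E p, σ • x - x ∈ N}
  one_mem' := fun x => by rw [one_smul, sub_self]; exact N.zero_mem
  mul_mem' := by
    intro a b ha hb x
    have h1 : (a * b) • x - x = a • (b • x - x) + (a • x - x) := by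
      rw [mul_smul, smul_sub]; abel
    rw [h1]
    exact N.add_mem (hN a _ (hb x)) (ha x)
  inv_mem' := by
    intro a ha x
    have h1 : a⁻¹ • x - x = -(a⁻¹ • (a • x - x)) := by
      rw [smul_sub, inv_smul_smul]; abel
    rw [h1]
    exact N.neg_mem (hN a⁻¹ _ (ha x))

instance fixSub_normal (N : Submodule (ZMod p) (Tor E p)) (hN : IsGaloisStable ℚ N) :
    (fixSub E p N hN).Normal := by
  constructor
  intro n hn g x hx
  rw [mul_smul, mul_smul, hn _ (hN g⁻¹ x hx), smul_inv_smul]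

instance cofixSub_normal (N : Submodule (ZMod p) (Tor E p)) (hN : IsGaloisStable ℚ N) :
    (cofixSub E p N hN).Normal := by
  constructor
  intro n hn g x
  have h1 : (g * n * g⁻¹) • x - x = g • (n • (g⁻¹ • x) - g⁻¹ • x) := by
    rw [mul_smul, mul_smul, smul_sub, smul_inv_smul]
  rw [h1]
  exact hN g _ (hn _)

/-- an automorphism fixing all the coordinates of the torsion points acts trivially. -/
theorem exists_finite_coords (hfin : ((Tor E p : Submodule ℤ (E⁄Qb).Point) : Set (E⁄Qb).Point).Finite) :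
    ∃ S : Set Qb, S.Finite ∧ ∀ σ : GQ, (∀ x ∈ S, σ x = x) → ∀ X : Tor E p, σ • X = X := by
  refine ⟨⋃ X ∈ ((Tor E p : Submodule ℤ (E⁄Qb).Point) : Set (E⁄Qb).Point), coords E X,
    hfin.biUnion fun X _ => coords_finite E X, fun σ hσ X => ?_⟩
  apply Subtype.ext
  change σ • (X : (E⁄Qb).Point) = X
  apply smul_eq_of_coords
  intro x hx
  exact hσ x (Set.mem_biUnion X.2 hx)

end general

/-- **GLOB**: the assembly of S13 from the local statements. -/
theorem glob (P : FreyPackage)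
    (hT1 : ∃ X : (P.freyCurve⁄Qb).Point, X ≠ 0 ∧ P.p • X = 0)
    (hT2 : ((Tor P.freyCurve P.p : Submodule ℤ (P.freyCurve⁄Qb).Point) :
        Set (P.freyCurve⁄Qb).Point).Finite ∧
      ((Tor P.freyCurve P.p : Submodule ℤ (P.freyCurve⁄Qb).Point) :
        Set (P.freyCurve⁄Qb).Point).ncard ≤ P.p ^ 2)
    (hT3 : ∀ A : ValuationSubring Qb, A.LiesOverPrime P.p → ∀ P₀ : (P.freyCurve⁄Qb).Point,
      P₀ ≠ 0 → P.p • P₀ = 0 → (∀ σ : GQ, ∃ k : ℕ, σ • P₀ = k • P₀) →
      ∃ X : (P.freyCurve⁄Qb).Point, X ≠ 0 ∧ P.p • X = 0 ∧ px X ∈ A)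
    (hloc2 : ∀ A : ValuationSubring Qb, A.LiesOverPrime 2 →
      ∃ Z : AddSubgroup (P.freyCurve⁄Qb).Point,
      (∀ σ ∈ A.inertiaSubgroupIn ℚ, ∀ X : (P.freyCurve⁄Qb).Point, P.p • X = 0 → σ • X - X ∈ Z) ∧
      (∀ σ ∈ A.inertiaSubgroupIn ℚ, ∀ X ∈ Z, P.p • X = 0 → σ • X = X))
    (hnr : ∀ X : (P.freyCurve⁄Qb).Point, X ≠ 0 → P.p • X = 0 → (∀ σ : GQ, σ • X = X) → False)
    (hlocp : ∀ A : ValuationSubring Qb, A.LiesOverPrime P.p →
      (∃ X : (P.freyCurve⁄Qb).Point, X ≠ 0 ∧ P.p • X = 0 ∧ px X ∈ A) →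
      ∃ Y : AddSubgroup (P.freyCurve⁄Qb).Point, (∃ X, P.p • X = 0 ∧ X ∉ Y) ∧
      ∀ σ ∈ A.inertiaSubgroupIn ℚ, ∀ X : (P.freyCurve⁄Qb).Point, P.p • X = 0 → σ • X - X ∈ Y)
    (hS05 : ∀ q : ℕ, q.Prime → q ≠ 2 → q ≠ P.p → P.GaloisRepUnramifiedAt q)
    (hred : ¬ GaloisRepIsIrreducible (K := AlgebraicClosure ℚ) ℚ P.freyCurve P.p) :
    HasGaloisStableCofixedLine (K := AlgebraicClosure ℚ) ℚ P.freyCurve P.p := by
  haveI : Fact P.p.Prime := ⟨P.pp⟩
  haveI : NeZero P.p := ⟨P.hp0⟩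
  haveI : Finite (Tor P.freyCurve P.p) := hT2.1
  have hcard : Nat.card (Tor P.freyCurve P.p) ≤ P.p ^ 2 := by
    have := hT2.2
    rwa [← Nat.card_coe_set_eq] at this
  have hnt : Nontrivial (Tor P.freyCurve P.p) := by
    obtain ⟨X, hX, hpX⟩ := hT1
    exact ⟨⟨⟨X, (glob_mem_tor_iff _ _ X).mpr hpX⟩, 0, fun h => hX (congrArg Subtype.val h)⟩⟩
  unfold GaloisRepIsIrreducible at hred
  push Not at hred
  obtain ⟨N, hN, h0, h1⟩ := hred hnt
  have htor : ∀ x : Tor P.freyCurve P.p, P.p • (x : (P.freyCurve⁄Qb).Point) = 0 := fun x =>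
    (glob_mem_tor_iff _ _ _).mp x.2
  -- a generator of the line
  obtain ⟨v, hv0, hgen⟩ := finrank_eq_one_iff'.mp (la_finrank_line hcard N h0 h1)
  have hvN : (v : Tor P.freyCurve P.p) ∈ N := v.2
  have hv0' : ((v : Tor P.freyCurve P.p) : (P.freyCurve⁄Qb).Point) ≠ 0 := fun h =>
    hv0 (Subtype.ext (Subtype.ext h))
  obtain ⟨S, hSfin, hS⟩ := exists_finite_coords P.freyCurve P.p hT2.1
  -- good primes
  have hgood : ∀ q : ℕ, q.Prime → q ≠ 2 → q ≠ P.p → ∀ A : ValuationSubring Qb, A.LiesOverPrime q →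
      ∀ σ ∈ A.inertiaSubgroupIn ℚ, ∀ x : Tor P.freyCurve P.p, σ • x = x :=
    fun q hq h2 hp A hA σ hσ x => hS05 q hq h2 hp A hA σ hσ x
  -- the prime 2
  have htwo : ∀ A : ValuationSubring Qb, A.LiesOverPrime 2 → ∀ σ ∈ A.inertiaSubgroupIn ℚ,
      (∀ x ∈ N, σ • x = x) ∧ (∀ x : Tor P.freyCurve P.p, σ • x - x ∈ N) := by
    intro A hA σ hσ
    obtain ⟨Z, hZ1, hZ2⟩ := hloc2 A hA
    exact glob_two hcard N h0 h1 (DistribSMul.toAddMonoidHom (Tor P.freyCurve P.p) σ)
      (fun x hx => hN σ x hx)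
      (Z.comap (Tor P.freyCurve P.p).subtype.toAddMonoidHom)
      (fun X => hZ1 σ hσ X (htor X))
      (fun X hX => Subtype.ext (hZ2 σ hσ X hX (htor X)))
  -- the prime p
  obtain ⟨A, hA⟩ := exists_liesOverPrime P.p P.pp
  have hst : ∀ σ : GQ, ∃ k : ℕ, σ • ((v : Tor P.freyCurve P.p) : (P.freyCurve⁄Qb).Point)
      = k • ((v : Tor P.freyCurve P.p) : (P.freyCurve⁄Qb).Point) := by
    intro σ
    obtain ⟨c, hc⟩ := hgen ⟨σ • (v : Tor P.freyCurve P.p), hN σ _ hvN⟩
    refine ⟨c.val, ?_⟩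
    have h2 : c • (v : Tor P.freyCurve P.p) = σ • (v : Tor P.freyCurve P.p) :=
      congrArg Subtype.val hc
    have h3 : c • (v : Tor P.freyCurve P.p) = c.val • (v : Tor P.freyCurve P.p) := by
      conv_lhs => rw [← ZMod.natCast_zmod_val c, Nat.cast_smul_eq_nsmul]
    rw [h3] at h2
    exact (congrArg Subtype.val h2).symm
  obtain ⟨Y, ⟨X₀, hX₀, hX₀Y⟩, hY⟩ := hlocp A hA (hT3 A hA _ hv0' (htor _) hst)
  have hdich := glob_p hcard N h0 h1 (Y.comap (Tor P.freyCurve P.p).subtype.toAddMonoidHom)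
    ⟨⟨X₀, (glob_mem_tor_iff _ _ X₀).mpr hX₀⟩, hX₀Y⟩
  rcases hdich with hYN | hYN
  · -- inertia at `p` acts trivially on the quotient
    refine ⟨N, hN, h0, h1, fun σ => ?_⟩
    refine mink_of_finite' (cofixSub P.freyCurve P.p N hN) S hSfin ?_ ?_ σ
    · intro τ hτ x
      rw [hS τ hτ x, sub_self]
      exact N.zero_mem
    · intro q hq
      by_cases hq2 : q = 2
      · subst hq2
        obtain ⟨A₂, hA₂⟩ := exists_liesOverPrime 2 hq
        exact ⟨A₂, hA₂, fun τ hτ => (htwo A₂ hA₂ τ hτ).2⟩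
      by_cases hqp : q = P.p
      · subst hqp
        exact ⟨A, hA, fun τ hτ x => hYN _ (hY τ hτ x (htor x))⟩
      · obtain ⟨A', hA'⟩ := exists_liesOverPrime q hq
        refine ⟨A', hA', fun τ hτ x => ?_⟩
        rw [hgood q hq hq2 hqp A' hA' τ hτ x, sub_self]
        exact N.zero_mem
  · -- inertia at `p` acts trivially on the line: contradiction
    exfalso
    have hall : ∀ σ : GQ, σ ∈ fixSub P.freyCurve P.p N hN := by
      intro σ
      refine mink_of_finite' (fixSub P.freyCurve P.p N hN) S hSfin ?_ ?_ σ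
      · intro τ hτ x _
        exact hS τ hτ x
      · intro q hq
        by_cases hq2 : q = 2
        · subst hq2
          obtain ⟨A₂, hA₂⟩ := exists_liesOverPrime 2 hq
          exact ⟨A₂, hA₂, fun τ hτ => (htwo A₂ hA₂ τ hτ).1⟩
        by_cases hqp : q = P.p
        · subst hqp
          refine ⟨A, hA, fun τ hτ x hx => ?_⟩
          exact sub_eq_zero.mp (hYN _ (N.sub_mem (hN τ x hx) hx) (hY τ hτ x (htor x)))
        · obtain ⟨A', hA'⟩ := exists_liesOverPrime q hq
          exact ⟨A', hA', fun τ hτ x _ => hgood q hq hq2 hqp A' hA' τ hτ x⟩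
    exact hnr _ hv0' (htor _) fun σ => congrArg Subtype.val (hall σ _ hvN)

end Fermat.Agent.S13
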