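import Mathlib
import Fermat.Agent.S05.Node

set_option autoImplicit false

/-!
# S13, local analysis: basic facts valid in every residue characteristic
-/

namespace Fermat.Agent.S13

open Fermat.Agent.S05

variable {K : Type*} [Field K] {Γ₀ : Type*} [LinearOrderedCommGroupWithZero Γ₀]
  {v : Valuation K Γ₀}

/-- duplication inside the kernel of reduction, any residue characteristic. -/
theorem F_dup_alg' {x x2 ψ b₂ b₄ b₆ b₈ : K}
    (hb₂ : v b₂ ≤ 1) (hb₄ : v b₄ ≤ 1) (hb₆ : v b₆ ≤ 1) (hb₈ : v b₈ ≤ 1)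
    (hψ : ψ ^ 2 = 4 * x ^ 3 + b₂ * x ^ 2 + 2 * b₄ * x + b₆)
    (hdup : ψ ^ 2 * x2 = x ^ 4 - b₄ * x ^ 2 - 2 * b₆ * x - b₈)
    (h1 : 1 < v x) :
    1 < v x2 ∧ ∃ w, v w ≤ 1 ∧ x2⁻¹ - 4 * x⁻¹ = x⁻¹ ^ 2 * w := by
  have hx := ne_zero_of_big h1
  have he := s_inv_of_big h1
  obtain ⟨e, rfl⟩ : ∃ e, x = e⁻¹ := ⟨x⁻¹, (inv_inv _).symm⟩
  rw [inv_inv] at he
  have h0 : e ≠ 0 := by rintro rfl; simp at hx
  simp only [inv_inv]
  set D₁ : K := 4 + (b₂ * e + 2 * b₄ * e ^ 2 + b₆ * e ^ 3) with hD₁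
  set D₂ : K := 1 - (b₄ * e ^ 2 + 2 * b₆ * e ^ 3 + b₈ * e ^ 4) with hD₂
  have hD₁i : v D₁ ≤ 1 := by rw [hD₁]; vsm
  have hD₂u : v D₂ = 1 := u_sub_s u_one (by vsm)
  have hD₂0 := ne_zero_of_u hD₂u
  have key : x2 * (e * D₁) = D₂ := by
    rw [hψ] at hdup
    field_simp at hdup
    rw [hD₁, hD₂]
    linear_combination hdup
  have hx2 : x2 ≠ 0 := by
    rintro rfl
    rw [zero_mul] at key
    exact hD₂0 key.symm
  have hD₁0 : D₁ ≠ 0 := by
    intro h
    rw [h, mul_zero, mul_zero] at key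
    exact hD₂0 key.symm
  have hinv : x2⁻¹ = e * D₁ / D₂ := by
    rw [← key]; field_simp
  refine ⟨big_of_s_inv hx2 ?_, (b₂ + 6 * b₄ * e + 9 * b₆ * e ^ 2 + 4 * b₈ * e ^ 3) / D₂, ?_, ?_⟩
  · rw [hinv, map_div₀, hD₂u, div_one]; vsm
  · rw [map_div₀, hD₂u, div_one]
    vsm
  · rw [hinv, mul_div_assoc', eq_div_iff hD₂0, sub_mul, div_mul_cancel₀ _ hD₂0, hD₁, hD₂]
    ring

variable {G : Type*} [AddCommGroup G]

/-- integrality of the model. -/
structure Int' (D : XData G K) (v : Valuation K Γ₀) : Prop where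
  b₂ : v D.b₂ ≤ 1
  b₄ : v D.b₄ ≤ 1
  b₆ : v D.b₆ ≤ 1
  b₈ : v D.b₈ ≤ 1

theorem Int'.of_integral {D : XData G K} (h : D.Integral v) : Int' D v :=
  ⟨h.b₂, h.b₄, h.b₆, h.b₈⟩

variable {D : XData G K}

/-- The kernel of reduction has no `p`-torsion, for `p` odd and prime to the residue
characteristic (which may be `2`). -/
theorem no_torsion_E1' (hI : Int' D v) {p : ℕ} (hp : p.Prime) (hp2 : p ≠ 2)
    (hvp : v (p : K) = 1) {R : G} (hR : R ≠ 0) (hx : 1 < v (D.x R)) (hpR : p • R = 0) : False := by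
  obtain ⟨hb₂, hb₄, hb₆, hb₈⟩ := hI
  have hx0 := ne_zero_of_big hx
  have hp3 : 3 ≤ p := by
    have := hp.two_le
    omega
  have h2R : 2 • R ≠ 0 := nsmul_ne_zero_of_prime hp hR hpR
    (fun hd => by have := Nat.le_of_dvd (by omega) hd; omega)
  have key : ∀ k : ℕ, k + 3 ≤ p →
      (1 < v (D.x ((k + 1) • R)) ∧ v ((D.x ((k + 1) • R))⁻¹ * D.x R - ((k + 1 : ℕ) : K) ^ 2) < 1) ∧
      (1 < v (D.x ((k + 2) • R)) ∧ v ((D.x ((k + 2) • R))⁻¹ * D.x R - ((k + 2 : ℕ) : K) ^ 2) < 1) := by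
    intro k
    induction k with
    | zero =>
      intro _
      have hψ := D.ψ_sq R hR
      have hψ0 : D.ψ R ≠ 0 := fun h => h2R ((D.two R hR).mpr h)
      obtain ⟨h1, w, hw, hw2⟩ := F_dup_alg' hb₂ hb₄ hb₆ hb₈ hψ (D.dup R hR hψ0) hx
      refine ⟨⟨by simpa using hx, ?_⟩, ⟨by simpa using h1, ?_⟩⟩
      · simp [hx0]
      · have he := s_inv_of_big hx
        have : (D.x ((0 + 2) • R))⁻¹ * D.x R - ((0 + 2 : ℕ) : K) ^ 2 = (D.x R)⁻¹ * w := by
          have h3 : (D.x (2 • R))⁻¹ = 4 * (D.x R)⁻¹ + (D.x R)⁻¹ ^ 2 * w := by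
            linear_combination hw2
          simp only [zero_add]
          rw [h3]
          push_cast
          field_simp
          ring
        rw [this]
        vsm
    | succ k ih =>
      intro hk
      obtain ⟨⟨h1, h1'⟩, ⟨h2', h2''⟩⟩ := ih (by omega)
      refine ⟨⟨by simpa [add_assoc] using h2', by simpa [add_assoc] using h2''⟩, ?_⟩
      have hP : (k + 2) • R ≠ 0 := nsmul_ne_zero_of_prime hp hR hpR
        (fun hd => by have := Nat.le_of_dvd (by omega) hd; omega)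
      have hne : D.x ((k + 2) • R) ≠ D.x R := x_ne_of_prime hp hR hpR (by omega) (by omega)
      have e1 : (k + 2) • R + R = (k + 1 + 2) • R := by
        rw [show k + 1 + 2 = (k + 2) + 1 by ring, add_nsmul _ (k + 2) 1, one_nsmul]
      have e2 : (k + 2) • R - R = (k + 1) • R := by
        rw [show k + 2 = (k + 1) + 1 by ring, add_nsmul _ (k + 1) 1, one_nsmul, add_sub_cancel_right]
      have hs := D.sum _ _ hP hR hne
      have hpr := D.prod _ _ hP hR hne
      rw [e1, e2] at hs hpr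
      obtain ⟨g1, -, w, hw, hw2⟩ := F_generic_alg hb₂ hb₄ hb₆ hb₈ hs hpr h2' hx
      refine ⟨g1, ?_⟩
      have he := s_inv_of_big h2'
      have : (D.x ((k + 1 + 2) • R))⁻¹ * D.x R - ((k + 1 + 2 : ℕ) : K) ^ 2 =
          (D.x ((k + 2) • R))⁻¹ * w
          - ((D.x ((k + 1) • R))⁻¹ * D.x R - ((k + 1 : ℕ) : K) ^ 2)
          + 2 * ((D.x ((k + 2) • R))⁻¹ * D.x R - ((k + 2 : ℕ) : K) ^ 2) := by
        have h3 : (D.x ((k + 1 + 2) • R))⁻¹ = - (D.x ((k + 1) • R))⁻¹ + 2 * (D.x ((k + 2) • R))⁻¹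
            + 2 * (D.x R)⁻¹ + (D.x ((k + 2) • R))⁻¹ * (D.x R)⁻¹ * w := by
          linear_combination hw2
        rw [h3]
        generalize (D.x ((k + 1) • R))⁻¹ = A
        generalize (D.x ((k + 2) • R))⁻¹ = B
        push_cast
        field_simp
        ring
      rw [this]
      vsm
  -- conclude
  obtain ⟨h, rfl⟩ : ∃ h, p = 2 * h + 1 := by
    rcases hp.eq_two_or_odd' with h | h
    · exact absurd h hp2
    · exact h
  obtain ⟨h', rfl⟩ : ∃ h', h = h' + 1 := ⟨h - 1, by omega⟩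
  obtain ⟨⟨-, c1⟩, ⟨-, c2⟩⟩ := key h' (by omega)
  have hxx : D.x ((h' + 2) • R) = D.x ((h' + 1) • R) := by
    have : (h' + 2) • R = - ((h' + 1) • R) := by
      rw [eq_neg_iff_add_eq_zero, ← add_nsmul, ← hpR]
      congr 1; ring
    rw [this, D.x_neg]
  rw [hxx] at c2
  have := s_sub c1 c2
  have h3 : (D.x ((h' + 1) • R))⁻¹ * D.x R - ((h' + 1 : ℕ) : K) ^ 2 -
      ((D.x ((h' + 1) • R))⁻¹ * D.x R - ((h' + 2 : ℕ) : K) ^ 2) = ((2 * (h' + 1) + 1 : ℕ) : K) := by
    push_cast; ring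
  rw [h3, hvp] at this
  exact lt_irrefl _ this

/-- the kernel of reduction, as a subgroup. -/
def E1 (D : XData G K) (v : Valuation K Γ₀) (hI : Int' D v) : AddSubgroup G where
  carrier := {X | X = 0 ∨ 1 < v (D.x X)}
  zero_mem' := Or.inl rfl
  neg_mem' := by
    rintro X (rfl | h)
    · exact Or.inl neg_zero
    · exact Or.inr (by rwa [D.x_neg])
  add_mem' := by
    intro X Y hX hY
    by_cases hX0 : X = 0
    · rwa [hX0, zero_add]
    by_cases hY0 : Y = 0
    · rwa [hY0, add_zero]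
    have hX' : 1 < v (D.x X) := hX.resolve_left hX0
    have hY' : 1 < v (D.x Y) := hY.resolve_left hY0
    by_cases hxy : D.x X = D.x Y
    · rcases D.eq_or X Y hX0 hY0 hxy with rfl | rfl
      · by_cases h2 : 2 • X = 0
        · left; rw [← two_nsmul]; exact h2
        · right
          have hψ0 : D.ψ X ≠ 0 := fun h => h2 ((D.two X hX0).mpr h)
          rw [← two_nsmul]
          exact (F_dup_alg' hI.b₂ hI.b₄ hI.b₆ hI.b₈ (D.ψ_sq X hX0) (D.dup X hX0 hψ0) hX').1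
      · left; exact neg_add_cancel Y
    · right
      exact (F_generic_alg hI.b₂ hI.b₄ hI.b₆ hI.b₈ (D.sum X Y hX0 hY0 hxy)
        (D.prod X Y hX0 hY0 hxy) hX' hY').1

theorem mem_E1 {hI : Int' D v} {X : G} : X ∈ E1 D v hI ↔ X = 0 ∨ 1 < v (D.x X) := Iff.rfl

/-- the product formula for `ψ`. -/
structure HasPsi (D : XData G K) : Prop where
  psi_mul : ∀ P Q, P ≠ 0 → Q ≠ 0 → D.x P ≠ D.x Q →
    D.ψ P * D.ψ Q = (D.x (P - Q) - D.x (P + Q)) * (D.x P - D.x Q) ^ 2

theorem HasPsi.shift (h : HasPsi D) (r : K) : HasPsi (D.shift r) where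
  psi_mul P Q hP hQ hne := by
    have h' : D.x P ≠ D.x Q := fun h0 => hne (by change D.x P - r = D.x Q - r; rw [h0])
    have := h.psi_mul P Q hP hQ h'
    change D.ψ P * D.ψ Q = ((D.x (P - Q) - r) - (D.x (P + Q) - r)) * ((D.x P - r) - (D.x Q - r)) ^ 2
    rw [this]; ring

/-- inertial automorphisms which moreover preserve the valuation. -/
structure Inert (D : XData G K) (v : Valuation K Γ₀) (s : G →+ G) (σ : K →+* K) : Prop
    extends D.Inertial v s σ where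
  v_σ : ∀ a, v (σ a) = v a

theorem Inert.shift {s : G →+ G} {σ : K →+* K} (h : Inert D v s σ) {r : K} (hr : σ r = r) :
    Inert (D.shift r) v s σ where
  s_ne := h.s_ne
  x_s P hP := by
    change D.x (s P) - r = σ (D.x P - r)
    rw [h.x_s P hP, map_sub, hr]
  ψ_s := h.ψ_s
  inert := h.inert
  v_σ := h.v_σ

/-- a monic quadratic equation with integral coefficients has integral roots. -/
theorem i_of_quadratic {y b c : K} (hb : v b ≤ 1) (hc : v c ≤ 1) (h : y ^ 2 + b * y = c) :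
    v y ≤ 1 := by
  by_contra hy
  rw [not_le] at hy
  have hy0 := ne_zero_of_big hy
  have h1 : y = c * y⁻¹ - b := by
    field_simp
    linear_combination h
  have h2 : v (c * y⁻¹ - b) ≤ 1 := i_sub (i_mul hc (s_inv_of_big hy).le) hb
  rw [← h1] at h2
  exact absurd hy (not_lt.mpr h2)

/-- an inertial automorphism with finite orbits preserves the valuation. -/
theorem v_map_eq_of_inert {σ : K →+* K} (hin : ∀ a, v a ≤ 1 → v (σ a - a) < 1)
    (hfin : ∀ a, ∃ n : ℕ, 0 < n ∧ (σ^[n]) a = a) (a : K) : v (σ a) = v a := by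
  have hs : ∀ c, v c < 1 → v (σ c) < 1 := by
    intro c hc
    have := s_add (hin c hc.le) hc
    simpa using this
  have key : ∀ a : K, a ≠ 0 → ¬ v (σ a / a) < 1 := by
    intro a ha h
    have hn : ∀ n : ℕ, v ((σ^[n + 1]) a / a) < 1 := by
      intro n
      induction n with
      | zero => simpa using h
      | succ n ih =>
        have h1 : (σ^[n + 1 + 1]) a / a = σ ((σ^[n + 1]) a / a) * (σ a / a) := by
          rw [Function.iterate_succ_apply' σ (n + 1) a, map_div₀]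
          have : σ a ≠ 0 := (map_ne_zero σ).mpr ha
          field_simp
        rw [h1]
        exact s_mul_i (hs _ ih) h.le
    obtain ⟨n, hn0, hna⟩ := hfin a
    obtain ⟨m, rfl⟩ : ∃ m, n = m + 1 := ⟨n - 1, by omega⟩
    have := hn m
    rw [hna, div_self ha, map_one] at this
    exact lt_irrefl _ this
  by_cases ha : a = 0
  · rw [ha, map_zero]
  have hσa : σ a ≠ 0 := (map_ne_zero σ).mpr ha
  have h1 := key a ha
  have h2 := key a⁻¹ (inv_ne_zero ha)
  rw [map_inv₀] at h2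
  rw [not_lt, map_div₀] at h1 h2
  rw [map_inv₀, map_inv₀] at h2
  have hva : 0 < v a := zero_lt_iff.mpr ((v.ne_zero_iff).mpr ha)
  have hvσ : 0 < v (σ a) := zero_lt_iff.mpr ((v.ne_zero_iff).mpr hσa)
  apply le_antisymm
  · rw [one_le_div₀ (inv_pos.mpr hva)] at h2
    exact (inv_le_inv₀ hva hvσ).mp h2
  · exact (one_le_div₀ hva).mp h1

end Fermat.Agent.S13
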