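import Mathlib
import Fermat.Agent.S13.LocBase

set_option autoImplicit false

/-!
# S13, local analysis: points with nonsingular reduction, odd residue characteristic
-/

namespace Fermat.Agent.S13

open Fermat.Agent.S05

variable {K : Type*} [Field K] {Γ₀ : Type*} [LinearOrderedCommGroupWithZero Γ₀]
  {v : Valuation K Γ₀} {G : Type*} [AddCommGroup G] {D : XData G K}

theorem s_of_s_sq {a : K} (h : v (a ^ 2) < 1) : v a < 1 := by
  rw [map_pow] at h
  by_contra hc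
  rw [not_lt] at hc
  exact absurd h (not_lt.mpr (one_le_pow₀ hc))

theorem i_of_i_sq {a : K} (h : v (a ^ 2) ≤ 1) : v a ≤ 1 := by
  rw [map_pow] at h
  exact (pow_le_one_iff_of_nonneg zero_le (by norm_num)).mp h

/-- if `ψ P` is small and the reduction of `P` is nonsingular then `2P` is in the kernel of
reduction. -/
theorem two_nsmul_mem_E1 (hI : Int' D v) {P : G} (hP : P ≠ 0) (hxI : v (D.x P) ≤ 1)
    (hNS : ¬ (v (D.x P ^ 4 - D.b₄ * D.x P ^ 2 - 2 * D.b₆ * D.x P - D.b₈) < 1 ∧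
      v (4 * D.x P ^ 3 + D.b₂ * D.x P ^ 2 + 2 * D.b₄ * D.x P + D.b₆) < 1))
    (hψ : v (D.ψ P) < 1) : 2 • P ∈ E1 D v hI := by
  obtain ⟨hb₂, hb₄, hb₆, hb₈⟩ := hI
  have hφI : v (D.x P ^ 4 - D.b₄ * D.x P ^ 2 - 2 * D.b₆ * D.x P - D.b₈) ≤ 1 := by vsm
  have h5 : v (4 * D.x P ^ 3 + D.b₂ * D.x P ^ 2 + 2 * D.b₄ * D.x P + D.b₆) < 1 := by
    rw [← D.ψ_sq P hP]; vsm
  have h6 := u_of_i_of_not_s hφI (fun h => hNS ⟨h, h5⟩)
  by_cases hψ0 : D.ψ P = 0
  · exact Or.inl ((D.two P hP).mpr hψ0)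
  · exact Or.inr (big_of_s_mul_eq_u (by vsm) (D.dup P hP hψ0) h6)

/-- A point with integral `x`-coordinate and nonsingular reduction is moved by inertia inside the
kernel of reduction (or its double is in the kernel of reduction). -/
theorem NS_lemma (hI : D.Integral v) (hΨ : HasPsi D) {s : G →+ G} {σ : K →+* K}
    (hA : D.Inertial v s σ) {P : G} (hP : P ≠ 0) (hxI : v (D.x P) ≤ 1)
    (hNS : ¬ (v (D.x P ^ 4 - D.b₄ * D.x P ^ 2 - 2 * D.b₆ * D.x P - D.b₈) < 1 ∧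
      v (4 * D.x P ^ 3 + D.b₂ * D.x P ^ 2 + 2 * D.b₄ * D.x P + D.b₆) < 1)) :
    s P - P ∈ E1 D v (Int'.of_integral hI) ∨ 2 • P ∈ E1 D v (Int'.of_integral hI) := by
  have hI' := Int'.of_integral hI
  obtain ⟨hb₂, hb₄, hb₆, hb₈, h2⟩ := hI
  have hsP : s P ≠ 0 := hA.s_ne P hP
  have hη : v (D.x (s P) - D.x P) < 1 := by rw [hA.x_s P hP]; exact hA.inert _ hxI
  have hφI : v (D.x P ^ 4 - D.b₄ * D.x P ^ 2 - 2 * D.b₆ * D.x P - D.b₈) ≤ 1 := by vsm
  have hψI : v (4 * D.x P ^ 3 + D.b₂ * D.x P ^ 2 + 2 * D.b₄ * D.x P + D.b₆) ≤ 1 := by vsm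
  have hψsq := D.ψ_sq P hP
  have hψi : v (D.ψ P) ≤ 1 := i_of_i_sq (by rw [hψsq]; exact hψI)
  have hδ := hA.inert _ hψi
  by_cases hx : D.x (s P) = D.x P
  · rcases D.eq_or _ _ hsP hP hx with h | h
    · left; rw [h, sub_self]; exact zero_mem _
    · right
      have h1 : σ (D.ψ P) = - D.ψ P := by rw [← hA.ψ_s P hP, h, D.ψ_neg]
      rw [h1] at hδ
      have h4 : v (D.ψ P) < 1 := by
        have : - D.ψ P - D.ψ P = - (2 * D.ψ P) := by ring
        rw [this, Valuation.map_neg, map_mul, h2, one_mul] at hδ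
        exact hδ
      exact two_nsmul_mem_E1 hI' hP hxI hNS h4
  · have hx' : D.x P ≠ D.x (s P) := fun h => hx h.symm
    have hs := D.sum _ _ hP hsP hx'
    have hpr := D.prod _ _ hP hsP hx'
    have hps := hΨ.psi_mul _ _ hP hsP hx'
    rw [hA.ψ_s P hP] at hps
    obtain ⟨η, hηdef⟩ : ∃ η, D.x (s P) = D.x P + η := ⟨D.x (s P) - D.x P, by ring⟩
    obtain ⟨δ, hδdef⟩ : ∃ δ, σ (D.ψ P) = D.ψ P + δ := ⟨σ (D.ψ P) - D.ψ P, by ring⟩
    rw [hηdef] at hs hpr hη hps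
    rw [hδdef] at hδ hps
    have hη' : v η < 1 := by simpa using hη
    have hδ' : v δ < 1 := by simpa using hδ
    by_cases hm : 1 < v (D.x (P - s P))
    · left
      refine Or.inr ?_
      rw [← neg_sub, D.x_neg]; exact hm
    · right
      rw [not_lt] at hm
      apply two_nsmul_mem_E1 hI' hP hxI hNS
      apply s_of_s_sq
      have h3 : 2 * D.ψ P ^ 2 = 2 * D.x (P - s P) * η ^ 2
          - η * (6 * D.x P ^ 2 + 2 * D.x P * η + D.b₂ * D.x P + D.b₄) - D.ψ P * δ := by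
        linear_combination hps - hs + hψsq
      have h4 : v (2 * D.ψ P ^ 2) < 1 := by
        rw [h3]; vsm
      rwa [map_mul, h2, one_mul] at h4

end Fermat.Agent.S13
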