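import Mathlib
import Fermat.Agent.S13.LocNS

set_option autoImplicit false

/-!
# S13, local analysis: multiplicative reduction, any residue characteristic
-/

namespace Fermat.Agent.S13

open Fermat.Agent.S05

variable {K : Type*} [Field K] {Γ₀ : Type*} [LinearOrderedCommGroupWithZero Γ₀]
  {v : Valuation K Γ₀} {G : Type*} [AddCommGroup G] {D : XData G K} {β : K}

theorem mult_b₈ (hM : D.Mult v β) (h20 : (2 : K) ≠ 0) : D.b₈ = - β ^ 2 := by
  have h4 : (4 : K) ≠ 0 := by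
    have : (4 : K) = 2 * 2 := by norm_num
    rw [this]; exact mul_ne_zero h20 h20
  apply mul_left_cancel₀ h4
  rw [D.b_rel, hM.b₆, hM.b₄]; ring

theorem mult_prod (hM : D.Mult v β) (h20 : (2 : K) ≠ 0) {P Q : G} (hP : P ≠ 0)
    (hQ : Q ≠ 0) (h : D.x P ≠ D.x Q) :
    (D.x P - D.x Q) ^ 2 * (D.x (P + Q) * D.x (P - Q)) = (D.x P * D.x Q - β) ^ 2 := by
  rw [D.prod P Q hP hQ h, hM.b₆, hM.b₄, mult_b₈ hM h20]; ring

theorem mult_dup (hM : D.Mult v β) (h20 : (2 : K) ≠ 0) {P : G} (hP : P ≠ 0)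
    (hψ : D.ψ P ≠ 0) : D.ψ P ^ 2 * D.x (2 • P) = (D.x P ^ 2 - β) ^ 2 := by
  rw [D.dup P hP hψ, hM.b₆, hM.b₄, mult_b₈ hM h20]; ring

theorem N_closure' (hM : D.Mult v β) (h20 : (2 : K) ≠ 0) {U S : G} (hU : D.IsN v U)
    (hS : S ≠ 0) (hxS : 1 ≤ v (D.x S)) : D.IsN v (U + S) ∧ D.IsN v (U - S) := by
  have hne : D.x U ≠ D.x S := by
    intro h
    rw [← h] at hxS
    exact absurd hU.2 (not_lt.mpr hxS)
  have := N_closure_alg hM.b₂.le hM.β_s (hM.sum hU.1 hS hne) (mult_prod hM h20 hU.1 hS hne) hU.2 hxS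
  exact ⟨⟨add_ne_zero_of_x_ne hne, this.1⟩, ⟨sub_ne_zero_of_x_ne hne, this.2⟩⟩

theorem notN_add' (hM : D.Mult v β) (h20 : (2 : K) ≠ 0) {S S' : G} (hS : ¬ D.IsN v S)
    (hS' : ¬ D.IsN v S') : ¬ D.IsN v (S + S') := by
  intro h
  by_cases h0 : S' = 0
  · rw [h0, add_zero] at h; exact hS h
  · have hx : 1 ≤ v (D.x S') := by
      by_contra hc
      exact hS' ⟨h0, not_le.mp hc⟩
    have := (N_closure' hM h20 h h0 hx).2
    rw [add_sub_cancel_right] at this
    exact hS this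

/-- the points which do not reduce to the node, as a subgroup. -/
def nonN (D : XData G K) (v : Valuation K Γ₀) (β : K) (hM : D.Mult v β) (h20 : (2 : K) ≠ 0) :
    AddSubgroup G where
  carrier := {X | ¬ D.IsN v X}
  zero_mem' := fun h => h.1 rfl
  neg_mem' := by
    intro X hX h
    exact hX ⟨fun h0 => h.1 (by rw [h0, neg_zero]), by have := h.2; rwa [D.x_neg] at this⟩
  add_mem' := fun hX hY => notN_add' hM h20 hX hY

theorem mem_nonN {hM : D.Mult v β} {h20 : (2 : K) ≠ 0} {X : G} :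
    X ∈ nonN D v β hM h20 ↔ ¬ D.IsN v X := Iff.rfl

theorem notN_nsmul' (hM : D.Mult v β) (h20 : (2 : K) ≠ 0) {S : G} (hS : ¬ D.IsN v S) (k : ℕ) :
    ¬ D.IsN v (k • S) :=
  (nonN D v β hM h20).nsmul_mem hS k

theorem N_multiples' (hM : D.Mult v β) (h20 : (2 : K) ≠ 0) {p : ℕ} (hp : p.Prime) {P : G}
    (hP : D.IsN v P) (hpP : p • P = 0) {k : ℕ} (hk : ¬ p ∣ k) : D.IsN v (k • P) := by
  by_contra h
  obtain ⟨j, -, hj⟩ := exists_nsmul_nsmul_eq hp hpP hk
  have := notN_nsmul' hM h20 h j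
  rw [hj] at this
  exact this hP

theorem N_range' (hM : D.Mult v β) (h20 : (2 : K) ≠ 0) {p : ℕ} (hp : p.Prime) (hp2 : p ≠ 2)
    {S T : G} (hS : D.IsN v S) (hpS : p • S = 0) (hT : T ≠ 0) (hxT : D.x T = 0) :
    v β < v (D.x S) := by
  by_contra hcon
  rw [not_lt] at hcon
  have hψT : D.ψ T = 0 := by
    have := hM.ψ_sq hT
    rw [hxT] at this
    simpa using this
  have h2T : 2 • T = 0 := (D.two T hT).mpr hψT
  have hTneg : -T = T := by
    rw [neg_eq_iff_add_eq_zero, ← two_nsmul]; exact h2T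
  have hp3 : ¬ p ∣ 2 := fun hd => by
    have := Nat.le_of_dvd (by omega) hd
    have := hp.two_le
    omega
  have h2S : 2 • S ≠ 0 := nsmul_ne_zero_of_prime hp hS.1 hpS hp3
  have hxS : D.x S ≠ 0 := by
    intro h0
    rcases D.eq_or S T hS.1 hT (by rw [h0, hxT]) with h | h
    · exact h2S (by rw [h]; exact h2T)
    · exact h2S (by rw [h, hTneg]; exact h2T)
  have hne : D.x S ≠ D.x T := by rw [hxT]; exact hxS
  have hs := hM.sum hS.1 hT hne
  have hST : S - T = S + T := by rw [sub_eq_add_neg, hTneg]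
  rw [hST, hxT] at hs
  have hx : D.x S * D.x (S + T) = β := by
    have h3 : (2 * D.x S) ≠ 0 := mul_ne_zero h20 hxS
    apply mul_left_cancel₀ h3
    linear_combination hs
  have hbig : 1 ≤ v (D.x (S + T)) := by
    have h4 := congrArg v hx
    rw [map_mul] at h4
    by_contra hc
    rw [not_le] at hc
    have hpos : 0 < v (D.x S) := zero_lt_iff.mpr ((v.ne_zero_iff).mpr hxS)
    have : v (D.x S) * v (D.x (S + T)) < v (D.x S) * 1 := mul_lt_mul_of_pos_left hc hpos
    rw [h4, mul_one] at this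
    exact absurd this (not_lt.mpr hcon)
  have hnN : ¬ D.IsN v (S + T) := fun h => absurd h.2 (not_lt.mpr hbig)
  have := notN_nsmul' hM h20 hnN p
  obtain ⟨h, rfl⟩ : ∃ h, p = 2 * h + 1 := by
    rcases hp.eq_two_or_odd' with h | h
    · exact absurd h hp2
    · exact h
  rw [smul_add, hpS, zero_add, add_nsmul, mul_comm, mul_nsmul', h2T, smul_zero, zero_add,
    one_nsmul] at this
  exact this ⟨hT, by rw [hxT, map_zero]; exact zero_lt_one⟩

theorem pow_eq_of_max' (hM : D.Mult v β) (h20 : (2 : K) ≠ 0) {p : ℕ} (hp : p.Prime)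
    (hp2 : p ≠ 2) {P₀ T : G} (hP₀ : D.IsN v P₀) (hpP₀ : p • P₀ = 0) (hT : T ≠ 0)
    (hxT : D.x T = 0) (hmax : ∀ j, ¬ p ∣ j → v (D.x (j • P₀)) ≤ v (D.x P₀)) :
    v (D.x P₀) ^ p = v β ^ 2 := by
  have hp3 : 3 ≤ p := by
    have := hp.two_le
    omega
  have hnd : ∀ k, 1 ≤ k → k < p → ¬ p ∣ k := fun k h1 h2 hd => by
    have := Nat.le_of_dvd (by omega) hd
    omega
  have hN : ∀ k, 1 ≤ k → k < p → D.IsN v (k • P₀) := fun k h1 h2' =>
    N_multiples' hM h20 hp hP₀ hpP₀ (hnd k h1 h2')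
  have hpk : ∀ k : ℕ, p • (k • P₀) = 0 := fun k => by rw [smul_comm, hpP₀, smul_zero]
  have hrange : ∀ k, 1 ≤ k → k < p → v β < v (D.x (k • P₀)) := fun k h1 h2' =>
    N_range' hM h20 hp hp2 (hN k h1 h2') (hpk k) hT hxT
  have hr0 : v β < v (D.x P₀) := by simpa using hrange 1 le_rfl (by omega)
  have key := seq_lemma (δ := v (D.x P₀)) (μ := v β) (n := p - 1)
    (fun k => if k = 0 then 1 else v (D.x (k • P₀))) ((v.ne_zero_iff).mpr hM.β_ne) hr0 hP₀.2
    (by omega) (by simp) (by simp) ?_ ?_ ?_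
  · rw [← key]; congr 1; omega
  · have h1 : p - 1 ≠ 0 := by omega
    simp only [h1, if_false]
    have : (p - 1) • P₀ = - P₀ := by
      rw [eq_neg_iff_add_eq_zero]
      nth_rewrite 2 [← one_nsmul P₀]
      rw [← add_nsmul, ← hpP₀]
      congr 1; omega
    rw [this, D.x_neg]
  · intro k h1 hk
    have h0 : k ≠ 0 := by omega
    simp only [h0, if_false]
    exact hrange k h1 (by omega)
  · intro k hk
    refine ⟨v (D.x ((k + 1) • P₀) * D.x P₀ - β), ?_, ?_⟩
    · have hk2 : k + 2 ≠ 0 := by omega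
      simp only [hk2, if_false]
      by_cases hk0 : k = 0
      · subst hk0
        simp only [if_true, mul_one, zero_add, one_nsmul]
        have hψ0 : D.ψ P₀ ≠ 0 := by
          intro h0
          exact nsmul_ne_zero_of_prime hp hP₀.1 hpP₀ (hnd 2 (by omega) (by omega))
            ((D.two P₀ hP₀.1).mpr h0)
        exact dup_node_alg hM.b₂ (hM.ψ_sq hP₀.1) (mult_dup hM h20 hP₀.1 hψ0) hP₀.2 hr0
      · simp only [hk0, if_false]
        have hS := hN (k + 1) (by omega) (by omega)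
        have hne : D.x ((k + 1) • P₀) ≠ D.x P₀ :=
          x_ne_of_prime hp hP₀.1 hpP₀ (by omega) (by omega)
        have e1 : (k + 1) • P₀ + P₀ = (k + 2) • P₀ := by
          rw [show k + 2 = (k + 1) + 1 by ring, add_nsmul _ (k + 1) 1, one_nsmul]
        have e2 : (k + 1) • P₀ - P₀ = k • P₀ := by
          rw [add_nsmul _ k 1, one_nsmul, add_sub_cancel_right]
        have hs := hM.sum hS.1 hP₀.1 hne
        have hpr := mult_prod hM h20 hS.1 hP₀.1 hne
        rw [e1, e2] at hs hpr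
        have hlt : v (D.x ((k + 1) • P₀)) < v (D.x P₀) := by
          refine lt_of_le_of_ne (hmax _ (hnd _ (by omega) (by omega))) ?_
          intro heq
          exact claim1_alg hM.b₂ hs hS.2 (hrange _ (by omega) (by omega)) heq.symm
            (hN (k + 2) (by omega) (by omega)).2 (hN k (by omega) (by omega)).2
        exact rec_alg hpr hlt
    · have hk1 : k + 1 ≠ 0 := by omega
      simp only [hk1, if_false]
      have := v_sub_cases (v := v) (D.x ((k + 1) • P₀) * D.x P₀) β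
      rw [map_mul] at this
      exact this

/-- for a node-reducing `p`-torsion point, some multiple `P₀` satisfies `v(x P₀)^p = v(β)^2`. -/
theorem exists_pow_eq (hM : D.Mult v β) (h20 : (2 : K) ≠ 0) {p : ℕ} (hp : p.Prime)
    (hp2 : p ≠ 2) {P T : G} (hN : D.IsN v P) (hpP : p • P = 0) (hT : T ≠ 0)
    (hxT : D.x T = 0) : ∃ k, ¬ p ∣ k ∧ v (D.x (k • P)) ^ p = v β ^ 2 := by
  have hp3 : 3 ≤ p := by
    have := hp.two_le
    omega
  obtain ⟨k, hk, hkmax⟩ := Finset.exists_max_image (Finset.Icc 1 (p - 1))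
    (fun k => v (D.x (k • P))) ⟨1, by simp; omega⟩
  rw [Finset.mem_Icc] at hk
  have hkd : ¬ p ∣ k := fun hd => by
    have := Nat.le_of_dvd (by omega) hd
    omega
  have hP₀ : D.IsN v (k • P) := N_multiples' hM h20 hp hN hpP hkd
  have hpP₀ : p • (k • P) = 0 := by rw [smul_comm, hpP, smul_zero]
  have hmax : ∀ j, ¬ p ∣ j → v (D.x (j • (k • P))) ≤ v (D.x (k • P)) := by
    intro j hj
    rw [← mul_nsmul', nsmul_mod hpP (j * k)]
    apply hkmax
    rw [Finset.mem_Icc]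
    have h1 : ¬ p ∣ j * k := fun hd => (hp.dvd_mul.mp hd).elim hj hkd
    have h3 : (j * k) % p ≠ 0 := fun h0 => h1 (Nat.dvd_of_mod_eq_zero h0)
    have h4 : (j * k) % p < p := Nat.mod_lt _ (by omega)
    omega
  exact ⟨k, hkd, pow_eq_of_max' hM h20 hp hp2 hP₀ hpP₀ hT hxT hmax⟩

/-- the key identity for the sign. -/
theorem ww_alg {x x' ψ ψ' xp xm b₂ β : K} (hx0 : x ≠ 0) (hx'0 : x' ≠ 0)
    (hsum : (x - x') ^ 2 * (xp + xm) =
      2 * (x * x') * (x + x') + b₂ * (x * x') + 2 * β * (x + x'))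
    (hpsi : ψ * ψ' = (xm - xp) * (x - x') ^ 2) :
    (ψ / x) * (ψ' / x') + b₂ =
      2 * (xm * (x / x' - 2 + x' / x) - (x + x') - (β / x' + β / x)) := by
  field_simp
  linear_combination hpsi - hsum

theorem ww_small {x x' xm β : K} (hx : v x < 1) (hβx : v β < v x) (hxx : v x' = v x)
    (hm : v xm < 1) :
    v (xm * (x / x' - 2 + x' / x) - (x + x') - (β / x' + β / x)) < 1 := by
  have hx0 : x ≠ 0 := by
    rintro rfl
    rw [map_zero] at hβx
    exact absurd hβx (not_lt.mpr zero_le)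
  have hx'0 : x' ≠ 0 := by
    rintro rfl
    rw [map_zero] at hxx
    exact hx0 ((v.zero_iff).mp hxx.symm)
  have h1 : v (x / x') = 1 := u_div_of_eq hx'0 hxx.symm
  have h2 : v (x' / x) = 1 := u_div_of_eq hx0 hxx
  have h3 : v (β / x) < 1 := s_div_of_lt hβx
  have h4 : v (β / x') < 1 := s_div_of_lt (by rw [hxx]; exact hβx)
  have h5 : v x' < 1 := by rw [hxx]; exact hx
  vsm

theorem w_sq_alg {x ψ b₂ β : K} (hx0 : x ≠ 0)
    (hψ : ψ ^ 2 = 4 * x ^ 3 + b₂ * x ^ 2 + 4 * β * x) :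
    (ψ / x) ^ 2 = b₂ + 4 * x + 4 * (β / x) := by
  rw [div_pow, hψ]; field_simp; ring

/-- **sign, odd residue characteristic**: inertia moves a node-reducing point by a point
which does not reduce to the node. -/
theorem notN_sub_odd (hM : D.Mult v β) (h2 : v (2 : K) = 1) (hΨ : HasPsi D) {s : G →+ G}
    {σ : K →+* K} (hA : Inert D v s σ) {P : G} (hP : D.IsN v P) (hr : v β < v (D.x P)) :
    ¬ D.IsN v (s P - P) := by
  intro hN
  have hx0 : D.x P ≠ 0 := by
    intro h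
    rw [h, map_zero] at hr
    exact absurd hr (not_lt.mpr zero_le)
  have hsP : s P ≠ 0 := hA.s_ne P hP.1
  have hxx : v (D.x (s P)) = v (D.x P) := by rw [hA.x_s P hP.1, hA.v_σ]
  have hx'0 : D.x (s P) ≠ 0 := by
    intro h
    rw [h, map_zero] at hxx
    exact hx0 ((v.zero_iff).mp hxx.symm)
  have hτ := tau_unit_alg hM.b₂ (hM.ψ_sq hP.1) hP.2 hr
  have h3 := hA.inert _ hτ.le
  have hσw : σ (D.ψ P / D.x P) = D.ψ (s P) / D.x (s P) := by
    rw [map_div₀, hA.ψ_s P hP.1, hA.x_s P hP.1]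
  rw [hσw] at h3
  by_cases hx : D.x (s P) = D.x P
  · rcases D.eq_or _ _ hsP hP.1 hx with h | h
    · rw [h, sub_self] at hN; exact hN.1 rfl
    · rw [h, D.ψ_neg, D.x_neg] at h3
      have : - D.ψ P / D.x P - D.ψ P / D.x P = - (2 * (D.ψ P / D.x P)) := by ring
      rw [this, Valuation.map_neg, map_mul, h2, one_mul, hτ] at h3
      exact lt_irrefl _ h3
  · have hx' : D.x P ≠ D.x (s P) := fun h => hx h.symm
    have hm : v (D.x (P - s P)) < 1 := by
      have := hN.2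
      rwa [← neg_sub, D.x_neg] at this
    have hww := ww_alg hx0 hx'0 (hM.sum hP.1 hsP hx') (hΨ.psi_mul _ _ hP.1 hsP hx')
    have hsm := ww_small hP.2 hr hxx hm
    have hw2 := w_sq_alg hx0 (hM.ψ_sq hP.1)
    have hβ' : v (β / D.x P) < 1 := s_div_of_lt hr
    have hxs := hP.2
    obtain ⟨δ, hδ⟩ : ∃ δ, D.ψ (s P) / D.x (s P) = D.ψ P / D.x P + δ :=
      ⟨D.ψ (s P) / D.x (s P) - D.ψ P / D.x P, by ring⟩
    rw [hδ] at h3 hww
    have hδ' : v δ < 1 := by simpa using h3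
    generalize D.x (P - s P) * (D.x P / D.x (s P) - 2 + D.x (s P) / D.x P) -
      (D.x P + D.x (s P)) - (β / D.x (s P) + β / D.x P) = ε at hww hsm
    have h5 : 2 * D.b₂ = 2 * ε - 4 * D.x P - 4 * (β / D.x P) - D.ψ P / D.x P * δ := by
      linear_combination hww - hw2
    have h6 : v (2 * D.b₂) < 1 := by
      rw [h5]; vsm
    rw [map_mul, h2, hM.b₂, one_mul] at h6
    exact lt_irrefl _ h6

end Fermat.Agent.S13
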