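import Mathlib
import Fermat.Agent.S13.LocNode

set_option autoImplicit false

/-!
# S13, local analysis at `2`: abstract form
-/

namespace Fermat.Agent.S13

open Fermat.Agent.S05

variable {K : Type*} [Field K] {Γ₀ : Type*} [LinearOrderedCommGroupWithZero Γ₀]
  {v : Valuation K Γ₀} {G : Type*} [AddCommGroup G] {D : XData G K} {β a₂ : K}

/-- multiplicative reduction in residue characteristic `2`, coming from a model
`y² + xy = x³ + a₂x² + βx`. -/
structure Two (D : XData G K) (v : Valuation K Γ₀) (β a₂ : K) : Prop where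
  mult : D.Mult v β
  b₂ : D.b₂ = 1 + 4 * a₂
  a₂ : v a₂ ≤ 1
  two : v (2 : K) < 1
  two_ne : (2 : K) ≠ 0

theorem Two.int' (h : Two D v β a₂) : Int' D v where
  b₂ := h.mult.b₂.le
  b₄ := by
    rw [h.mult.b₄]
    have := h.mult.β_s
    vsm
  b₆ := by rw [h.mult.b₆]; exact i_zero
  b₈ := by
    rw [mult_b₈ h.mult h.two_ne]
    have := h.mult.β_s
    vsm

theorem fixed_of_unit_two (h : Two D v β a₂) {p : ℕ} (hp : p.Prime) (hp2 : p ≠ 2)
    (hvp : v (p : K) = 1) {s : G →+ G} {σ : K →+* K} (hA : D.Inertial v s σ) {P : G}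
    (hpP : p • P = 0) (hN : ¬ D.IsN v P) : s P = P := by
  have hM := h.mult
  have h20 := h.two_ne
  have h2s := h.two
  have ha₂ := h.a₂
  have hβs := hM.β_s
  by_cases hP : P = 0
  · rw [hP, map_zero]
  have hxI : v (D.x P) ≤ 1 := by
    by_contra hc
    exact no_torsion_E1' h.int' hp hp2 hvp hP (not_le.mp hc) hpP
  have hu : v (D.x P) = 1 := u_of_i_of_not_s hxI (fun hc => hN ⟨hP, hc⟩)
  have hsP : s P ≠ 0 := hA.s_ne P hP
  have hpsP : p • s P = 0 := by rw [← map_nsmul, hpP, map_zero]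
  have hη : v (D.x (s P) - D.x P) < 1 := by rw [hA.x_s P hP]; exact hA.inert _ hxI
  by_cases hx : D.x (s P) = D.x P
  · rcases D.eq_or _ _ hsP hP hx with h1 | h1
    · exact h1
    · exfalso
      have hψ := hM.ψ_sq hP
      have hψu : v (D.ψ P ^ 2) = 1 := by
        rw [hψ, show 4 * D.x P ^ 3 + D.b₂ * D.x P ^ 2 + 4 * β * D.x P =
          D.b₂ * D.x P ^ 2 + (2 * (2 * D.x P ^ 3) + 4 * β * D.x P) by ring]
        exact u_add_s (u_mul hM.b₂ (u_pow hu 2)) (by vsm)
      have hy : ((D.ψ P - D.x P) / 2) ^ 2 + D.x P * ((D.ψ P - D.x P) / 2) =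
          D.x P ^ 3 + a₂ * D.x P ^ 2 + β * D.x P := by
        rw [h.b₂] at hψ
        field_simp
        linear_combination hψ
      have hyi : v ((D.ψ P - D.x P) / 2) ≤ 1 := i_of_quadratic hxI (by vsm) hy
      have h3 := hA.inert _ hyi
      have h4 : σ ((D.ψ P - D.x P) / 2) - (D.ψ P - D.x P) / 2 = - D.ψ P := by
        rw [map_div₀, map_sub, ← hA.ψ_s P hP, ← hA.x_s P hP, h1, D.ψ_neg, D.x_neg, map_ofNat]
        field_simp
        ring
      rw [h4, Valuation.map_neg] at h3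
      have : v (D.ψ P ^ 2) < 1 := by vsm
      rw [hψu] at this
      exact lt_irrefl _ this
  · exfalso
    have hx' : D.x P ≠ D.x (s P) := fun h => hx h.symm
    have hpr := mult_prod hM h20 hP hsP hx'
    have hu' : v (D.x (s P)) = 1 := by
      have : D.x (s P) = D.x P + (D.x (s P) - D.x P) := by ring
      rw [this]; exact u_add_s hu hη
    have h5 : v ((D.x P * D.x (s P) - β) ^ 2) = 1 := u_pow (u_sub_s (u_mul hu hu') hβs) 2
    have h6 : v ((D.x P - D.x (s P)) ^ 2) < 1 := by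
      rw [← neg_sub, neg_sq]; vsm
    have hbig := big_of_s_mul_eq_u h6 hpr h5
    rcases big_of_sum_prod (Or.inr hbig) with h7 | h7
    · exact no_torsion_E1' h.int' hp hp2 hvp (add_ne_zero_of_x_ne hx') h7
        (by rw [smul_add, hpP, hpsP, add_zero])
    · exact no_torsion_E1' h.int' hp hp2 hvp (sub_ne_zero_of_x_ne hx') h7
        (by rw [smul_sub, hpP, hpsP, sub_zero])

/-- **sign, residue characteristic 2**. -/
theorem notN_sub_two (h : Two D v β a₂) (hΨ : HasPsi D) {s : G →+ G}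
    {σ : K →+* K} (hA : Inert D v s σ) {P : G} (hP : D.IsN v P) (hr : v β < v (D.x P)) :
    ¬ D.IsN v (s P - P) := by
  intro hN
  have hM := h.mult
  have h20 := h.two_ne
  have h2s := h.two
  have ha₂ := h.a₂
  have hx0 : D.x P ≠ 0 := by
    intro h
    rw [h, map_zero] at hr
    exact absurd hr (not_lt.mpr zero_le)
  have hsP : s P ≠ 0 := hA.s_ne P hP.1
  have hxx : v (D.x (s P)) = v (D.x P) := by rw [hA.x_s P hP.1, hA.v_σ]
  have hx'0 : D.x (s P) ≠ 0 := by
    intro h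
    rw [h, map_zero] at hxx
    exact hx0 ((v.zero_iff).mp hxx.symm)
  have hτ := tau_unit_alg hM.b₂ (hM.ψ_sq hP.1) hP.2 hr
  have hw2 := w_sq_alg hx0 (hM.ψ_sq hP.1)
  have hβ' : v (β / D.x P) < 1 := s_div_of_lt hr
  have hxs := hP.2
  have ht : ((D.ψ P / D.x P - 1) / 2) ^ 2 + 1 * ((D.ψ P / D.x P - 1) / 2) =
      a₂ + D.x P + β / D.x P := by
    rw [h.b₂] at hw2
    generalize D.ψ P / D.x P = w at hw2
    generalize β / D.x P = β' at hw2
    field_simp
    linear_combination hw2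
  have hti : v ((D.ψ P / D.x P - 1) / 2) ≤ 1 := i_of_quadratic i_one (by vsm) ht
  have h3 := hA.inert _ hti
  have hσw : σ ((D.ψ P / D.x P - 1) / 2) = (D.ψ (s P) / D.x (s P) - 1) / 2 := by
    rw [map_div₀, map_sub, map_div₀, hA.ψ_s P hP.1, hA.x_s P hP.1, map_one, map_ofNat]
  rw [hσw] at h3
  by_cases hx : D.x (s P) = D.x P
  · rcases D.eq_or _ _ hsP hP.1 hx with h1 | h1
    · rw [h1, sub_self] at hN; exact hN.1 rfl
    · rw [h1, D.ψ_neg, D.x_neg] at h3
      have : (- D.ψ P / D.x P - 1) / 2 - (D.ψ P / D.x P - 1) / 2 = - (D.ψ P / D.x P) := by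
        field_simp; ring
      rw [this, Valuation.map_neg, hτ] at h3
      exact lt_irrefl _ h3
  · have hx' : D.x P ≠ D.x (s P) := fun h => hx h.symm
    have hm : v (D.x (P - s P)) < 1 := by
      have := hN.2
      rwa [← neg_sub, D.x_neg] at this
    have hww := ww_alg hx0 hx'0 (hM.sum hP.1 hsP hx') (hΨ.psi_mul _ _ hP.1 hsP hx')
    have hsm := ww_small hP.2 hr hxx hm
    generalize D.x (P - s P) * (D.x P / D.x (s P) - 2 + D.x (s P) / D.x P) -
      (D.x P + D.x (s P)) - (β / D.x (s P) + β / D.x P) = ε at hww hsm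
    obtain ⟨t, ht'⟩ : ∃ t, D.ψ P / D.x P = 2 * t + 1 :=
      ⟨(D.ψ P / D.x P - 1) / 2, by field_simp; ring⟩
    obtain ⟨δ, hδ⟩ : ∃ δ, D.ψ (s P) / D.x (s P) = 2 * (t + δ) + 1 :=
      ⟨(D.ψ (s P) / D.x (s P) - 1) / 2 - t, by field_simp; ring⟩
    rw [ht', hδ] at h3 hww
    rw [ht'] at hti
    have hti' : v t ≤ 1 := by
      have : (2 * t + 1 - 1) / 2 = t := by field_simp; ring
      rwa [this] at hti
    have hδ' : v δ < 1 := by
      have : (2 * (t + δ) + 1 - 1) / 2 - (2 * t + 1 - 1) / 2 = δ := by field_simp; ring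
      rwa [this] at h3
    rw [h.b₂] at hww
    have h5 : (1 : K) = ε - 2 * t ^ 2 - 2 * t * δ - 2 * t - δ - 2 * a₂ := by
      apply mul_left_cancel₀ h20
      linear_combination hww
    have h6 : v (1 : K) < 1 := by
      rw [h5]; vsm
    rw [map_one] at h6
    exact lt_irrefl _ h6

theorem exists_Z_two (h : Two D v β a₂) (hΨ : HasPsi D) {p : ℕ} (hp : p.Prime) (hp2 : p ≠ 2)
    (hvp : v (p : K) = 1) {T : G} (hT : T ≠ 0) (hxT : D.x T = 0) :
    ∃ Z : AddSubgroup G, ∀ (s : G →+ G) (σ : K →+* K), Inert D v s σ →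
      (∀ X, p • X = 0 → s X - X ∈ Z) ∧ (∀ X ∈ Z, p • X = 0 → s X = X) := by
  refine ⟨nonN D v β h.mult h.two_ne, fun s σ hA => ⟨fun P hpP => ?_, fun P hP hpP => ?_⟩⟩
  · by_cases hN : D.IsN v P
    · exact notN_sub_two h hΨ hA hN (N_range' h.mult h.two_ne hp hp2 hN hpP hT hxT)
    · rw [fixed_of_unit_two h hp hp2 hvp hA.toInertial hpP hN, sub_self]
      exact zero_mem _
  · exact fixed_of_unit_two h hp hp2 hvp hA.toInertial hpP hP

end Fermat.Agent.S13
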