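import Mathlib
import Fermat.Agent.S13.Loc2

set_option autoImplicit false

/-!
# S13, local analysis at `2`: no rational `p`-torsion (abstract form)
-/

namespace Fermat.Agent.S13

open Fermat.Agent.S05

variable {K : Type*} [Field K] {Γ₀ : Type*} [LinearOrderedCommGroupWithZero Γ₀]
  {v : Valuation K Γ₀} {G : Type*} [AddCommGroup G] {D : XData G K} {β a₂ : K}

theorem no_rat_two (h : Two D v β a₂) {p : ℕ} (hp : p.Prime) (hp5 : 5 ≤ p)
    (hvp : v (p : K) = 1) {T : G} (hT : T ≠ 0) (hxT : D.x T = 0)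
    (hβ : ∃ m : ℤ, v β = v (2 : K) ^ m ∧ ¬ (p : ℤ) ∣ 2 * m)
    {X : G} (hX : X ≠ 0) (hpX : p • X = 0)
    (hrat : ∀ k, ¬ p ∣ k → (∃ m : ℤ, v (D.x (k • X)) = v (2 : K) ^ m) ∧
      (v (D.x (k • X)) = 1 → v (D.x (k • X) - 1) < 1)) : False := by
  have hM := h.mult
  have h20 := h.two_ne
  have h2s := h.two
  have hβs := hM.β_s
  have hp2 : p ≠ 2 := by omega
  have hv2pos : 0 < v (2 : K) := zero_lt_iff.mpr ((v.ne_zero_iff).mpr h20)
  have hnN : ¬ D.IsN v X := by
    intro hN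
    obtain ⟨k, hk, hpow⟩ := exists_pow_eq hM h20 hp hp2 hN hpX hT hxT
    obtain ⟨⟨m', hm'⟩, -⟩ := hrat k hk
    obtain ⟨m, hm, hmd⟩ := hβ
    rw [hm', hm, ← zpow_natCast, ← zpow_natCast, ← zpow_mul, ← zpow_mul] at hpow
    have := zpow_right_injective₀ hv2pos h2s.ne hpow
    apply hmd
    exact ⟨m', by push_cast at this; linarith⟩
  have hnd : ∀ k, 1 ≤ k → k < p → ¬ p ∣ k := fun k h1 h2 hd => by
    have := Nat.le_of_dvd (by omega) hd
    omega
  have hunit : ∀ k, 1 ≤ k → k < p → k • X ≠ 0 ∧ v (D.x (k • X)) = 1 := by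
    intro k h1 h2
    have h0 : k • X ≠ 0 := nsmul_ne_zero_of_prime hp hX hpX (hnd k h1 h2)
    refine ⟨h0, ?_⟩
    have hxI : v (D.x (k • X)) ≤ 1 := by
      by_contra hc
      exact no_torsion_E1' h.int' hp hp2 hvp h0 (not_le.mp hc) (by rw [smul_comm, hpX, smul_zero])
    exact u_of_i_of_not_s hxI (fun hc => notN_nsmul' hM h20 hnN k ⟨h0, hc⟩)
  obtain ⟨h10, h1u⟩ := hunit 1 le_rfl (by omega)
  obtain ⟨h20', h2u⟩ := hunit 2 (by omega) (by omega)
  obtain ⟨h30, h3u⟩ := hunit 3 (by omega) (by omega)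
  have c1 := (hrat 1 (hnd 1 le_rfl (by omega))).2 h1u
  have c2 := (hrat 2 (hnd 2 (by omega) (by omega))).2 h2u
  rw [one_nsmul] at h1u c1
  have hd : v (D.x (2 • X) - D.x X) < 1 := by
    have : D.x (2 • X) - D.x X = (D.x (2 • X) - 1) - (D.x X - 1) := by ring
    rw [this]; exact s_sub c2 c1
  by_cases hx : D.x (2 • X) = D.x X
  · rcases D.eq_or _ _ h20' hX hx with h1 | h1
    · apply hX
      have : 2 • X - X = 0 := by rw [h1, sub_self]
      rwa [two_nsmul, add_sub_cancel_right] at this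
    · apply h30
      rw [show 3 = 2 + 1 by norm_num, add_nsmul, one_nsmul, h1, neg_add_cancel]
  · have hpr := mult_prod hM h20 h20' hX hx
    have e1 : 2 • X + X = 3 • X := by
      rw [show 3 = 2 + 1 by norm_num, add_nsmul, one_nsmul]
    have e2 : 2 • X - X = X := by rw [two_nsmul, add_sub_cancel_right]
    rw [e1, e2] at hpr
    have h5 : v ((D.x (2 • X) * D.x X - β) ^ 2) = 1 := u_pow (u_sub_s (u_mul h2u h1u) hβs) 2
    have h6 : v ((D.x (2 • X) - D.x X) ^ 2) < 1 := by vsm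
    have hbig := big_of_s_mul_eq_u h6 hpr h5
    rw [map_mul, h3u, h1u, one_mul] at hbig
    exact lt_irrefl _ hbig

end Fermat.Agent.S13
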