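import Mathlib
import Fermat.Agent.S05.FreyFix
import Fermat.Agent.S13.LocBase

set_option autoImplicit false
set_option linter.unusedSectionVars false

/-!
# S13, local analysis: instantiation of the abstract data
-/

namespace Fermat.Agent.S13

open Fermat.Agent.S05 WeierstrassCurve WeierstrassCurve.Affine

section psi

variable {F : Type*} [Field F] [DecidableEq F] {W : Affine F}

theorem ppsi_mul' {P Q : W.Point} (hP : P ≠ 0) (hQ : Q ≠ 0) (h : px P ≠ px Q) :
    ppsi P * ppsi Q = (px (P - Q) - px (P + Q)) * (px P - px Q) ^ 2 := by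
  rcases P with _ | ⟨x₁, y₁, h₁⟩
  · exact absurd rfl hP
  rcases Q with _ | ⟨x₂, y₂, h₂⟩
  · exact absurd rfl hQ
  simp only [px_some] at h
  have hd : x₁ - x₂ ≠ 0 := sub_ne_zero.mpr h
  rw [sub_eq_add_neg (Point.some x₁ y₁ h₁), Point.neg_some, px_add_of_ne _ _ h,
    px_add_of_ne _ _ h]
  simp only [px_some, ppsi_some, Affine.negY]
  field_simp
  ring

theorem xdata_hasPsi (W : Affine F) : HasPsi (xdata W) where
  psi_mul _ _ := ppsi_mul'

end psi

section inert

local notation "Qb" => AlgebraicClosure ℚ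

theorem exists_iterate_eq (σ : Qb ≃ₐ[ℚ] Qb) (a : Qb) :
    ∃ n : ℕ, 0 < n ∧ ((σ : Qb →+* Qb)^[n]) a = a := by
  have halg : IsAlgebraic ℚ a := (AlgebraicClosure.isAlgebraic ℚ).isAlgebraic a
  have hint : IsIntegral ℚ a := halg.isIntegral
  have hfin : ((minpoly ℚ a).rootSet Qb).Finite := Polynomial.rootSet_finite _ _
  have hmem : ∀ n : ℕ, ((σ : Qb →+* Qb)^[n]) a ∈ (minpoly ℚ a).rootSet Qb := by
    intro n
    induction n with
    | zero =>
      rw [Function.iterate_zero, id, Polynomial.mem_rootSet]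
      exact ⟨minpoly.ne_zero hint, minpoly.aeval ℚ a⟩
    | succ n ih =>
      rw [Function.iterate_succ_apply']
      rw [Polynomial.mem_rootSet] at ih ⊢
      refine ⟨ih.1, ?_⟩
      have := Polynomial.aeval_algHom_apply σ.toAlgHom (((σ : Qb →+* Qb)^[n]) a) (minpoly ℚ a)
      rw [ih.2, map_zero] at this
      exact this
  obtain ⟨i, j, hij, heq⟩ := hfin.exists_lt_map_eq_of_forall_mem hmem
  refine ⟨j - i, by omega, ?_⟩
  have hinj : Function.Injective ((σ : Qb →+* Qb)^[i]) :=
    Function.Injective.iterate (RingHom.injective _) i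
  apply hinj
  rw [← Function.iterate_add_apply, show i + (j - i) = j by omega]
  exact heq.symm

theorem inert_of_mem (W' : WeierstrassCurve ℚ) (A : ValuationSubring Qb) {σ : Qb ≃ₐ[ℚ] Qb}
    (hσ : σ ∈ A.inertiaSubgroupIn ℚ) :
    Inert (xdata (W'⁄Qb)) A.valuation (Point.map (W' := W') σ.toAlgHom) (σ : Qb →+* Qb) where
  toInertial := inertial_of_mem W' A hσ
  v_σ := v_map_eq_of_inert (inertial_of_mem W' A hσ).inert (exists_iterate_eq σ)

end inert

end Fermat.Agent.S13
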