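import Mathlib
import Fermat.Agent.S13.LocInst
import Fermat.Agent.S13.Loc2Rat

set_option autoImplicit false
set_option linter.unusedSectionVars false

/-!
# S13, local analysis at `2` for the Frey curve
-/

namespace Fermat.Agent.S13

open Fermat.Agent.S05 WeierstrassCurve WeierstrassCurve.Affine

section val2

variable {K : Type*} [Field K] {Γ₀ : Type*} [LinearOrderedCommGroupWithZero Γ₀]
  {v : Valuation K Γ₀}

theorem v_natCast_two (h2 : v (2 : K) < 1) {n : ℕ} (hn : n ≠ 0) :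
    ∃ k : ℕ, v (n : K) = v (2 : K) ^ k ∧ (2 ∣ n → 1 ≤ k) := by
  obtain ⟨e, n', hn', rfl⟩ := Nat.exists_eq_pow_mul_and_not_dvd hn 2 (by norm_num)
  refine ⟨e, ?_, ?_⟩
  · have h2' : v ((2 : ℕ) : K) < 1 := by simpa using h2
    have := u_natCast_of_not_dvd (v := v) Nat.prime_two h2' hn'
    rw [Nat.cast_mul, Nat.cast_pow, map_mul, map_pow, this, mul_one, Nat.cast_ofNat]
  · intro hd
    by_contra hc
    have : e = 0 := by omega
    subst this
    rw [pow_zero, one_mul] at hd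
    exact hn' hd

theorem v_intCast_two (h2 : v (2 : K) < 1) {n : ℤ} (hn : n ≠ 0) :
    ∃ k : ℕ, v (n : K) = v (2 : K) ^ k ∧ ((2 : ℤ) ∣ n → 1 ≤ k) := by
  obtain ⟨k, hk, hk2⟩ := v_natCast_two (v := v) h2 (n := n.natAbs) (Int.natAbs_ne_zero.mpr hn)
  refine ⟨k, ?_, fun hd => hk2 (by
    have := Int.natAbs_dvd_natAbs.mpr hd
    simpa using this)⟩
  rw [← hk]
  rcases Int.natAbs_eq n with h | h
  · conv_lhs => rw [h]
    rw [Int.cast_natCast]
  · conv_lhs => rw [h]
    rw [Int.cast_neg, Int.cast_natCast, Valuation.map_neg]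

variable [CharZero K]

theorem v_ratCast_two (h2 : v (2 : K) < 1) {r : ℚ} (hr : r ≠ 0) :
    (∃ m : ℤ, v (r : K) = v (2 : K) ^ m) ∧ (v (r : K) = 1 → v ((r : K) - 1) < 1) := by
  have h20 : (2 : K) ≠ 0 := by norm_num
  have hv2 : v (2 : K) ≠ 0 := (v.ne_zero_iff).mpr h20
  have hnum : r.num ≠ 0 := Rat.num_ne_zero.mpr hr
  have hden : r.den ≠ 0 := r.den_ne_zero
  have hdenK : (r.den : K) ≠ 0 := Nat.cast_ne_zero.mpr hden
  have hr' : (r : K) = (r.num : K) / (r.den : K) := by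
    conv_lhs => rw [← Rat.num_div_den r]
    push_cast
    rfl
  obtain ⟨k₁, hk₁, -⟩ := v_intCast_two (v := v) h2 hnum
  obtain ⟨k₂, hk₂, -⟩ := v_natCast_two (v := v) h2 hden
  have h2' : v ((2 : ℕ) : K) < 1 := by simpa using h2
  refine ⟨⟨(k₁ : ℤ) - k₂, ?_⟩, ?_⟩
  · rw [hr', map_div₀, hk₁, hk₂, zpow_sub₀ hv2, zpow_natCast, zpow_natCast]
  · intro hu
    rw [hr', map_div₀] at hu
    have hvd : v (r.den : K) ≠ 0 := (v.ne_zero_iff).mpr hdenK
    have heq : v (r.num : K) = v (r.den : K) := by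
      rwa [div_eq_one_iff_eq hvd] at hu
    -- the denominator is odd
    have hdodd : ¬ 2 ∣ r.den := by
      intro hd
      have hnodd : ¬ (2 : ℤ) ∣ r.num := by
        intro hn
        have hcop := r.reduced
        have h1 : 2 ∣ r.num.natAbs := by
          have := Int.natAbs_dvd_natAbs.mpr hn
          simpa using this
        have := Nat.dvd_gcd h1 hd
        rw [hcop] at this
        omega
      have h3 := u_intCast_of_not_dvd (v := v) Nat.prime_two h2' (n := r.num)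
        (by exact_mod_cast hnodd)
      have h4 : v (r.den : K) < 1 := by
        obtain ⟨c, hc⟩ := hd
        rw [hc, Nat.cast_mul, Nat.cast_ofNat]
        exact s_mul_i h2 (i_natCast c)
      rw [← heq, h3] at h4
      exact lt_irrefl _ h4
    have hdu := u_natCast_of_not_dvd (v := v) Nat.prime_two h2' hdodd
    have hnodd : ¬ (2 : ℤ) ∣ r.num := by
      intro hn
      have h4 := s_intCast_of_dvd (v := v) h2' (n := r.num) (by exact_mod_cast hn)
      rw [heq, hdu] at h4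
      exact lt_irrefl _ h4
    have heven : (2 : ℤ) ∣ r.num - r.den := by
      have h5 : ¬ (2 : ℤ) ∣ (r.den : ℤ) := by exact_mod_cast hdodd
      omega
    have h6 : (r : K) - 1 = ((r.num - r.den : ℤ) : K) / (r.den : K) := by
      rw [hr']; push_cast; field_simp
    rw [h6, map_div₀, hdu, div_one]
    exact s_intCast_of_dvd (v := v) h2' (by exact_mod_cast heven)

end val2

section frey2

variable {K : Type*} [Field K] [DecidableEq K] [Algebra ℚ K] [CharZero K]
  {Γ₀ : Type*} [LinearOrderedCommGroupWithZero Γ₀] {v : Valuation K Γ₀}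

variable (P : FreyPackage)

theorem frey_two_dvd_b : (2 : ℤ) ∣ P.b := (ZMod.intCast_zmod_eq_zero_iff_dvd P.b 2).1 P.hb2

theorem frey_not_two_dvd_a : ¬ (2 : ℤ) ∣ P.a := by
  intro h
  have h1 := P.ha4
  obtain ⟨c, hc⟩ := h
  rw [hc] at h1
  push_cast at h1
  generalize (c : ZMod 4) = d at h1
  revert d
  decide

theorem frey_four_dvd : (4 : ℤ) ∣ P.b ^ P.p - 1 - P.a ^ P.p := by
  have h1 : (4 : ℤ) ∣ P.b ^ P.p := by
    obtain ⟨c, hc⟩ := frey_two_dvd_b P
    have hp := P.hp5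
    obtain ⟨k, hk⟩ : ∃ k, P.p = k + 2 := ⟨P.p - 2, by omega⟩
    rw [hc, hk, mul_pow, pow_add]
    exact ⟨2 ^ k * (c ^ k * c ^ 2), by ring⟩
  have h2 : (4 : ℤ) ∣ P.a ^ P.p + 1 := by
    have : (((P.a ^ P.p + 1 : ℤ)) : ZMod 4) = 0 := by
      push_cast
      rw [P.ha4, show (3 : ZMod 4) = -1 by decide, P.hp_odd.neg_one_pow]
      ring
    exact (ZMod.intCast_zmod_eq_zero_iff_dvd _ 4).1 this
  have : P.b ^ P.p - 1 - P.a ^ P.p = P.b ^ P.p - (P.a ^ P.p + 1) := by ring
  rw [this]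
  exact dvd_sub h1 h2

theorem frey_v_beta (h2 : v (2 : K) < 1) :
    ∃ k : ℕ, 1 ≤ k ∧ v (-(P.a : K) ^ P.p * (P.b : K) ^ P.p / 16) = v (2 : K) ^ k ∧
      ¬ (P.p : ℤ) ∣ 2 * (k : ℤ) := by
  have h20 : (2 : K) ≠ 0 := by norm_num
  have hv2 : v (2 : K) ≠ 0 := (v.ne_zero_iff).mpr h20
  have h2' : v ((2 : ℕ) : K) < 1 := by simpa using h2
  have hva : v (P.a : K) = 1 := u_intCast_of_not_dvd (v := v) Nat.prime_two h2'
    (by exact_mod_cast frey_not_two_dvd_a P)
  obtain ⟨t, ht, ht1⟩ := v_intCast_two (v := v) h2 P.hb0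
  have ht1 := ht1 (frey_two_dvd_b P)
  have hp5 := P.hp5
  have htp : 5 ≤ t * P.p := by nlinarith
  refine ⟨t * P.p - 4, by omega, ?_, ?_⟩
  · have h16 : v (16 : K) = v (2 : K) ^ 4 := by
      rw [← map_pow]; norm_num
    rw [map_div₀, map_mul, Valuation.map_neg, map_pow, map_pow, hva, one_pow, one_mul, ht, h16,
      ← pow_mul, div_eq_iff (pow_ne_zero 4 hv2), ← pow_add]
    congr 1
    omega
  · intro hd
    have hd' : P.p ∣ 2 * (t * P.p - 4) := by exact_mod_cast hd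
    have h8 : P.p ∣ 8 := by
      have h3 : 2 * (t * P.p - 4) + 8 = P.p * (2 * t) := by
        have : 2 * (t * P.p - 4) + 8 = 2 * (t * P.p) := by omega
        rw [this]; ring
      exact (Nat.dvd_add_right hd').mp (h3 ▸ Dvd.intro _ rfl)
    have hle := Nat.le_of_dvd (by norm_num) h8
    have hpp := P.pp
    interval_cases P.p <;> first | omega | (norm_num at hpp)

theorem frey_two (h2 : v (2 : K) < 1) :
    Two (xdata (P.freyCurve⁄K)) v (-(P.a : K) ^ P.p * (P.b : K) ^ P.p / 16)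
      (((P.b : K) ^ P.p - 1 - (P.a : K) ^ P.p) / 4) where
  mult := by
    have ha0 : (P.a : K) ≠ 0 := Int.cast_ne_zero.mpr P.ha0
    have hb0 : (P.b : K) ≠ 0 := Int.cast_ne_zero.mpr P.hb0
    have h2' : v ((2 : ℕ) : K) < 1 := by simpa using h2
    refine ⟨frey_b₆ P, frey_b₄ P, ?_, ?_, ?_⟩
    · change v (P.freyCurve⁄K).b₂ = 1
      rw [frey_b₂]
      have hva : v (P.a : K) = 1 := u_intCast_of_not_dvd (v := v) Nat.prime_two h2'
        (by exact_mod_cast frey_not_two_dvd_a P)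
      have hvb : v (P.b : K) < 1 := s_intCast_of_dvd (v := v) h2'
        (by exact_mod_cast frey_two_dvd_b P)
      exact s_sub_u (s_pow hvb P.hp0) (u_pow hva _)
    · obtain ⟨k, hk1, hk, -⟩ := frey_v_beta (v := v) P h2
      rw [hk]
      exact pow_lt_one₀ zero_le h2 (by omega)
    · have h16 : (16 : K) ≠ 0 := by norm_num
      exact div_ne_zero (mul_ne_zero (neg_ne_zero.mpr (pow_ne_zero _ ha0)) (pow_ne_zero _ hb0)) h16
  b₂ := by
    change (P.freyCurve⁄K).b₂ = _
    rw [frey_b₂]; ring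
  a₂ := by
    obtain ⟨n, hn⟩ := frey_four_dvd P
    have : ((P.b : K) ^ P.p - 1 - (P.a : K) ^ P.p) / 4 = (n : K) := by
      have h4 : (4 : K) ≠ 0 := by norm_num
      rw [div_eq_iff h4]
      have := congrArg (Int.cast : ℤ → K) hn
      push_cast at this
      rw [this]; ring
    rw [this]
    exact i_intCast n
  two := h2
  two_ne := by norm_num

theorem frey_nonsingular_zero : (P.freyCurve⁄K).Nonsingular 0 0 := by
  have ha0 : (P.a : K) ≠ 0 := Int.cast_ne_zero.mpr P.ha0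
  have hb0 : (P.b : K) ≠ 0 := Int.cast_ne_zero.mpr P.hb0
  have h16 : (16 : K) ≠ 0 := by norm_num
  rw [Affine.nonsingular_zero]
  refine ⟨frey_a₆ P, Or.inr ?_⟩
  rw [frey_a₄]
  exact div_ne_zero (mul_ne_zero (neg_ne_zero.mpr (pow_ne_zero _ ha0)) (pow_ne_zero _ hb0)) h16

end frey2

end Fermat.Agent.S13
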