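import Mathlib
import Fermat.Prelude.Def_FLTPrelim_GaloisRep
import Fermat.Prelude.Def_FLTPrelim_Ramification
import Fermat.Agent.Lib.Frobenius
import Fermat.Agent.S13.LocFrey2

set_option autoImplicit false
set_option linter.unusedSectionVars false

/-!
# S13, local analysis at `2` for the Frey curve: final statements
-/

namespace Fermat.Agent.S13

open Fermat.Agent.S05 WeierstrassCurve WeierstrassCurve.Affine WeierstrassCurve.Affine.Point

local notation "Qb" => AlgebraicClosure ℚ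
local notation "GQ" => (AlgebraicClosure ℚ ≃ₐ[ℚ] AlgebraicClosure ℚ)

theorem v_two_lt_one {A : ValuationSubring Qb} (hA : A.LiesOverPrime 2) :
    A.valuation (2 : Qb) < 1 := by
  have := A.mem_nonunits_iff.mp hA
  simpa using this

theorem v_p_eq_one_of_two (P : FreyPackage) {A : ValuationSubring Qb} (hA : A.LiesOverPrime 2) :
    A.valuation ((P.p : ℕ) : Qb) = 1 := by
  have hvq : A.valuation ((2 : ℕ) : Qb) < 1 := A.mem_nonunits_iff.mp hA
  refine u_natCast_of_not_dvd Nat.prime_two hvq (fun h => ?_)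
  have := (Nat.prime_dvd_prime_iff_eq Nat.prime_two P.pp).mp h
  have := P.hp5
  omega

/-- **LOC2**. -/
theorem loc2 (P : FreyPackage) (A : ValuationSubring Qb) (hA : A.LiesOverPrime 2) :
    ∃ Z : AddSubgroup (P.freyCurve⁄Qb).Point,
      (∀ σ ∈ A.inertiaSubgroupIn ℚ, ∀ X, P.p • X = 0 → σ • X - X ∈ Z) ∧
      (∀ σ ∈ A.inertiaSubgroupIn ℚ, ∀ X ∈ Z, P.p • X = 0 → σ • X = X) := by
  have hp2 : P.p ≠ 2 := by have := P.hp5; omega
  obtain ⟨Z, hZ⟩ := exists_Z_two (frey_two (v := A.valuation) P (v_two_lt_one hA))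
    (xdata_hasPsi _) P.pp hp2 (v_p_eq_one_of_two P hA)
    (T := Point.some 0 0 (frey_nonsingular_zero P)) (Point.some_ne_zero _) rfl
  exact ⟨Z, fun σ hσ => (hZ _ _ (inert_of_mem P.freyCurve A hσ)).1,
    fun σ hσ => (hZ _ _ (inert_of_mem P.freyCurve A hσ)).2⟩

theorem px_smul' (E : Affine ℚ) (σ : GQ) (X : (E⁄Qb).Point) : px (σ • X) = σ (px X) := by
  rcases X with _ | ⟨x, y, h⟩
  · change px (0 : (E⁄Qb).Point) = σ 0
    simp
  · rfl

/-- **(2iii)**: the Frey curve has no rational point of order `p`. -/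
theorem no_rational_torsion (P : FreyPackage) {X : (P.freyCurve⁄Qb).Point} (hX : X ≠ 0)
    (hpX : P.p • X = 0) (hfix : ∀ σ : GQ, σ • X = X) : False := by
  obtain ⟨A, hA⟩ := Fermat.Agent.Lib.Frobenius.exists_liesOverPrime 2 Nat.prime_two
  have h2 := v_two_lt_one hA
  have hp2 : P.p ≠ 2 := by have := P.hp5; omega
  have hT0 : (Point.some 0 0 (frey_nonsingular_zero P) : (P.freyCurve⁄Qb).Point) ≠ 0 :=
    Point.some_ne_zero _
  obtain ⟨k, -, hk, hkd⟩ := frey_v_beta (v := A.valuation) P h2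
  refine no_rat_two (frey_two (v := A.valuation) P h2) P.pp P.hp5 (v_p_eq_one_of_two P hA)
    (T := Point.some 0 0 (frey_nonsingular_zero P)) hT0 rfl
    ⟨k, by rw [hk, zpow_natCast], hkd⟩ hX hpX ?_
  intro j hj
  have hfixj : ∀ σ : GQ, σ (px (j • X)) = px (j • X) := by
    intro σ
    rw [← px_smul', show σ • (j • X) = j • (σ • X) from (Point.map σ.toAlgHom).map_nsmul j X,
      hfix σ]
  have := Fermat.Agent.Lib.Frobenius.instIsGaloisQbar
  obtain ⟨r, hr⟩ := (InfiniteGalois.mem_range_algebraMap_iff_fixed (k := ℚ) (px (j • X))).mpr hfixj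
  have hr' : px (j • X) = (r : Qb) := by rw [← hr]; exact eq_ratCast _ r
  have hjX : j • X ≠ 0 := nsmul_ne_zero_of_prime P.pp hX hpX hj
  have hr0 : r ≠ 0 := by
    rintro rfl
    rw [Rat.cast_zero] at hr'
    have h2T : 2 • (Point.some 0 0 (frey_nonsingular_zero P) : (P.freyCurve⁄Qb).Point) = 0 := by
      rw [two_nsmul_eq_zero_iff hT0, ppsi_some, frey_a₃]
      ring
    have h2j : 2 • (j • X) = 0 := by
      rcases eq_or_eq_neg_of_px_eq hjX hT0 (by rw [hr']; rfl) with h | h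
      · rw [h, h2T]
      · rw [h, neg_nsmul, h2T, _root_.neg_zero]
    have hnd : ¬ P.p ∣ 2 := fun hd => by
      have := Nat.le_of_dvd (by omega) hd
      have := P.hp5
      omega
    exact nsmul_ne_zero_of_prime P.pp hjX (by rw [nsmul_left_comm, hpX, nsmul_zero]) hnd h2j
  change (∃ m : ℤ, A.valuation (px (j • X)) = A.valuation (2 : Qb) ^ m) ∧
    (A.valuation (px (j • X)) = 1 → A.valuation (px (j • X) - 1) < 1)
  rw [hr']
  exact v_ratCast_two h2 hr0

end Fermat.Agent.S13
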