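import Mathlib
import Fermat.Agent.S05.FreyFix

set_option autoImplicit false
set_option linter.unusedSectionVars false

/-!
# S13: inertia at `p` acts trivially modulo the kernel of reduction (abstract `x`-only part)
-/

namespace Fermat.Agent.S13

open Fermat.Agent.S05
open WeierstrassCurve WeierstrassCurve.Affine

section identity

variable {F : Type*} [Field F] [DecidableEq F] {W : Affine F}

theorem ppsi_mul {P Q : W.Point} (hP : P ≠ 0) (hQ : Q ≠ 0) (h : px P ≠ px Q) :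
    ppsi P * ppsi Q = -(px (P + Q) - px (P - Q)) * (px P - px Q) ^ 2 := by
  rcases P with _ | ⟨x₁, y₁, h₁⟩
  · exact absurd rfl hP
  rcases Q with _ | ⟨x₂, y₂, h₂⟩
  · exact absurd rfl hQ
  simp only [px_some] at h
  have hd : x₁ - x₂ ≠ 0 := sub_ne_zero.mpr h
  rw [sub_eq_add_neg (Point.some x₁ y₁ h₁), Point.neg_some, px_add_of_ne _ _ h,
    px_add_of_ne _ _ h]
  simp only [px_some, ppsi_some, Affine.negY]
  field_simp
  ring

end identity

variable {G : Type*} [AddCommGroup G] {K : Type*} [Field K]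
  {Γ₀ : Type*} [LinearOrderedCommGroupWithZero Γ₀]

/-- the extra identity for the signs. -/
def HasDD (D : XData G K) : Prop :=
  ∀ P Q, P ≠ 0 → Q ≠ 0 → D.x P ≠ D.x Q →
    D.ψ P * D.ψ Q = -(D.x (P + Q) - D.x (P - Q)) * (D.x P - D.x Q) ^ 2

theorem HasDD.shift {D : XData G K} (h : HasDD D) (r : K) : HasDD (D.shift r) := by
  intro P Q hP hQ hx
  have hx' : D.x P ≠ D.x Q := fun h0 => hx (by change D.x P - r = D.x Q - r; rw [h0])
  have := h P Q hP hQ hx'
  change D.ψ P * D.ψ Q = -((D.x (P + Q) - r) - (D.x (P - Q) - r)) * ((D.x P - r) - (D.x Q - r)) ^ 2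
  rw [this]; ring

theorem hasDD_xdata {F : Type*} [Field F] [DecidableEq F] (W : Affine F) : HasDD (xdata W) :=
  fun _ _ hP hQ h => ppsi_mul hP hQ h

/-- the kernel of reduction. -/
def InZ (D : XData G K) (v : Valuation K Γ₀) (X : G) : Prop := X = 0 ∨ 1 < v (D.x X)

variable {D : XData G K} {v : Valuation K Γ₀}

theorem InZ.neg {X : G} (h : InZ D v X) : InZ D v (-X) := by
  rcases h with rfl | h
  · left; simp
  · right; rwa [D.x_neg]

theorem InZ.add (hI : D.Integral v) {X Y : G} (hX : InZ D v X) (hY : InZ D v Y) :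
    InZ D v (X + Y) := by
  obtain ⟨hb₂, hb₄, hb₆, hb₈, h2⟩ := hI
  by_cases hX0 : X = 0
  · rw [hX0, zero_add]; exact hY
  by_cases hY0 : Y = 0
  · rw [hY0, add_zero]; exact hX
  have hX := hX.resolve_left hX0
  have hY := hY.resolve_left hY0
  by_cases hx : D.x X = D.x Y
  · rcases D.eq_or _ _ hX0 hY0 hx with h | h
    · right
      rw [← h, ← two_nsmul]
      have hψ := D.ψ_sq X hX0
      have hψ0 := F_dup_ne_zero hb₂ hb₄ hb₆ h2 hψ hX
      exact (F_dup_alg hb₂ hb₄ hb₆ hb₈ h2 hψ (D.dup X hX0 hψ0) hX).1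
    · left
      rw [h, neg_add_cancel]
  · right
    exact (F_generic_alg hb₂ hb₄ hb₆ hb₈ (D.sum _ _ hX0 hY0 hx) (D.prod _ _ hX0 hY0 hx) hX hY).1

theorem InZ.sub (hI : D.Integral v) {X Y : G} (hX : InZ D v X) (hY : InZ D v Y) :
    InZ D v (X - Y) := by
  rw [sub_eq_add_neg]; exact hX.add hI hY.neg

theorem InZ.zero : InZ D v (0 : G) := Or.inl rfl

theorem InZ.nsmul (hI : D.Integral v) {X : G} (hX : InZ D v X) (k : ℕ) : InZ D v (k • X) := by
  induction k with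
  | zero => rw [zero_nsmul]; exact InZ.zero
  | succ k ih => rw [succ_nsmul]; exact ih.add hI hX

theorem InZ.map {s : G →+ G} {σ : K →+* K} (hA : D.Inertial v s σ) {X : G} (hX : InZ D v X) :
    InZ D v (s X) := by
  by_cases hX0 : X = 0
  · left; rw [hX0, map_zero]
  have hX := hX.resolve_left hX0
  right
  rw [hA.x_s X hX0]
  have hx0 := ne_zero_of_big hX
  have he := s_inv_of_big hX
  have h1 := hA.inert _ he.le
  have h2 : v (σ (D.x X)⁻¹) < 1 := by
    have : σ (D.x X)⁻¹ = (σ (D.x X)⁻¹ - (D.x X)⁻¹) + (D.x X)⁻¹ := by ring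
    rw [this]; exact s_add h1 he
  rw [map_inv₀] at h2
  exact big_of_s_inv ((map_ne_zero σ).mpr hx0) h2

/-- A point with integral `x`-coordinate and nonsingular reduction is fixed by inertia modulo the
kernel of reduction. -/
theorem sub_mem_of_NS (hI : D.Integral v) (hdd : HasDD D) {s : G →+ G} {σ : K →+* K}
    (hA : D.Inertial v s σ) {P : G} (hP : P ≠ 0) (h2P : 2 • P ≠ 0) (hxI : v (D.x P) ≤ 1)
    (hNS : ¬ (v (D.x P ^ 4 - D.b₄ * D.x P ^ 2 - 2 * D.b₆ * D.x P - D.b₈) < 1 ∧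
      v (4 * D.x P ^ 3 + D.b₂ * D.x P ^ 2 + 2 * D.b₄ * D.x P + D.b₆) < 1)) :
    InZ D v (s P - P) := by
  have hI' := hI
  obtain ⟨hb₂, hb₄, hb₆, hb₈, h2⟩ := hI
  have hsP : s P ≠ 0 := hA.s_ne P hP
  have hη : v (D.x (s P) - D.x P) < 1 := by rw [hA.x_s P hP]; exact hA.inert _ hxI
  have hφI : v (D.x P ^ 4 - D.b₄ * D.x P ^ 2 - 2 * D.b₆ * D.x P - D.b₈) ≤ 1 := by vsm
  have hψI : v (4 * D.x P ^ 3 + D.b₂ * D.x P ^ 2 + 2 * D.b₄ * D.x P + D.b₆) ≤ 1 := by vsm
  have hψsq := D.ψ_sq P hP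
  have hψi : v (D.ψ P) ≤ 1 := by
    have : v (D.ψ P) ^ 2 ≤ 1 := by rw [← map_pow, hψsq]; exact hψI
    exact (pow_le_one_iff_of_nonneg zero_le (by norm_num)).mp this
  have hψ0 : D.ψ P ≠ 0 := fun h0 => h2P ((D.two P hP).mpr h0)
  -- if `ψ P` is small then `2 • P` is in the kernel of reduction
  have hdup : v (D.ψ P) < 1 → InZ D v (2 • P) := by
    intro h4
    have h5 : v (4 * D.x P ^ 3 + D.b₂ * D.x P ^ 2 + 2 * D.b₄ * D.x P + D.b₆) < 1 := by
      rw [← hψsq]; vsm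
    have h6 := u_of_i_of_not_s hφI (fun h => hNS ⟨h, h5⟩)
    exact Or.inr (big_of_s_mul_eq_u (by vsm) (D.dup P hP hψ0) h6)
  have h3 := hA.inert _ hψi
  by_cases hx : D.x (s P) = D.x P
  · rcases D.eq_or _ _ hsP hP hx with h | h
    · left; rw [h, sub_self]
    · have h1 : σ (D.ψ P) = - D.ψ P := by rw [← hA.ψ_s P hP, h, D.ψ_neg]
      rw [h1] at h3
      have h4 : v (D.ψ P) < 1 := by
        have : - D.ψ P - D.ψ P = - (2 * D.ψ P) := by ring
        rw [this, Valuation.map_neg, map_mul, h2, one_mul] at h3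
        exact h3
      have : s P - P = -(2 • P) := by rw [h, two_nsmul]; abel
      rw [this]
      exact (hdup h4).neg
  · have hx' : D.x P ≠ D.x (s P) := fun h => hx h.symm
    have hs := D.sum _ _ hP hsP hx'
    have hpr := D.prod _ _ hP hsP hx'
    have hd := hdd _ _ hP hsP hx'
    rw [hA.ψ_s P hP] at hd
    obtain ⟨η, hηdef⟩ : ∃ η, D.x (s P) = D.x P + η := ⟨D.x (s P) - D.x P, by ring⟩
    obtain ⟨κ, hκdef⟩ : ∃ κ, σ (D.ψ P) = D.ψ P + κ := ⟨σ (D.ψ P) - D.ψ P, by ring⟩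
    have hκ : v κ < 1 := by
      have : κ = σ (D.ψ P) - D.ψ P := by rw [hκdef]; ring
      rw [this]; exact h3
    rw [hηdef] at hs hpr hη hd
    rw [hκdef] at hd
    have hη' : v η < 1 := by simpa using hη
    have hbig : 1 < v (D.x (P + s P) + D.x (P - s P)) ∨ 1 < v (D.x (P + s P) * D.x (P - s P)) := by
      by_cases hc : v (D.x P ^ 4 - D.b₄ * D.x P ^ 2 - 2 * D.b₆ * D.x P - D.b₈) < 1
      · left
        have h6 := u_of_i_of_not_s hψI (fun h => hNS ⟨hc, h⟩)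
        refine big_of_s_mul_eq_u (a := (D.x P - (D.x P + η)) ^ 2) ?_ hs ?_
        · have : (D.x P - (D.x P + η)) ^ 2 = η ^ 2 := by ring
          rw [this]; vsm
        · have : 2 * (D.x P * (D.x P + η)) * (D.x P + (D.x P + η)) + D.b₂ * (D.x P * (D.x P + η)) +
              D.b₄ * (D.x P + (D.x P + η)) + D.b₆ =
              (4 * D.x P ^ 3 + D.b₂ * D.x P ^ 2 + 2 * D.b₄ * D.x P + D.b₆) +
              η * (6 * D.x P ^ 2 + 2 * D.x P * η + D.b₂ * D.x P + D.b₄) := by ring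
          rw [this]
          exact u_add_s h6 (by vsm)
      · right
        have h6 := u_of_i_of_not_s hφI hc
        refine big_of_s_mul_eq_u (a := (D.x P - (D.x P + η)) ^ 2) ?_ hpr ?_
        · have : (D.x P - (D.x P + η)) ^ 2 = η ^ 2 := by ring
          rw [this]; vsm
        · have : (D.x P * (D.x P + η)) ^ 2 - D.b₄ * (D.x P * (D.x P + η)) -
              D.b₆ * (D.x P + (D.x P + η)) - D.b₈ =
              (D.x P ^ 4 - D.b₄ * D.x P ^ 2 - 2 * D.b₆ * D.x P - D.b₈) +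
              η * (2 * D.x P ^ 3 + D.x P ^ 2 * η - D.b₄ * D.x P - D.b₆) := by ring
          rw [this]
          exact u_add_s h6 (by vsm)
    have hminus : 1 < v (D.x (P - s P)) → InZ D v (s P - P) := by
      intro h
      right
      rw [← neg_sub, D.x_neg]; exact h
    by_cases hm : 1 < v (D.x (P - s P))
    · exact hminus hm
    · have hp : 1 < v (D.x (P + s P)) := (big_of_sum_prod hbig).resolve_right hm
      rw [not_lt] at hm
      -- sign analysis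
      have key : 2 * D.ψ P ^ 2 = - D.ψ P * κ
          - η * (6 * D.x P ^ 2 + 2 * D.x P * η + D.b₂ * D.x P + D.b₄)
          + 2 * η ^ 2 * D.x (P - s P) := by
        linear_combination hd - hs + hψsq
      have h4 : v (D.ψ P) < 1 := by
        have h5 : v (2 * D.ψ P ^ 2) < 1 := by
          rw [key]; vsm
        rw [map_mul, h2, one_mul, map_pow] at h5
        by_contra hc
        rw [not_lt] at hc
        exact absurd h5 (not_lt.mpr (one_le_pow₀ hc))
      have : s P - P = (P + s P) - 2 • P := by rw [two_nsmul]; abel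
      rw [this]
      exact InZ.sub hI' (Or.inr hp) (hdup h4)

/-- sign analysis at a node-reducing point. -/
theorem N5_sign_alg {x ε κ w xm b₂ β' : K} (h2 : v (2 : K) = 1) (hb₂ : v b₂ = 1)
    (hw : w ^ 2 = b₂ + (4 * x + 4 * β'))
    (hd : w * (w + κ) * (1 + ε) = -(2 * x * (1 + ε) * (2 + ε) + b₂ * (1 + ε) + 2 * β' * (2 + ε))
      + 2 * ε ^ 2 * xm)
    (hx : v x < 1) (hβ' : v β' < 1) (hε : v ε < 1) (hκ : v κ < 1) (hwi : v w ≤ 1)
    (hm : v xm ≤ 1) : False := by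
  have key : 2 * b₂ = -(2 * b₂ * ε + (4 * x + 4 * β') * (1 + ε) + w * κ * (1 + ε)
      + 2 * x * (1 + ε) * (2 + ε) + 2 * β' * (2 + ε)) + 2 * ε ^ 2 * xm := by
    linear_combination hd - (1 + ε) * hw
  have h1 : v (2 * b₂) < 1 := by
    rw [key]; vsm
  rw [map_mul, h2, hb₂, one_mul] at h1
  exact lt_irrefl _ h1

variable {β : K}

theorem sub_mem_of_N5 (hI : D.Integral v) (hM : D.Mult v β) (hdd : HasDD D)
    {s : G →+ G} {σ : K →+* K} (hA : D.Inertial v s σ)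
    {P₀ : G} (hP₀ : D.IsN v P₀) (hr0 : v β < v (D.x P₀))
    {c₀ : K} (hc₀σ : σ c₀ = c₀) (hc₀ : v (D.x P₀) = v c₀) : InZ D v (s P₀ - P₀) := by
  have h2 := hI.two
  have hx0 : D.x P₀ ≠ 0 := by
    intro h
    rw [h, map_zero] at hr0
    exact absurd hr0 (not_lt.mpr zero_le)
  have hc0 : c₀ ≠ 0 := by
    intro h
    rw [h, map_zero] at hc₀
    exact hx0 ((v.zero_iff).mp hc₀)
  have hsP : s P₀ ≠ 0 := hA.s_ne P₀ hP₀.1
  have hτ := tau_unit_alg hM.b₂ (hM.ψ_sq hP₀.1) hP₀.2 hr0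
  have h3τ := hA.inert _ hτ.le
  by_cases hx : D.x (s P₀) = D.x P₀
  · rcases D.eq_or _ _ hsP hP₀.1 hx with h | h
    · left; rw [h, sub_self]
    · exfalso
      have h1 : σ (D.ψ P₀) = - D.ψ P₀ := by rw [← hA.ψ_s P₀ hP₀.1, h, D.ψ_neg]
      have h1' : σ (D.x P₀) = D.x P₀ := by rw [← hA.x_s P₀ hP₀.1, hx]
      rw [map_div₀, h1, h1'] at h3τ
      have : - D.ψ P₀ / D.x P₀ - D.ψ P₀ / D.x P₀ = - (2 * (D.ψ P₀ / D.x P₀)) := by ring
      rw [this, Valuation.map_neg, map_mul, h2, one_mul, hτ] at h3τ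
      exact lt_irrefl _ h3τ
  · have hu : v (D.x P₀ / c₀) = 1 := u_div_of_eq hc0 hc₀
    have hu0 := ne_zero_of_u hu
    have h3 := hA.inert _ hu.le
    obtain ⟨ε, hε, hεs⟩ : ∃ ε, D.x (s P₀) = D.x P₀ * (1 + ε) ∧ v ε < 1 := by
      refine ⟨(σ (D.x P₀ / c₀) - D.x P₀ / c₀) / (D.x P₀ / c₀), ?_, ?_⟩
      · rw [hA.x_s P₀ hP₀.1, map_div₀, hc₀σ]
        field_simp
        ring
      · rw [map_div₀, hu, div_one]; exact h3
    have hx' : D.x P₀ ≠ D.x (s P₀) := fun h => hx h.symm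
    have hs := hM.sum hP₀.1 hsP hx'
    have hd := hdd _ _ hP₀.1 hsP hx'
    rw [hε] at hs hd
    by_cases hm : 1 < v (D.x (P₀ - s P₀))
    · right
      rw [← neg_sub, D.x_neg]; exact hm
    · exfalso
      rw [not_lt] at hm
      have hb := s_div_of_lt hr0
      obtain ⟨β', hβ'⟩ : ∃ β', β = β' * D.x P₀ := ⟨β / D.x P₀, by field_simp⟩
      have hb' : v β' < 1 := by
        have : β' = β / D.x P₀ := by rw [hβ']; field_simp
        rw [this]; exact hb
      obtain ⟨w, hw⟩ : ∃ w, D.ψ P₀ = w * D.x P₀ := ⟨D.ψ P₀ / D.x P₀, by field_simp⟩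
      have hwdef : w = D.ψ P₀ / D.x P₀ := by rw [hw]; field_simp
      have h1ε : (1 + ε) ≠ 0 := ne_zero_of_u (u_add_s u_one hεs)
      obtain ⟨κ, hκ⟩ : ∃ κ, D.ψ (s P₀) = (w + κ) * (D.x P₀ * (1 + ε)) :=
        ⟨D.ψ (s P₀) / (D.x P₀ * (1 + ε)) - w, by field_simp; ring⟩
      have hκs : v κ < 1 := by
        have : κ = σ (D.ψ P₀ / D.x P₀) - D.ψ P₀ / D.x P₀ := by
          rw [map_div₀, ← hA.ψ_s P₀ hP₀.1, ← hA.x_s P₀ hP₀.1, hε, hκ, ← hwdef]
          field_simp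
          ring
        rw [this]; exact h3τ
      have hx2 : D.x P₀ ^ 2 ≠ 0 := pow_ne_zero 2 hx0
      refine N5_sign_alg (x := D.x P₀) (ε := ε) (κ := κ) (w := w) (xm := D.x (P₀ - s P₀))
        (b₂ := D.b₂) (β' := β') h2 hM.b₂ ?_ ?_ hP₀.2 hb' hεs hκs (by rw [hwdef]; exact hτ.le) hm
      · apply mul_left_cancel₀ hx2
        have := hM.ψ_sq hP₀.1
        rw [hw, hβ'] at this
        linear_combination this
      · apply mul_left_cancel₀ hx2
        rw [hw, hκ] at hd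
        rw [hβ'] at hs
        linear_combination hd - hs

/-- **Multiplicative case.** -/
theorem sub_mem_of_mult (hI : D.Integral v) (hM : D.Mult v β) (hdd : HasDD D) {p : ℕ}
    (hp : p.Prime) (hp2 : p ≠ 2) {s : G →+ G} {σ : K →+* K} (hA : D.Inertial v s σ)
    {T : G} (hT : T ≠ 0) (hxT : D.x T = 0) {c₀ : K} (hc₀σ : σ c₀ = c₀)
    (hc₀ : v c₀ ^ p = v β ^ 2) {P : G} (hpP : p • P = 0) : InZ D v (s P - P) := by
  have h2 := hI.two
  have hp3 : 3 ≤ p := by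
    have := hp.two_le
    omega
  by_cases hP : P = 0
  · left; rw [hP, map_zero, sub_self]
  by_cases hxI : v (D.x P) ≤ 1
  swap
  · have hZ : InZ D v P := Or.inr (not_le.mp hxI)
    exact (hZ.map hA).sub hI hZ
  by_cases hxs : v (D.x P) < 1
  · have hN : D.IsN v P := ⟨hP, hxs⟩
    obtain ⟨k, hk, hkmax⟩ := Finset.exists_max_image (Finset.Icc 1 (p - 1))
      (fun k => v (D.x (k • P))) ⟨1, by simp; omega⟩
    rw [Finset.mem_Icc] at hk
    have hkd : ¬ p ∣ k := fun hd => by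
      have := Nat.le_of_dvd (by omega) hd
      omega
    have hP₀ : D.IsN v (k • P) := N_multiples hM h2 hp hN hpP hkd
    have hpP₀ : p • (k • P) = 0 := by rw [smul_comm, hpP, smul_zero]
    have hmax : ∀ j, ¬ p ∣ j → v (D.x (j • (k • P))) ≤ v (D.x (k • P)) := by
      intro j hj
      rw [← mul_nsmul', nsmul_mod hpP (j * k)]
      apply hkmax
      rw [Finset.mem_Icc]
      have h1 : ¬ p ∣ j * k := fun hd => (hp.dvd_mul.mp hd).elim hj hkd
      have h3 : (j * k) % p ≠ 0 := fun h0 => h1 (Nat.dvd_of_mod_eq_zero h0)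
      have h4 : (j * k) % p < p := Nat.mod_lt _ (by omega)
      omega
    have hpow := pow_eq_of_max hI hM hp hp2 hP₀ hpP₀ hT hxT hmax
    rw [← hc₀] at hpow
    have hv : v (D.x (k • P)) = v c₀ := (pow_left_inj₀ zero_le zero_le (by omega)).mp hpow
    have hfix := sub_mem_of_N5 hI hM hdd hA hP₀ (N_range hM h2 hp hp2 hP₀ hpP₀ hT hxT) hc₀σ hv
    obtain ⟨j, -, hj⟩ := exists_nsmul_nsmul_eq hp hpP hkd
    have : s P - P = j • (s (k • P) - k • P) := by
      rw [smul_sub, ← map_nsmul, hj]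
    rw [this]
    exact hfix.nsmul hI j
  · have hu := u_of_i_of_not_s hxI hxs
    have h2P : 2 • P ≠ 0 := nsmul_ne_zero_of_prime hp hP hpP
      (fun hd => by
        have := Nat.le_of_dvd (by omega) hd
        omega)
    apply sub_mem_of_NS hI hdd hA hP h2P hxI
    intro hcon
    have h1 : D.x P ^ 4 - D.b₄ * D.x P ^ 2 - 2 * D.b₆ * D.x P - D.b₈ = (D.x P ^ 2 - β) ^ 2 := by
      rw [hM.b₆, hM.b₄, hM.b₈ h2]; ring
    have h3 : v ((D.x P ^ 2 - β) ^ 2) = 1 := u_pow (u_sub_s (u_pow hu 2) hM.β_s) 2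
    rw [h1, h3] at hcon
    exact lt_irrefl _ hcon.1

/-- **Good reduction case.** -/
theorem sub_mem_of_good (hI : D.Integral v) (hdd : HasDD D)
    (hΔ : v (-D.b₂ ^ 2 * D.b₈ - 8 * D.b₄ ^ 3 - 27 * D.b₆ ^ 2 + 9 * D.b₂ * D.b₄ * D.b₆) = 1)
    {p : ℕ} (hp : p.Prime) (hp2 : p ≠ 2) {s : G →+ G} {σ : K →+* K} (hA : D.Inertial v s σ)
    {P : G} (hpP : p • P = 0) : InZ D v (s P - P) := by
  by_cases hP : P = 0
  · left; rw [hP, map_zero, sub_self]
  by_cases hxI : v (D.x P) ≤ 1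
  swap
  · have hZ : InZ D v P := Or.inr (not_le.mp hxI)
    exact (hZ.map hA).sub hI hZ
  have h2P : 2 • P ≠ 0 := nsmul_ne_zero_of_prime hp hP hpP
    (fun hd => by
      have := Nat.le_of_dvd (by omega) hd
      have := hp.two_le
      omega)
  apply sub_mem_of_NS hI hdd hA hP h2P hxI
  rintro ⟨h1, h2⟩
  obtain ⟨hb₂, hb₄, hb₆, hb₈, -⟩ := hI
  have key : -D.b₂ ^ 2 * D.b₈ - 8 * D.b₄ ^ 3 - 27 * D.b₆ ^ 2 + 9 * D.b₂ * D.b₄ * D.b₆ =
      (-48 * D.x P ^ 2 - 8 * D.b₂ * D.x P + D.b₂ ^ 2 - 32 * D.b₄) *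
        (D.x P ^ 4 - D.b₄ * D.x P ^ 2 - 2 * D.b₆ * D.x P - D.b₈) +
      (12 * D.x P ^ 3 - D.b₂ * D.x P ^ 2 - 10 * D.b₄ * D.x P + D.b₂ * D.b₄ - 27 * D.b₆) *
        (4 * D.x P ^ 3 + D.b₂ * D.x P ^ 2 + 2 * D.b₄ * D.x P + D.b₆) := by
    linear_combination (-(12 * D.x P ^ 2 + 2 * D.b₂ * D.x P + 8 * D.b₄)) * D.b_rel
  have : v (-D.b₂ ^ 2 * D.b₈ - 8 * D.b₄ ^ 3 - 27 * D.b₆ ^ 2 + 9 * D.b₂ * D.b₄ * D.b₆) < 1 := by
    rw [key]
    refine s_add (i_mul_s ?_ h1) (i_mul_s ?_ h2)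
    · vsm
    · vsm
  rw [hΔ] at this
  exact lt_irrefl _ this

/-- the kernel of reduction does not change under an integral shift. -/
theorem inZ_shift_iff {r : K} (hr : v r ≤ 1) {X : G} : InZ (D.shift r) v X ↔ InZ D v X := by
  unfold InZ
  have : 1 < v ((D.shift r).x X) ↔ 1 < v (D.x X) := by
    change 1 < v (D.x X - r) ↔ 1 < v (D.x X)
    constructor
    · intro h
      by_contra hc
      rw [not_lt] at hc
      exact absurd h (not_lt.mpr (i_sub hc hr))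
    · intro h
      rw [v.map_sub_eq_of_lt_left (lt_of_le_of_lt hr h)]
      exact h
  rw [this]

end Fermat.Agent.S13
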