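import Mathlib
import Fermat.Agent.S13.LocPAlg

set_option autoImplicit false
set_option linter.unusedSectionVars false

/-!
# S13: inertia at `p` acts trivially on `E[p]` modulo the kernel of reduction
-/

namespace Fermat.Agent.S13

open Fermat.Agent.S05
open WeierstrassCurve WeierstrassCurve.Affine

section frey

variable {K : Type*} [Field K] [DecidableEq K] [Algebra ℚ K] [CharZero K]
  {Γ₀ : Type*} [LinearOrderedCommGroupWithZero Γ₀] {v : Valuation K Γ₀}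

variable (P : FreyPackage)

theorem frey_sub_mem_good (h2 : v (2 : K) = 1)
    (ha : v (P.a : K) = 1) (hb : v (P.b : K) = 1) (hc : v (P.c : K) = 1)
    {s : (P.freyCurve⁄K).Point →+ (P.freyCurve⁄K).Point} {σ : K →+* K}
    (hIn : (xdata (P.freyCurve⁄K)).Inertial v s σ) {X : (P.freyCurve⁄K).Point}
    (hpX : P.p • X = 0) : InZ (xdata (P.freyCurve⁄K)) v (s X - X) := by
  have hp2 : P.p ≠ 2 := by have := P.hp5; omega
  refine sub_mem_of_good (frey_integral P h2) (hasDD_xdata _) ?_ P.pp hp2 hIn hpX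
  change v (-(P.freyCurve⁄K).b₂ ^ 2 * (P.freyCurve⁄K).b₈ - 8 * (P.freyCurve⁄K).b₄ ^ 3
    - 27 * (P.freyCurve⁄K).b₆ ^ 2
    + 9 * (P.freyCurve⁄K).b₂ * (P.freyCurve⁄K).b₄ * (P.freyCurve⁄K).b₆) = 1
  rw [frey_b₂, frey_b₄, frey_b₆, frey_b₈]
  have key : -((P.b : K) ^ P.p - (P.a : K) ^ P.p) ^ 2 * -(-(P.a : K) ^ P.p * (P.b : K) ^ P.p / 16) ^ 2
      - 8 * (2 * (-(P.a : K) ^ P.p * (P.b : K) ^ P.p / 16)) ^ 3 - 27 * 0 ^ 2
      + 9 * ((P.b : K) ^ P.p - (P.a : K) ^ P.p) * (2 * (-(P.a : K) ^ P.p * (P.b : K) ^ P.p / 16)) * 0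
      = ((P.a : K) ^ P.p * (P.b : K) ^ P.p * (P.c : K) ^ P.p / 16) ^ 2 := by
    rw [← frey_flt P]; ring
  rw [key, map_pow, v_div_sixteen h2, map_mul, map_mul, map_pow, map_pow, map_pow, ha, hb, hc]
  simp

theorem frey_sub_mem_ab (h2 : v (2 : K) = 1)
    (hab : v ((P.a : K) * (P.b : K)) < 1) (hu : v ((P.b : K) ^ P.p - (P.a : K) ^ P.p) = 1)
    {s : (P.freyCurve⁄K).Point →+ (P.freyCurve⁄K).Point} {σ : K →+* K}
    (hIn : (xdata (P.freyCurve⁄K)).Inertial v s σ) {X : (P.freyCurve⁄K).Point}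
    (hpX : P.p • X = 0) : InZ (xdata (P.freyCurve⁄K)) v (s X - X) := by
  have hp2 : P.p ≠ 2 := by have := P.hp5; omega
  have ha0 : (P.a : K) ≠ 0 := Int.cast_ne_zero.mpr P.ha0
  have hb0 : (P.b : K) ≠ 0 := Int.cast_ne_zero.mpr P.hb0
  have hβv : v (-(P.a : K) ^ P.p * (P.b : K) ^ P.p / 16) = v ((P.a : K) * (P.b : K)) ^ P.p := by
    rw [v_div_sixteen h2, neg_mul, Valuation.map_neg, ← mul_pow, map_pow]
  have hM : (xdata (P.freyCurve⁄K)).Mult v (-(P.a : K) ^ P.p * (P.b : K) ^ P.p / 16) := by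
    refine ⟨frey_b₆ P, frey_b₄ P, ?_, ?_, ?_⟩
    · change v (P.freyCurve⁄K).b₂ = 1
      rw [frey_b₂]; exact hu
    · rw [hβv]
      exact pow_lt_one₀ zero_le hab P.hp0
    · have h16 : (16 : K) ≠ 0 := by norm_num
      exact div_ne_zero (mul_ne_zero (neg_ne_zero.mpr (pow_ne_zero _ ha0)) (pow_ne_zero _ hb0)) h16
  have hns : (P.freyCurve⁄K).Nonsingular 0 0 := by
    rw [Affine.nonsingular_zero]
    refine ⟨frey_a₆ P, Or.inr ?_⟩
    rw [frey_a₄]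
    exact hM.β_ne
  refine sub_mem_of_mult (frey_integral P h2) hM (hasDD_xdata _) P.pp hp2 hIn
    (T := Point.some 0 0 hns)
    (Point.some_ne_zero _) rfl (c₀ := (((P.a * P.b) ^ 2 : ℤ) : K)) (map_intCast σ _) ?_ hpX
  rw [hβv]
  push_cast
  rw [map_pow, ← pow_mul, ← pow_mul, mul_comm 2 P.p]

theorem frey_sub_mem_c (h2 : v (2 : K) = 1)
    (ha : v (P.a : K) = 1) (hc : v (P.c : K) < 1)
    {s : (P.freyCurve⁄K).Point →+ (P.freyCurve⁄K).Point} {σ : K →+* K}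
    (hIn : (xdata (P.freyCurve⁄K)).Inertial v s σ) {X : (P.freyCurve⁄K).Point}
    (hpX : P.p • X = 0) : InZ (xdata (P.freyCurve⁄K)) v (s X - X) := by
  have hp2 : P.p ≠ 2 := by have := P.hp5; omega
  have ha0 : (P.a : K) ≠ 0 := Int.cast_ne_zero.mpr P.ha0
  have hc0 : (P.c : K) ≠ 0 := Int.cast_ne_zero.mpr P.hc0
  have h16 : (16 : K) ≠ 0 := by norm_num
  have hflt := frey_flt (K := K) P
  have hB : (P.b : K) ^ P.p = (P.c : K) ^ P.p - (P.a : K) ^ P.p := by rw [← hflt]; ring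
  have hAi : v ((P.a : K) ^ P.p) = 1 := u_pow ha _
  have hCs : v ((P.c : K) ^ P.p) < 1 := s_pow hc P.hp0
  have hri : v ((P.a : K) ^ P.p / 4) ≤ 1 := by rw [v_div_four h2]; exact hAi.le
  have hI := frey_integral (v := v) P h2
  have hβv : v ((P.a : K) ^ P.p * (P.c : K) ^ P.p / 16) = v ((P.a : K) * (P.c : K)) ^ P.p := by
    rw [v_div_sixteen h2, ← mul_pow, map_pow]
  have hσr : σ ((P.a : K) ^ P.p / 4) = (P.a : K) ^ P.p / 4 := by
    rw [map_div₀, map_pow, map_intCast, map_ofNat]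
  have e₂ : ((xdata (P.freyCurve⁄K)).shift ((P.a : K) ^ P.p / 4)).b₂ =
      (P.a : K) ^ P.p + (P.c : K) ^ P.p := by
    change (P.freyCurve⁄K).b₂ + 12 * ((P.a : K) ^ P.p / 4) = _
    rw [frey_b₂, hB]; ring
  have e₄ : ((xdata (P.freyCurve⁄K)).shift ((P.a : K) ^ P.p / 4)).b₄ =
      2 * ((P.a : K) ^ P.p * (P.c : K) ^ P.p / 16) := by
    change (P.freyCurve⁄K).b₄ + ((P.a : K) ^ P.p / 4) * (P.freyCurve⁄K).b₂
      + 6 * ((P.a : K) ^ P.p / 4) ^ 2 = _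
    rw [frey_b₂, frey_b₄, hB]; ring
  have e₆ : ((xdata (P.freyCurve⁄K)).shift ((P.a : K) ^ P.p / 4)).b₆ = 0 := by
    change (P.freyCurve⁄K).b₆ + 2 * ((P.a : K) ^ P.p / 4) * (P.freyCurve⁄K).b₄
      + ((P.a : K) ^ P.p / 4) ^ 2 * (P.freyCurve⁄K).b₂ + 4 * ((P.a : K) ^ P.p / 4) ^ 3 = _
    rw [frey_b₂, frey_b₄, frey_b₆, hB]; ring
  have hI' : ((xdata (P.freyCurve⁄K)).shift ((P.a : K) ^ P.p / 4)).Integral v := by
    obtain ⟨hb₂, hb₄, hb₆, hb₈, -⟩ := hI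
    refine ⟨?_, ?_, ?_, ?_, h2⟩
    · change v ((xdata (P.freyCurve⁄K)).b₂ + 12 * ((P.a : K) ^ P.p / 4)) ≤ 1
      vsm
    · change v ((xdata (P.freyCurve⁄K)).b₄ + ((P.a : K) ^ P.p / 4) * (xdata (P.freyCurve⁄K)).b₂
        + 6 * ((P.a : K) ^ P.p / 4) ^ 2) ≤ 1
      vsm
    · rw [e₆]; exact i_zero
    · change v ((xdata (P.freyCurve⁄K)).b₈ + 3 * ((P.a : K) ^ P.p / 4) * (xdata (P.freyCurve⁄K)).b₆
        + 3 * ((P.a : K) ^ P.p / 4) ^ 2 * (xdata (P.freyCurve⁄K)).b₄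
        + ((P.a : K) ^ P.p / 4) ^ 3 * (xdata (P.freyCurve⁄K)).b₂
        + 3 * ((P.a : K) ^ P.p / 4) ^ 4) ≤ 1
      vsm
  have hM : ((xdata (P.freyCurve⁄K)).shift ((P.a : K) ^ P.p / 4)).Mult v
      ((P.a : K) ^ P.p * (P.c : K) ^ P.p / 16) := by
    refine ⟨e₆, e₄, ?_, ?_, ?_⟩
    · rw [e₂]; exact u_add_s hAi hCs
    · rw [v_div_sixteen h2]; vsm
    · exact div_ne_zero (mul_ne_zero (pow_ne_zero _ ha0) (pow_ne_zero _ hc0)) h16
  have hns : (P.freyCurve⁄K).Nonsingular ((P.a : K) ^ P.p / 4) (-((P.a : K) ^ P.p / 8)) := by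
    rw [Affine.nonsingular_iff', Affine.equation_iff, frey_a₁, frey_a₂, frey_a₃, frey_a₄, frey_a₆]
    refine ⟨by ring, Or.inl ?_⟩
    have : 1 * -((P.a : K) ^ P.p / 8) - (3 * ((P.a : K) ^ P.p / 4) ^ 2
        + 2 * (((P.b : K) ^ P.p - 1 - (P.a : K) ^ P.p) / 4) * ((P.a : K) ^ P.p / 4)
        + -(P.a : K) ^ P.p * (P.b : K) ^ P.p / 16) = - ((P.a : K) ^ P.p * (P.c : K) ^ P.p / 16) := by
      rw [hB]; ring
    rw [this]
    exact neg_ne_zero.mpr hM.β_ne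
  rw [← inZ_shift_iff hri]
  refine sub_mem_of_mult hI' hM ((hasDD_xdata _).shift _) P.pp hp2 (hIn.shift hσr)
    (T := Point.some _ _ hns)
    (Point.some_ne_zero _) ?_ (c₀ := (((P.a * P.c) ^ 2 : ℤ) : K)) (map_intCast σ _) ?_ hpX
  · change (P.a : K) ^ P.p / 4 - (P.a : K) ^ P.p / 4 = 0
    exact sub_self _
  · rw [hβv]
    push_cast
    rw [map_pow, ← pow_mul, ← pow_mul, mul_comm 2 P.p]

end frey

local notation "Qb" => AlgebraicClosure ℚ
local notation "GQ" => (AlgebraicClosure ℚ ≃ₐ[ℚ] AlgebraicClosure ℚ)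

theorem not_dvd_of_gcd_eq_one' {q : ℕ} (hq : q.Prime) {a b : ℤ} (h : gcd a b = 1)
    (ha : (q : ℤ) ∣ a) : ¬ (q : ℤ) ∣ b := by
  intro hb
  have h1 : (q : ℤ) ∣ gcd a b := dvd_gcd ha hb
  rw [h] at h1
  have h2 : q ∣ 1 := by exact_mod_cast h1
  exact hq.one_lt.ne' (Nat.dvd_one.mp h2)

/-- the kernel of reduction as a subgroup. -/
noncomputable def kerRed (P : FreyPackage) (A : ValuationSubring Qb) (h2 : A.valuation (2 : Qb) = 1) :
    AddSubgroup (P.freyCurve⁄Qb).Point where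
  carrier := {X | InZ (xdata (P.freyCurve⁄Qb)) A.valuation X}
  zero_mem' := InZ.zero
  add_mem' := fun hX hY => InZ.add (frey_integral P h2) hX hY
  neg_mem' := fun hX => InZ.neg hX

theorem locp (P : FreyPackage) (A : ValuationSubring Qb) (hA : A.LiesOverPrime P.p)
    (hE : ∃ X : (P.freyCurve⁄Qb).Point, X ≠ 0 ∧ P.p • X = 0 ∧ px X ∈ A) :
    ∃ Y : AddSubgroup (P.freyCurve⁄Qb).Point, (∃ X, P.p • X = 0 ∧ X ∉ Y) ∧
      ∀ σ ∈ A.inertiaSubgroupIn ℚ, ∀ X, P.p • X = 0 → σ • X - X ∈ Y := by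
  have hq := P.pp
  have hvq : A.valuation ((P.p : ℕ) : Qb) < 1 := A.mem_nonunits_iff.mp hA
  have hp2 : P.p ≠ 2 := by have := P.hp5; omega
  have h2 : A.valuation (2 : Qb) = 1 := by
    have := u_natCast_of_not_dvd (v := A.valuation) hq hvq (n := 2)
      (fun h => hp2 ((Nat.prime_dvd_prime_iff_eq hq Nat.prime_two).mp h))
    simpa using this
  refine ⟨kerRed P A h2, ?_, ?_⟩
  · obtain ⟨X, hX0, hpX, hxA⟩ := hE
    refine ⟨X, hpX, ?_⟩
    rintro (h | h)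
    · exact hX0 h
    · exact absurd ((A.valuation_le_one_iff _).mpr hxA) (not_le.mpr h)
  · intro σ hσ X hpx
    have hIn := inertial_of_mem P.freyCurve A hσ
    change InZ (xdata (P.freyCurve⁄Qb)) A.valuation (Point.map σ.toAlgHom X - X)
    by_cases ha : (P.p : ℤ) ∣ P.a
    · have hb : ¬ (P.p : ℤ) ∣ P.b := not_dvd_of_gcd_eq_one' hq P.hgcdab ha
      have hva := s_intCast_of_dvd (v := A.valuation) hvq ha
      have hvb := u_intCast_of_not_dvd (v := A.valuation) hq hvq hb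
      exact frey_sub_mem_ab P h2 (s_mul_i hva hvb.le)
        (u_sub_s (u_pow hvb _) (s_pow hva P.hp0)) hIn hpx
    by_cases hb : (P.p : ℤ) ∣ P.b
    · have hva := u_intCast_of_not_dvd (v := A.valuation) hq hvq ha
      have hvb := s_intCast_of_dvd (v := A.valuation) hvq hb
      exact frey_sub_mem_ab P h2 (i_mul_s hva.le hvb)
        (s_sub_u (s_pow hvb P.hp0) (u_pow hva _)) hIn hpx
    have hva := u_intCast_of_not_dvd (v := A.valuation) hq hvq ha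
    have hvb := u_intCast_of_not_dvd (v := A.valuation) hq hvq hb
    by_cases hc : (P.p : ℤ) ∣ P.c
    · have hvc := s_intCast_of_dvd (v := A.valuation) hvq hc
      exact frey_sub_mem_c P h2 hva hvc hIn hpx
    · have hvc := u_intCast_of_not_dvd (v := A.valuation) hq hvq hc
      exact frey_sub_mem_good P h2 hva hvb hvc hIn hpx

end Fermat.Agent.S13
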