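import Mathlib
import Fermat.Agent.S05.XOnly
import Fermat.Agent.S51.Torsion

set_option autoImplicit false
set_option linter.unusedSectionVars false

/-!
# A Montgomery ladder for `x`-coordinates of multiples

`(X_n : Z_n)` are defined by binary recursion from the `x`-only duplication and differential
addition formulas.  `n • P = 0 ↔ Z_n (x P) = 0` is a direct induction; `Z_{2n+1} = S_n ^ 2`.
-/

namespace Fermat.Agent.S13

open WeierstrassCurve WeierstrassCurve.Affine Fermat.Agent.S05 Fermat.Agent.S51 Polynomial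

section Defs

variable {A : Type*} [CommRing A]

/-- parameters of the ladder. -/
structure Par (A : Type*) where
  b2 : A
  b4 : A
  b6 : A
  b8 : A
  t : A

def dblX (q : Par A) (X Z : A) : A :=
  X ^ 4 - q.b4 * X ^ 2 * Z ^ 2 - 2 * q.b6 * X * Z ^ 3 - q.b8 * Z ^ 4

def dblZ (q : Par A) (X Z : A) : A :=
  Z * (4 * X ^ 3 + q.b2 * X ^ 2 * Z + 2 * q.b4 * X * Z ^ 2 + q.b6 * Z ^ 3)

def addS (X1 Z1 X2 Z2 : A) : A := X2 * Z1 - X1 * Z2

def addZ (X1 Z1 X2 Z2 : A) : A := addS X1 Z1 X2 Z2 ^ 2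

def addX (q : Par A) (X1 Z1 X2 Z2 : A) : A :=
  2 * (X1 * X2) * (X2 * Z1 + X1 * Z2) + q.b2 * (X1 * X2) * (Z1 * Z2)
    + q.b4 * (X2 * Z1 + X1 * Z2) * (Z1 * Z2) + q.b6 * (Z1 * Z2) ^ 2 - q.t * addS X1 Z1 X2 Z2 ^ 2

/-- state of the ladder : `(X_n, Z_n, X_{n+1}, Z_{n+1})`. -/
structure St (A : Type*) where
  X1 : A
  Z1 : A
  X2 : A
  Z2 : A

def step (q : Par A) (b : Bool) (s : St A) : St A :=
  match b with
  | false => ⟨dblX q s.X1 s.Z1, dblZ q s.X1 s.Z1, addX q s.X1 s.Z1 s.X2 s.Z2,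
      addZ s.X1 s.Z1 s.X2 s.Z2⟩
  | true => ⟨addX q s.X1 s.Z1 s.X2 s.Z2, addZ s.X1 s.Z1 s.X2 s.Z2, dblX q s.X2 s.Z2,
      dblZ q s.X2 s.Z2⟩

def lad (q : Par A) (n : ℕ) : St A :=
  Nat.binaryRec (motive := fun _ => St A) ⟨1, 0, q.t, 1⟩ (fun b _ s => step q b s) n

lemma lad_zero (q : Par A) : lad q 0 = ⟨1, 0, q.t, 1⟩ := rfl

lemma lad_bit (q : Par A) (b : Bool) (n : ℕ) : lad q (Nat.bit b n) = step q b (lad q n) := by
  unfold lad
  apply Nat.binaryRec_eq
  left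
  simp only [step, dblX, dblZ, addX, addZ, addS]
  congr 1 <;> ring

def Par.map {B : Type*} [CommRing B] (f : A →+* B) (q : Par A) : Par B :=
  ⟨f q.b2, f q.b4, f q.b6, f q.b8, f q.t⟩

def St.map {B : Type*} [CommRing B] (f : A →+* B) (s : St A) : St B :=
  ⟨f s.X1, f s.Z1, f s.X2, f s.Z2⟩

lemma step_map {B : Type*} [CommRing B] (f : A →+* B) (q : Par A) (b : Bool) (s : St A) :
    step (q.map f) b (s.map f) = (step q b s).map f := by
  cases b <;>
  simp [step, St.map, Par.map, dblX, dblZ, addX, addZ, addS, map_ofNat]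

lemma lad_map {B : Type*} [CommRing B] (f : A →+* B) (q : Par A) (n : ℕ) :
    lad (q.map f) n = (lad q n).map f := by
  induction n using Nat.binaryRec with
  | zero => simp [lad_zero, St.map, Par.map]
  | bit b n ih => rw [lad_bit, lad_bit, ih, step_map]

end Defs

section Points

variable {F : Type*} [Field F] [DecidableEq F] {W : Affine F}

/-- `(X : Z)` represents the `x`-coordinate of `Q`. -/
def GoodPt (Q : W.Point) (X Z : F) : Prop :=
  (Q = 0 → Z = 0 ∧ X ≠ 0) ∧ (Q ≠ 0 → Z ≠ 0 ∧ px Q * Z = X)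

/-- the parameters attached to a curve and an abscissa. -/
def par (W : WeierstrassCurve F) (t : F) : Par F := ⟨W.b₂, W.b₄, W.b₆, W.b₈, t⟩

lemma GoodPt.eq_zero_iff {Q : W.Point} {X Z : F} (h : GoodPt Q X Z) : Q = 0 ↔ Z = 0 :=
  ⟨fun hQ => (h.1 hQ).1, fun hZ => by_contra fun hQ => (h.2 hQ).1 hZ⟩

lemma good_dbl (t : F) {Q : W.Point} {X Z : F} (h : GoodPt Q X Z) :
    GoodPt (2 • Q) (dblX (par W t) X Z) (dblZ (par W t) X Z) := by
  by_cases hQ : Q = 0
  · obtain ⟨hZ, hX⟩ := h.1 hQ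
    subst hQ hZ
    refine ⟨fun _ => ⟨by simp [dblZ], ?_⟩, fun h2 => absurd (by simp) h2⟩
    simp only [dblX]
    simpa using hX
  · obtain ⟨hZ, hX⟩ := h.2 hQ
    have hsq := ppsi_sq Q hQ
    have e1 : dblZ (par W t) X Z = Z ^ 4 * ppsi Q ^ 2 := by
      rw [hsq, ← hX]; simp only [dblZ, par]; ring
    have e2 : dblX (par W t) X Z = Z ^ 4 * fN W (px Q) := by
      rw [← hX]; simp only [dblX, par, fN]; ring
    by_cases hψ : ppsi Q = 0
    · have h2 : 2 • Q = 0 := (two_nsmul_eq_zero_iff hQ).mpr hψ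
      refine ⟨fun _ => ⟨by rw [e1, hψ]; ring, ?_⟩, fun h => absurd h2 h⟩
      rw [e2, fN_eq, ← ppsi_sq' Q hQ, hψ]
      have := f3_ne_zero_of_ppsi_eq_zero hQ hψ
      have hZ4 := pow_ne_zero 4 hZ
      intro h0
      apply mul_ne_zero hZ4 this
      linear_combination -h0
    · have h2 : 2 • Q ≠ 0 := fun h => hψ ((two_nsmul_eq_zero_iff hQ).mp h)
      refine ⟨fun h => absurd h h2, fun _ => ⟨?_, ?_⟩⟩
      · rw [e1]; exact mul_ne_zero (pow_ne_zero 4 hZ) (pow_ne_zero 2 hψ)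
      · rw [e1, e2]
        have := px_dup hQ hψ
        simp only [fN]
        linear_combination Z ^ 4 * this

lemma good_add {P Q R : W.Point} (hP : P ≠ 0) (hR : R = Q + P) {X1 Z1 X2 Z2 : F}
    (h1 : GoodPt Q X1 Z1) (h2 : GoodPt R X2 Z2) :
    GoodPt (Q + R) (addX (par W (px P)) X1 Z1 X2 Z2) (addZ X1 Z1 X2 Z2) := by
  by_cases hQ : Q = 0
  · obtain ⟨hZ, hX⟩ := h1.1 hQ
    subst hQ hZ
    rw [zero_add] at hR
    subst hR
    obtain ⟨hZ2, hX2⟩ := h2.2 hP
    rw [zero_add]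
    refine ⟨fun h => absurd h hP, fun _ => ⟨?_, ?_⟩⟩
    · simp only [addZ, addS]
      simpa using ⟨hX, hZ2⟩
    · rw [← hX2]; simp only [addZ, addS, addX, par]; ring
  by_cases hR0 : R = 0
  · obtain ⟨hZ, hX⟩ := h2.1 hR0
    obtain ⟨hZ1, hX1⟩ := h1.2 hQ
    have hQP : Q = -P := by
      rw [hR0] at hR
      exact eq_neg_of_add_eq_zero_left hR.symm
    rw [hR0, add_zero]
    subst hZ
    have hx : px Q = px P := by rw [hQP, px_neg]
    refine ⟨fun h => absurd h hQ, fun _ => ⟨?_, ?_⟩⟩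
    · simp only [addZ, addS]
      simpa using ⟨hX, hZ1⟩
    · rw [← hX1, hx]; simp only [addZ, addS, addX, par]; ring
  obtain ⟨hZ1, hX1⟩ := h1.2 hQ
  obtain ⟨hZ2, hX2⟩ := h2.2 hR0
  have eS : addS X1 Z1 X2 Z2 = Z1 * Z2 * (px R - px Q) := by
    rw [← hX1, ← hX2]; simp only [addS]; ring
  by_cases hx : px R = px Q
  · have hRQ : R = -Q := by
      rcases eq_or_eq_neg_of_px_eq hR0 hQ hx with h | h
      · exfalso; apply hP
        rw [h] at hR
        simpa using hR.symm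
      · exact h
    have h0 : Q + R = 0 := by rw [hRQ]; simp
    refine ⟨fun _ => ⟨?_, ?_⟩, fun h => absurd h0 h⟩
    · simp only [addZ]; rw [eS, hx]; ring
    · have hψ : ppsi Q ≠ 0 := by
        intro hψ
        have h2Q := (two_nsmul_eq_zero_iff hQ).mpr hψ
        apply hP
        have : Q = -Q := by
          rw [two_nsmul] at h2Q
          exact eq_neg_of_add_eq_zero_left h2Q
        rw [hRQ, ← this] at hR
        simpa using hR.symm
      have e : addX (par W (px P)) X1 Z1 X2 Z2 = (Z1 * Z2) ^ 2 * ppsi Q ^ 2 := by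
        rw [ppsi_sq Q hQ]
        simp only [addX]
        rw [eS, ← hX1, ← hX2, hx]
        simp only [par]; ring
      rw [e]
      exact mul_ne_zero (pow_ne_zero 2 (mul_ne_zero hZ1 hZ2)) (pow_ne_zero 2 hψ)
  · have hsum := px_sum hR0 hQ hx
    have hRQ : R - Q = P := by rw [hR]; abel
    rw [hRQ, add_comm R Q] at hsum
    have hne : Q + R ≠ 0 := by
      intro h
      apply hx
      have : R = -Q := eq_neg_of_add_eq_zero_right h
      rw [this, px_neg]
    refine ⟨fun h => absurd h hne, fun _ => ⟨?_, ?_⟩⟩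
    · simp only [addZ]; rw [eS]
      exact pow_ne_zero 2 (mul_ne_zero (mul_ne_zero hZ1 hZ2) (sub_ne_zero.mpr hx))
    · simp only [addZ, addX]
      rw [eS, ← hX1, ← hX2]
      simp only [par]
      linear_combination (Z1 * Z2) ^ 2 * hsum

theorem good_lad {P : W.Point} (hP : P ≠ 0) (n : ℕ) :
    GoodPt (n • P) (lad (par W (px P)) n).X1 (lad (par W (px P)) n).Z1 ∧
    GoodPt ((n + 1) • P) (lad (par W (px P)) n).X2 (lad (par W (px P)) n).Z2 := by
  induction n using Nat.binaryRec with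
  | zero =>
    rw [lad_zero]
    refine ⟨⟨fun _ => ⟨rfl, one_ne_zero⟩, fun h => absurd (by simp) h⟩, ?_⟩
    simp only [zero_add, one_nsmul]
    exact ⟨fun h => absurd h hP, fun _ => ⟨one_ne_zero, by simp [par]⟩⟩
  | bit b n ih =>
    obtain ⟨ih1, ih2⟩ := ih
    rw [lad_bit]
    have hadd := good_add hP (succ_nsmul P n) ih1 ih2
    have e1 : n • P + (n + 1) • P = (2 * n + 1) • P := by
      rw [← add_nsmul]; congr 1; ring
    rw [e1] at hadd
    cases b
    · rw [Nat.bit_false_apply]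
      refine ⟨?_, hadd⟩
      have := good_dbl (px P) ih1
      rwa [← mul_nsmul'] at this
    · rw [Nat.bit_true_apply]
      refine ⟨hadd, ?_⟩
      have := good_dbl (px P) ih2
      rw [← mul_nsmul'] at this
      have e2 : 2 * n + 1 + 1 = 2 * (n + 1) := by ring
      rwa [e2]

end Points

section Degree

variable {R : Type*} [CommRing R]

/-- `p` has degree at most `d` and its coefficient of degree `d` is `c`. -/
def Top (p : R[X]) (d : ℕ) (c : R) : Prop := p.natDegree ≤ d ∧ p.coeff d = c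

namespace Top

variable {p q : R[X]} {d e : ℕ} {c c' : R}

lemma mul (hp : Top p d c) (hq : Top q e c') : Top (p * q) (d + e) (c * c') :=
  ⟨natDegree_mul_le_of_le hp.1 hq.1, by rw [coeff_mul_add_eq_of_natDegree_le hp.1 hq.1, hp.2, hq.2]⟩

lemma pow (hp : Top p d c) (k : ℕ) : Top (p ^ k) (k * d) (c ^ k) :=
  ⟨natDegree_pow_le_of_le k hp.1, by rw [coeff_pow_of_natDegree_le hp.1, hp.2]⟩

lemma C_mul (a : R) (hp : Top p d c) : Top (C a * p) d (a * c) :=
  ⟨(natDegree_C_mul_le a p).trans hp.1, by rw [coeff_C_mul, hp.2]⟩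

lemma add (hp : Top p d c) (hq : Top q d c') : Top (p + q) d (c + c') :=
  ⟨natDegree_add_le_of_degree_le hp.1 hq.1, by rw [coeff_add, hp.2, hq.2]⟩

lemma sub (hp : Top p d c) (hq : Top q d c') : Top (p - q) d (c - c') :=
  ⟨(natDegree_sub_le_of_le hp.1 hq.1).trans (by simp), by rw [coeff_sub, hp.2, hq.2]⟩

lemma add_low (hp : Top p d c) (hq : Top q e c') (h : e < d) : Top (p + q) d c :=
  ⟨natDegree_add_le_of_degree_le hp.1 (hq.1.trans h.le), by
    rw [coeff_add, hp.2, coeff_eq_zero_of_natDegree_lt (lt_of_le_of_lt hq.1 h), add_zero]⟩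

lemma sub_low (hp : Top p d c) (hq : Top q e c') (h : e < d) : Top (p - q) d c :=
  ⟨(natDegree_sub_le_of_le hp.1 (hq.1.trans h.le)).trans (by simp), by
    rw [coeff_sub, hp.2, coeff_eq_zero_of_natDegree_lt (lt_of_le_of_lt hq.1 h), sub_zero]⟩

lemma X' : Top (X : R[X]) 1 1 := ⟨natDegree_X_le, coeff_X_one⟩

lemma one' : Top (1 : R[X]) 0 1 := ⟨by simp, by simp⟩

lemma congr (hp : Top p d c) (hd : d = e) (hc : c = c') : Top p e c' := by
  subst hd hc; exact hp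

end Top

/-- the polynomial parameters. -/
noncomputable def ppar (b2 b4 b6 b8 : R) : Par R[X] := ⟨C b2, C b4, C b6, C b8, X⟩

variable (b2 b4 b6 b8 : R)

lemma top_dblX {U V : R[X]} {d : ℕ} {c : R} (hU : Top U (d + 1) 1) (hV : Top V d c) :
    Top (dblX (ppar b2 b4 b6 b8) U V) (4 * (d + 1)) 1 := by
  have e : dblX (ppar b2 b4 b6 b8) U V =
      U ^ 4 - C b4 * (U ^ 2 * V ^ 2) - C (2 * b6) * (U * V ^ 3) - C b8 * V ^ 4 := by
    simp only [dblX, ppar, map_mul, map_ofNat]; ring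
  rw [e]
  refine ((((hU.pow 4).sub_low (((hU.pow 2).mul (hV.pow 2)).C_mul b4) (by omega)).sub_low
    ((hU.mul (hV.pow 3)).C_mul (2 * b6)) (by omega)).sub_low ((hV.pow 4).C_mul b8)
      (by omega)).congr rfl (by ring)

lemma top_dblZ {U V : R[X]} {d : ℕ} {c : R} (hU : Top U (d + 1) 1) (hV : Top V d c) :
    Top (dblZ (ppar b2 b4 b6 b8) U V) (4 * d + 3) (4 * c) := by
  have e : dblZ (ppar b2 b4 b6 b8) U V =
      V * (C 4 * U ^ 3 + C b2 * (U ^ 2 * V) + C (2 * b4) * (U * V ^ 2) + C b6 * V ^ 3) := by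
    simp only [dblZ, ppar, map_mul, map_ofNat]; ring
  rw [e]
  refine (hV.mul (((((hU.pow 3).C_mul 4).add_low (((hU.pow 2).mul hV).C_mul b2) (by omega)).add_low
    ((hU.mul (hV.pow 2)).C_mul (2 * b4)) (by omega)).add_low ((hV.pow 3).C_mul b6)
      (by omega))).congr (by omega) (by ring)

lemma top_addS {U1 V1 U2 V2 : R[X]} {d e : ℕ} {c1 c2 : R} (hU1 : Top U1 (d + 1) 1)
    (hV1 : Top V1 d c1) (hU2 : Top U2 (e + 1) 1) (hV2 : Top V2 e c2) :
    Top (addS U1 V1 U2 V2) (d + e + 1) (c1 - c2) := by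
  simp only [addS]
  exact ((hU2.mul hV1).congr (by omega) (by ring)).sub ((hU1.mul hV2).congr (by omega) (by ring))

lemma top_addZ {U1 V1 U2 V2 : R[X]} {d e : ℕ} {c1 c2 : R} (hU1 : Top U1 (d + 1) 1)
    (hV1 : Top V1 d c1) (hU2 : Top U2 (e + 1) 1) (hV2 : Top V2 e c2) :
    Top (addZ U1 V1 U2 V2) (2 * (d + e + 1)) ((c1 - c2) ^ 2) :=
  (top_addS hU1 hV1 hU2 hV2).pow 2

lemma top_addX {U1 V1 U2 V2 : R[X]} {d e : ℕ} {c1 c2 : R} (hU1 : Top U1 (d + 1) 1)
    (hV1 : Top V1 d c1) (hU2 : Top U2 (e + 1) 1) (hV2 : Top V2 e c2) :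
    Top (addX (ppar b2 b4 b6 b8) U1 V1 U2 V2) (2 * (d + e + 1) + 1)
      (2 * (c1 + c2) - (c1 - c2) ^ 2) := by
  have e0 : addX (ppar b2 b4 b6 b8) U1 V1 U2 V2 =
      C 2 * ((U1 * U2) * (U2 * V1 + U1 * V2)) + C b2 * ((U1 * U2) * (V1 * V2))
        + C b4 * ((U2 * V1 + U1 * V2) * (V1 * V2)) + C b6 * (V1 * V2) ^ 2
        - X * addS U1 V1 U2 V2 ^ 2 := by
    simp only [addX, ppar, map_ofNat]; ring
  rw [e0]
  have hs : Top (U2 * V1 + U1 * V2) (d + e + 1) (c1 + c2) :=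
    ((hU2.mul hV1).congr (by omega) (by ring)).add ((hU1.mul hV2).congr (by omega) (by ring))
  have h1 := ((hU1.mul hU2).mul hs).C_mul 2
  have h2 := ((hU1.mul hU2).mul (hV1.mul hV2)).C_mul b2
  have h3 := (hs.mul (hV1.mul hV2)).C_mul b4
  have h4 := ((hV1.mul hV2).pow 2).C_mul b6
  have h5 := Top.X'.mul ((top_addS hU1 hV1 hU2 hV2).pow 2)
  exact ((((h1.add_low h2 (by omega)).add_low h3 (by omega)).add_low h4 (by omega)).congr
    (by omega) (by ring)).sub (h5.congr (by omega) (by ring))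

/-- degree invariant at index `n ≥ 1`. -/
def Inv (n : ℕ) (U V : R[X]) : Prop :=
  Top U (n ^ 2) 1 ∧ ∃ d, d + 1 = n ^ 2 ∧ Top V d ((n : R) ^ 2)

lemma inv_dbl {n : ℕ} {U V : R[X]} (h : Inv n U V) :
    Inv (2 * n) (dblX (ppar b2 b4 b6 b8) U V) (dblZ (ppar b2 b4 b6 b8) U V) := by
  obtain ⟨hU, d, hd, hV⟩ := h
  rw [← hd] at hU
  refine ⟨(top_dblX b2 b4 b6 b8 hU hV).congr (by rw [hd]; ring) rfl, 4 * d + 3, ?_,
    (top_dblZ b2 b4 b6 b8 hU hV).congr rfl (by push_cast; ring)⟩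
  have : (2 * n) ^ 2 = 4 * n ^ 2 := by ring
  omega

lemma inv_add {n : ℕ} {U1 V1 U2 V2 : R[X]} (h1 : Inv n U1 V1) (h2 : Inv (n + 1) U2 V2) :
    Inv (2 * n + 1) (addX (ppar b2 b4 b6 b8) U1 V1 U2 V2) (addZ U1 V1 U2 V2) := by
  obtain ⟨hU1, d, hd, hV1⟩ := h1
  obtain ⟨hU2, e, he, hV2⟩ := h2
  rw [← hd] at hU1
  rw [← he] at hU2
  have hn : (2 * n + 1) ^ 2 = 2 * n ^ 2 + 2 * (n + 1) ^ 2 - 1 := by
    have : 2 * n ^ 2 + 2 * (n + 1) ^ 2 = (2 * n + 1) ^ 2 + 1 := by ring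
    omega
  refine ⟨(top_addX b2 b4 b6 b8 hU1 hV1 hU2 hV2).congr (by omega) (by push_cast; ring),
    2 * (d + e + 1), by omega, (top_addZ hU1 hV1 hU2 hV2).congr rfl (by push_cast; ring)⟩

theorem inv_lad (n : ℕ) :
    (n = 0 ∨ Inv n (lad (ppar b2 b4 b6 b8) n).X1 (lad (ppar b2 b4 b6 b8) n).Z1) ∧
    Inv (n + 1) (lad (ppar b2 b4 b6 b8) n).X2 (lad (ppar b2 b4 b6 b8) n).Z2 := by
  induction n using Nat.binaryRec with
  | zero =>
    rw [lad_zero]
    refine ⟨Or.inl rfl, Top.X'.congr (by norm_num) rfl, 0, by norm_num, ?_⟩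
    exact Top.one'.congr rfl (by norm_num)
  | bit b n ih =>
    obtain ⟨ih1, ih2⟩ := ih
    rcases ih1 with rfl | ih1
    · cases b
      · exact ⟨Or.inl rfl, ih2⟩
      · rw [lad_bit]
        have := inv_dbl b2 b4 b6 b8 ih2
        refine ⟨Or.inr ?_, this⟩
        rw [lad_zero] at ih2 ⊢
        have e1 : addX (ppar b2 b4 b6 b8) 1 0 (ppar b2 b4 b6 b8).t 1 = (ppar b2 b4 b6 b8).t := by
          simp only [addX, addS]; ring
        have e2 : addZ (1 : R[X]) 0 (ppar b2 b4 b6 b8).t 1 = 1 := by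
          simp only [addZ, addS]; ring
        simp only [step]
        rw [e1, e2]
        exact ih2
    · rw [lad_bit]
      have hadd := inv_add b2 b4 b6 b8 ih1 ih2
      cases b
      · rw [Nat.bit_false_apply]
        exact ⟨Or.inr (inv_dbl b2 b4 b6 b8 ih1), hadd⟩
      · rw [Nat.bit_true_apply]
        exact ⟨Or.inr hadd, inv_dbl b2 b4 b6 b8 ih2⟩

end Degree

section Main

variable {F : Type*} [Field F]

/-- a polynomial whose roots are the abscissas of the nonzero points killed by `2 n + 1`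
(it is, up to sign, the division polynomial `ψ_{2n+1}`). -/
noncomputable def divS (W : WeierstrassCurve F) (n : ℕ) : F[X] :=
  addS (lad (ppar W.b₂ W.b₄ W.b₆ W.b₈) n).X1 (lad (ppar W.b₂ W.b₄ W.b₆ W.b₈) n).Z1
    (lad (ppar W.b₂ W.b₄ W.b₆ W.b₈) n).X2 (lad (ppar W.b₂ W.b₄ W.b₆ W.b₈) n).Z2

lemma top_divS (W : WeierstrassCurve F) (n : ℕ) :
    Top (divS W n) (2 * n * (n + 1)) (-(2 * n + 1 : F)) := by
  obtain ⟨h1, h2⟩ := inv_lad W.b₂ W.b₄ W.b₆ W.b₈ n
  rcases h1 with rfl | h1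
  · simp only [divS, lad_zero, addS]
    refine ⟨by simp, by simp⟩
  · obtain ⟨hU1, d, hd, hV1⟩ := h1
    obtain ⟨hU2, e, he, hV2⟩ := h2
    rw [← hd] at hU1
    rw [← he] at hU2
    refine (top_addS hU1 hV1 hU2 hV2).congr ?_ (by push_cast; ring)
    have : n ^ 2 + (n + 1) ^ 2 = 2 * n * (n + 1) + 1 := by ring
    omega

theorem natDegree_divS_le (W : WeierstrassCurve F) (n : ℕ) :
    (divS W n).natDegree ≤ 2 * n * (n + 1) := (top_divS W n).1

theorem coeff_divS (W : WeierstrassCurve F) (n : ℕ) :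
    (divS W n).coeff (2 * n * (n + 1)) = -(2 * n + 1 : F) := (top_divS W n).2

lemma ppar_map_eval (W : WeierstrassCurve F) (t : F) :
    (ppar W.b₂ W.b₄ W.b₆ W.b₈).map (evalRingHom t) = par W t := by
  simp [ppar, par, Par.map]

lemma eval_divS (W : WeierstrassCurve F) (n : ℕ) (t : F) :
    (divS W n).eval t = addS (lad (par W t) n).X1 (lad (par W t) n).Z1
      (lad (par W t) n).X2 (lad (par W t) n).Z2 := by
  rw [← ppar_map_eval, lad_map]
  simp [divS, addS, St.map]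

theorem nsmul_eq_zero_iff [DecidableEq F] {W : Affine F} (n : ℕ) {P : W.Point} (hP : P ≠ 0) :
    (2 * n + 1) • P = 0 ↔ (divS W n).eval (px P) = 0 := by
  obtain ⟨h1, h2⟩ := good_lad hP n
  have hadd := good_add hP (succ_nsmul P n) h1 h2
  have e1 : n • P + (n + 1) • P = (2 * n + 1) • P := by
    rw [← add_nsmul]; congr 1; ring
  rw [e1] at hadd
  rw [hadd.eq_zero_iff, eval_divS, addZ]
  exact pow_eq_zero_iff (by norm_num)

theorem eval_divS_mem (W : WeierstrassCurve F) (B : Subring F) (h2 : W.b₂ ∈ B) (h4 : W.b₄ ∈ B)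
    (h6 : W.b₆ ∈ B) (h8 : W.b₈ ∈ B) {t : F} (ht : t ∈ B) (n : ℕ) : (divS W n).eval t ∈ B := by
  have e : par W t = (⟨⟨_, h2⟩, ⟨_, h4⟩, ⟨_, h6⟩, ⟨_, h8⟩, ⟨_, ht⟩⟩ : Par B).map B.subtype := rfl
  rw [eval_divS, e, lad_map]
  simp only [St.map, addS]
  exact B.sub_mem (B.mul_mem (SetLike.coe_mem _) (SetLike.coe_mem _))
    (B.mul_mem (SetLike.coe_mem _) (SetLike.coe_mem _))

theorem divS_ne_zero (W : WeierstrassCurve F) (n : ℕ) (hn : ((2 * n + 1 : ℕ) : F) ≠ 0) :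
    divS W n ≠ 0 := by
  intro h
  have := coeff_divS W n
  rw [h, coeff_zero] at this
  apply hn
  push_cast
  linear_combination this

theorem natDegree_divS (W : WeierstrassCurve F) (n : ℕ) (hn : ((2 * n + 1 : ℕ) : F) ≠ 0) :
    (divS W n).natDegree = 2 * n * (n + 1) := by
  apply le_antisymm (natDegree_divS_le W n)
  apply le_natDegree_of_ne_zero
  rw [coeff_divS]
  intro h
  apply hn
  push_cast
  linear_combination -h

theorem leadingCoeff_divS (W : WeierstrassCurve F) (n : ℕ) (hn : ((2 * n + 1 : ℕ) : F) ≠ 0) :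
    (divS W n).leadingCoeff = -(2 * n + 1 : F) := by
  rw [leadingCoeff, natDegree_divS W n hn, coeff_divS]

end Main

end Fermat.Agent.S13
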