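import Mathlib
import Fermat.Prelude.Def_FLTPrelim_Ramification
import Fermat.Agent.S05.Frey
import Fermat.Agent.S51.Galois
import Fermat.Agent.S13.Ladder

set_option autoImplicit false
set_option linter.unusedSectionVars false

namespace Fermat.Agent.S13

open WeierstrassCurve WeierstrassCurve.Affine WeierstrassCurve.Affine.Point
  Fermat.Agent.S05 Fermat.Agent.S51 Polynomial

local notation "Qb" => AlgebraicClosure ℚ

variable (E : Affine ℚ)

theorem exists_torsion (hΔ : E.Δ ≠ 0) {p : ℕ} (hodd : Odd p) (h1 : 1 < p) :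
    ∃ P : (E⁄Qb).Point, P ≠ 0 ∧ p • P = 0 := by
  obtain ⟨n, rfl⟩ := hodd
  have hn : ((2 * n + 1 : ℕ) : Qb) ≠ 0 := Nat.cast_ne_zero.mpr (by omega)
  have hdeg : (divS (E⁄Qb) n).degree ≠ 0 := by
    rw [degree_eq_natDegree (divS_ne_zero _ n hn), natDegree_divS _ n hn]
    have : 0 < 2 * n * (n + 1) := by
      have : 0 < n := by omega
      positivity
    exact_mod_cast this.ne'
  obtain ⟨x, hx⟩ := IsAlgClosed.exists_root _ hdeg
  obtain ⟨P, hP, rfl⟩ := exists_point (W := (E⁄Qb)) (by norm_num) (baseChange_Δ_ne_zero E hΔ) x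
  exact ⟨P, hP, (nsmul_eq_zero_iff n hP).mpr hx⟩

theorem tor_finite {p : ℕ} (hodd : Odd p) :
    ((Submodule.torsionBy ℤ (E⁄Qb).Point (p : ℕ) : Submodule ℤ (E⁄Qb).Point) :
      Set (E⁄Qb).Point).Finite ∧
    ((Submodule.torsionBy ℤ (E⁄Qb).Point (p : ℕ) : Submodule ℤ (E⁄Qb).Point) :
      Set (E⁄Qb).Point).ncard ≤ p ^ 2 := by
  obtain ⟨n, rfl⟩ := hodd
  have hn : ((2 * n + 1 : ℕ) : Qb) ≠ 0 := Nat.cast_ne_zero.mpr (by omega)
  have h := finite_and_ncard_le (W := (E⁄Qb)) (divS (E⁄Qb) n) (divS_ne_zero _ n hn)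
    ((Submodule.torsionBy ℤ (E⁄Qb).Point ((2 * n + 1 : ℕ) : ℕ) : Submodule ℤ (E⁄Qb).Point) :
      Set (E⁄Qb).Point)
    (fun P hP hP0 => (nsmul_eq_zero_iff n hP0).mp ((mem_tor_iff E _ P).mp hP))
  rw [natDegree_divS _ n hn] at h
  refine ⟨h.1, h.2.trans (le_of_eq ?_)⟩
  ring

section val

variable {K : Type*} [Field K] [CharZero K] {Γ₀ : Type*} [LinearOrderedCommGroupWithZero Γ₀]
  {v : Valuation K Γ₀}

/-- a rational number which is not integral at `p` has a `p` in the denominator. -/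
lemma one_le_mul_of_rat {p : ℕ} (hp : p.Prime) (hv : v (p : K) < 1) (c : ℚ)
    (hc : 1 < v (c : K)) : 1 ≤ v (p : K) * v (c : K) := by
  have hden0 : (c.den : K) ≠ 0 := Nat.cast_ne_zero.mpr c.den_ne_zero
  have hc' : (c : K) = (c.num : K) / (c.den : K) := by
    conv_lhs => rw [← Rat.num_div_den c]
    push_cast
    rfl
  have hvden0 : v (c.den : K) ≠ 0 := (Valuation.ne_zero_iff v).mpr hden0
  rw [hc', map_div₀] at hc ⊢
  have hnum : v (c.num : K) ≤ 1 := i_intCast _
  have hlt : v (c.den : K) < v (c.num : K) := by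
    rwa [one_lt_div₀ (zero_lt_iff.mpr hvden0)] at hc
  have hdvd : p ∣ c.den := by
    by_contra h
    have := u_natCast_of_not_dvd (v := v) hp hv h
    rw [this] at hlt
    exact absurd hlt (not_lt.mpr hnum)
  have hnd : ¬ (p : ℤ) ∣ c.num := by
    intro h
    have h1 : p ∣ c.num.natAbs := Int.natCast_dvd.mp h
    have := Nat.Coprime.eq_one_of_dvd (c.reduced.coprime_dvd_left h1) hdvd
    exact hp.one_lt.ne' this
  have hnum1 := u_intCast_of_not_dvd (v := v) hp hv hnd
  obtain ⟨m, hm⟩ := hdvd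
  have hle : v (c.den : K) ≤ v (p : K) := by
    rw [hm, Nat.cast_mul, map_mul]
    exact mul_le_of_le_one_right' (i_natCast m)
  rw [hnum1, mul_one_div, one_le_div₀ (zero_lt_iff.mpr hvden0)]
  exact hle

lemma one_lt_multiset_prod (m : Multiset Γ₀) (h : ∀ a ∈ m, 1 < a) (h0 : m ≠ 0) : 1 < m.prod := by
  induction m using Multiset.induction_on with
  | empty => exact absurd rfl h0
  | cons a m ih =>
    rw [Multiset.prod_cons]
    by_cases hm : m = 0
    · subst hm
      simpa using h a (Multiset.mem_cons_self a _)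
    · have h1 := ih (fun b hb => h b (Multiset.mem_cons_of_mem hb)) hm
      have h2 := h a (Multiset.mem_cons_self a _)
      exact lt_of_lt_of_le h2 (le_mul_of_one_le_right' h1.le)

end val

/-- "Eisenstein": if `E[p]` contains a Galois stable line then not all `p`-torsion points lie in
the kernel of reduction at a place above `p`. -/
theorem exists_integral_torsion (hΔ : E.Δ ≠ 0) {p : ℕ} (hp : p.Prime) (hp5 : 5 ≤ p)
    (A : ValuationSubring Qb) (hA : A.LiesOverPrime p)
    (hb : (E⁄Qb).b₂ ∈ A ∧ (E⁄Qb).b₄ ∈ A ∧ (E⁄Qb).b₆ ∈ A ∧ (E⁄Qb).b₈ ∈ A)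
    {P₀ : (E⁄Qb).Point} (h0 : P₀ ≠ 0) (hp0 : p • P₀ = 0)
    (hst : ∀ σ : Qb ≃ₐ[ℚ] Qb, ∃ k : ℕ, σ • P₀ = k • P₀) :
    ∃ P : (E⁄Qb).Point, P ≠ 0 ∧ p • P = 0 ∧ px P ∈ A := by
  classical
  by_contra hcon
  push Not at hcon
  obtain ⟨n, hn⟩ : Odd p := hp.odd_of_ne_two (by omega)
  have hnQ : ((2 * n + 1 : ℕ) : Qb) ≠ 0 := Nat.cast_ne_zero.mpr (by omega)
  have hvp : A.valuation (p : Qb) < 1 := (ValuationSubring.mem_nonunits_iff A).mp hA
  have hS0 := divS_ne_zero (E⁄Qb) n hnQ
  -- all roots are non integral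
  have hroot : ∀ a ∈ (divS (E⁄Qb) n).roots, 1 < A.valuation a := by
    intro a ha
    rw [mem_roots hS0] at ha
    obtain ⟨P, hP, rfl⟩ := exists_point (W := (E⁄Qb)) (by norm_num) (baseChange_Δ_ne_zero E hΔ) a
    have hpP : p • P = 0 := by rw [hn]; exact (nsmul_eq_zero_iff n hP).mpr ha
    have := hcon P hP hpP
    rw [← A.valuation_le_one_iff] at this
    exact not_le.mp this
  -- the Galois stable set of abscissas
  set s : Finset Qb := (Finset.Icc 1 (p - 1)).image (fun k => px (k • P₀)) with hs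
  have hkne : ∀ k ∈ Finset.Icc 1 (p - 1), k • P₀ ≠ 0 := by
    intro k hk
    rw [Finset.mem_Icc] at hk
    exact nsmul_ne_zero_of_prime hp h0 hp0 (fun h => by have := Nat.le_of_dvd (by omega) h; omega)
  have hsroot : ∀ a ∈ s, a ∈ (divS (E⁄Qb) n).roots := by
    intro a ha
    rw [hs, Finset.mem_image] at ha
    obtain ⟨k, hk, rfl⟩ := ha
    rw [mem_roots hS0]
    apply (nsmul_eq_zero_iff n (hkne k hk)).mp
    rw [← hn, ← mul_nsmul, mul_comm, mul_nsmul, hp0, nsmul_zero]
  have hsle : s.val ≤ (divS (E⁄Qb) n).roots :=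
    (Multiset.le_iff_subset s.nodup).mpr (fun a ha => hsroot a ha)
  have hscard : s.card ≤ p - 1 := by
    refine Finset.card_image_le.trans ?_
    simp
  have hsne : s.Nonempty := ⟨px (1 • P₀), Finset.mem_image.mpr ⟨1, by
    rw [Finset.mem_Icc]; omega, rfl⟩⟩
  have hstab : ∀ σ : Qb ≃ₐ[ℚ] Qb, s.image σ = s := by
    intro σ
    apply Finset.eq_of_subset_of_card_le
    · intro a ha
      rw [Finset.mem_image] at ha
      obtain ⟨b, hb, rfl⟩ := ha
      rw [hs, Finset.mem_image] at hb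
      obtain ⟨k, hk, rfl⟩ := hb
      obtain ⟨j, hj⟩ := hst σ
      have e : σ • (k • P₀) = ((k * j) % p) • P₀ := by
        rw [smul_nsmul', hj, ← mul_nsmul']
        exact nsmul_eq_mod_nsmul _ hp0
      have hne : ((k * j) % p) • P₀ ≠ 0 := by
        rw [← e]; exact smul_ne_zero' E σ (hkne k hk)
      rw [← px_smul, e, hs, Finset.mem_image]
      refine ⟨(k * j) % p, ?_, rfl⟩
      rw [Finset.mem_Icc]
      have h1 : (k * j) % p < p := Nat.mod_lt _ hp.pos
      have h2 : (k * j) % p ≠ 0 := by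
        intro h; rw [h] at hne; simp at hne
      omega
    · rw [Finset.card_image_of_injective _ σ.injective]
  have hfix : ∀ σ : Qb ≃ₐ[ℚ] Qb, σ (∏ a ∈ s, a) = ∏ a ∈ s, a := by
    intro σ
    rw [map_prod]
    conv_rhs => rw [← hstab σ]
    rw [Finset.prod_image (fun a _ b _ h => σ.injective h)]
  obtain ⟨c, hc⟩ := (InfiniteGalois.mem_range_algebraMap_iff_fixed (k := ℚ) _).mpr hfix
  have hcv : A.valuation (∏ a ∈ s, a) = (s.val.map A.valuation).prod := by
    rw [map_prod]; rfl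
  have hc1 : 1 < A.valuation (∏ a ∈ s, a) := by
    rw [hcv]
    apply one_lt_multiset_prod
    · intro x hx
      rw [Multiset.mem_map] at hx
      obtain ⟨a, ha, rfl⟩ := hx
      exact hroot a (hsroot a ha)
    · intro h
      have := congrArg Multiset.card h
      rw [Multiset.card_map] at this
      exact (Finset.card_pos.mpr hsne).ne' this
  have hc2 : 1 ≤ A.valuation (p : Qb) * A.valuation (∏ a ∈ s, a) := by
    rw [← hc] at hc1 ⊢
    exact one_le_mul_of_rat hp hvp c hc1
  -- the remaining roots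
  obtain ⟨r, hr⟩ : ∃ r, (divS (E⁄Qb) n).roots = s.val + r :=
    ⟨(divS (E⁄Qb) n).roots - s.val, (add_tsub_cancel_of_le hsle).symm⟩
  have hsplit := IsAlgClosed.splits (divS (E⁄Qb) n)
  have hcardr : (divS (E⁄Qb) n).roots.card = 2 * n * (n + 1) := by
    rw [← hsplit.natDegree_eq_card_roots, natDegree_divS _ n hnQ]
  have hr0 : r ≠ 0 := by
    rintro rfl
    rw [hr, add_zero] at hcardr
    have h1 : s.card = 2 * n * (n + 1) := hcardr
    have h2 : 2 * n < 2 * n * (n + 1) := by
      have : 2 ≤ n := by omega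
      nlinarith
    omega
  have hr1 : 1 < (r.map A.valuation).prod := by
    apply one_lt_multiset_prod
    · intro x hx
      rw [Multiset.mem_map] at hx
      obtain ⟨a, ha, rfl⟩ := hx
      exact hroot a (by rw [hr]; exact Multiset.mem_add.mpr (Or.inr ha))
    · intro h
      have := congrArg Multiset.card h
      rw [Multiset.card_map] at this
      exact hr0 (Multiset.card_eq_zero.mp this)
  have heval := hsplit.eval_eq_prod_roots 0
  have hv0 : A.valuation ((divS (E⁄Qb) n).eval 0) =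
      A.valuation (p : Qb) * (A.valuation (∏ a ∈ s, a) * (r.map A.valuation).prod) := by
    rw [heval, leadingCoeff_divS _ n hnQ, map_mul, Valuation.map_neg, hr, Multiset.map_add,
      Multiset.prod_add, map_mul, hcv]
    congr 1
    · rw [hn]; push_cast; rfl
    · congr 1
      · rw [map_multiset_prod, Multiset.map_map]
        congr 1
        apply Multiset.map_congr rfl
        intro a _
        simp
      · rw [map_multiset_prod, Multiset.map_map]
        congr 1
        apply Multiset.map_congr rfl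
        intro a _
        simp
  have hint : A.valuation ((divS (E⁄Qb) n).eval 0) ≤ 1 := by
    rw [A.valuation_le_one_iff]
    exact eval_divS_mem (E⁄Qb) A.toSubring hb.1 hb.2.1 hb.2.2.1 hb.2.2.2 (A.zero_mem) n
  rw [hv0, ← mul_assoc] at hint
  have : 1 < A.valuation (p : Qb) * A.valuation (∏ a ∈ s, a) * (r.map A.valuation).prod :=
    lt_of_lt_of_le hr1 (le_mul_of_one_le_left' hc2)
  exact absurd hint (not_le.mpr this)

end Fermat.Agent.S13
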