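import Mathlib
import Fermat.Agent.S05.Core

set_option autoImplicit false

/-!
# S13 (A2): the kernel of reduction at a place above `2` has no odd torsion
-/

namespace Fermat.Agent.S13

open Fermat.Agent.S05

variable {K : Type*} [Field K] {Γ₀ : Type*} [LinearOrderedCommGroupWithZero Γ₀]
  {v : Valuation K Γ₀}

theorem le_of_sum_prod_le {a b : K} {r : Γ₀} (h1 : v (a + b) ≤ r) (h2 : v (a * b) ≤ r * r) :
    v a ≤ r ∧ v b ≤ r := by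
  rw [map_mul] at h2
  constructor
  · by_contra ha
    rw [not_le] at ha
    rcases lt_or_ge (v b) (v a) with hb | hb
    · have : v (a + b) = v a := v.map_add_eq_of_lt_left hb
      rw [this] at h1
      exact absurd h1 (not_le.mpr ha)
    · have h3 : r * r < v a * v b :=
        mul_lt_mul'' ha (lt_of_lt_of_le ha hb) zero_le zero_le
      exact absurd h2 (not_le.mpr h3)
  · by_contra hb
    rw [not_le] at hb
    rcases lt_or_ge (v a) (v b) with ha | ha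
    · have : v (a + b) = v b := v.map_add_eq_of_lt_right ha
      rw [this] at h1
      exact absurd h1 (not_le.mpr hb)
    · have h3 : r * r < v a * v b :=
        mul_lt_mul'' (lt_of_lt_of_le hb ha) hb zero_le zero_le
      exact absurd h2 (not_le.mpr h3)

theorem le_mul_of_i {a b : K} {r : Γ₀} (ha : v a ≤ 1) (hb : v b ≤ r) : v (a * b) ≤ r := by
  rw [map_mul]
  calc v a * v b ≤ 1 * r := mul_le_mul' ha hb
    _ = r := one_mul r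

theorem E1_generic_alg {x₁ x₂ xp xm b₂ b₄ b₆ b₈ : K} {r : Γ₀} (hr : r < 1)
    (hb₂ : v b₂ ≤ 1) (hb₄ : v b₄ ≤ 1) (hb₆ : v b₆ ≤ 1) (hb₈ : v b₈ ≤ 1)
    (hsum : (x₁ - x₂) ^ 2 * (xp + xm) =
      2 * (x₁ * x₂) * (x₁ + x₂) + b₂ * (x₁ * x₂) + b₄ * (x₁ + x₂) + b₆)
    (hprod : (x₁ - x₂) ^ 2 * (xp * xm) =
      (x₁ * x₂) ^ 2 - b₄ * (x₁ * x₂) - b₆ * (x₁ + x₂) - b₈)
    (hx₁ : x₁ ≠ 0) (hx₂ : x₂ ≠ 0) (h1 : v x₁⁻¹ ≤ r) (h2 : v x₂⁻¹ ≤ r) :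
    (xp ≠ 0 ∧ v xp⁻¹ ≤ r) ∧ (xm ≠ 0 ∧ v xm⁻¹ ≤ r) := by
  obtain ⟨e₁, rfl⟩ : ∃ e, x₁ = e⁻¹ := ⟨x₁⁻¹, (inv_inv _).symm⟩
  obtain ⟨e₂, rfl⟩ : ∃ e, x₂ = e⁻¹ := ⟨x₂⁻¹, (inv_inv _).symm⟩
  rw [inv_inv] at h1 h2
  have he₁ : v e₁ < 1 := lt_of_le_of_lt h1 hr
  have he₂ : v e₂ < 1 := lt_of_le_of_lt h2 hr
  have h0₁ : e₁ ≠ 0 := by rintro rfl; simp at hx₁
  have h0₂ : e₂ ≠ 0 := by rintro rfl; simp at hx₂
  set Den : K := 1 - (b₄ * (e₁ * e₂) + b₆ * (e₁ * e₂) * (e₁ + e₂) + b₈ * (e₁ * e₂) ^ 2) with hDen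
  have hDu : v Den = 1 := u_sub_s u_one (by vsm)
  have hD0 : Den ≠ 0 := ne_zero_of_u hDu
  have hprod' : (e₂ - e₁) ^ 2 * (xp * xm) = Den := by
    rw [hDen]
    field_simp at hprod
    linear_combination hprod
  have hsum' : (e₂ - e₁) ^ 2 * (xp + xm) =
      2 * (e₁ + e₂) + b₂ * (e₁ * e₂) + b₄ * (e₁ * e₂) * (e₁ + e₂) + b₆ * (e₁ * e₂) ^ 2 := by
    field_simp at hsum
    linear_combination hsum
  have hpm : xp * xm ≠ 0 := by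
    intro h
    rw [h, mul_zero] at hprod'
    exact hD0 hprod'.symm
  have hp0 : xp ≠ 0 := left_ne_zero_of_mul hpm
  have hm0 : xm ≠ 0 := right_ne_zero_of_mul hpm
  have hP : Den * (xp⁻¹ * xm⁻¹) = (e₂ - e₁) ^ 2 := by
    rw [← hprod']; field_simp
  have hS : Den * (xp⁻¹ + xm⁻¹) =
      2 * (e₁ + e₂) + b₂ * (e₁ * e₂) + b₄ * (e₁ * e₂) * (e₁ + e₂) + b₆ * (e₁ * e₂) ^ 2 := by
    rw [← hsum', ← hprod']; field_simp; ring
  have hadd : v (e₁ + e₂) ≤ r := v.map_add_le h1 h2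
  have hsub : v (e₂ - e₁) ≤ r := v.map_sub_le h2 h1
  have hmul : v (e₁ * e₂) ≤ r := le_mul_of_i he₁.le h2
  have hS' : v (xp⁻¹ + xm⁻¹) ≤ r := by
    have h3 : v (Den * (xp⁻¹ + xm⁻¹)) = v (xp⁻¹ + xm⁻¹) := by rw [map_mul, hDu, one_mul]
    rw [← h3, hS]
    refine v.map_add_le (v.map_add_le (v.map_add_le ?_ ?_) ?_) ?_
    · exact le_mul_of_i (by vsm) hadd
    · exact le_mul_of_i hb₂ hmul
    · exact le_mul_of_i (by vsm) hadd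
    · rw [pow_two, ← mul_assoc]
      exact le_mul_of_i (by vsm) hmul
  have hP' : v (xp⁻¹ * xm⁻¹) ≤ r * r := by
    have h3 : v (Den * (xp⁻¹ * xm⁻¹)) = v (xp⁻¹ * xm⁻¹) := by rw [map_mul, hDu, one_mul]
    rw [← h3, hP, pow_two, map_mul]
    exact mul_le_mul' hsub hsub
  have := le_of_sum_prod_le hS' hP'
  exact ⟨⟨hp0, this.1⟩, ⟨hm0, this.2⟩⟩

theorem E1_dup_alg {x x2 ψ b₂ b₄ b₆ b₈ : K}
    (hb₂ : v b₂ ≤ 1) (hb₄ : v b₄ ≤ 1) (hb₆ : v b₆ ≤ 1) (hb₈ : v b₈ ≤ 1) (h2 : v (2 : K) < 1)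
    (hψ : ψ ^ 2 = 4 * x ^ 3 + b₂ * x ^ 2 + 2 * b₄ * x + b₆)
    (hdup : ψ ^ 2 * x2 = x ^ 4 - b₄ * x ^ 2 - 2 * b₆ * x - b₈)
    (hx : x ≠ 0) (he : v x⁻¹ < 1) : x2 ≠ 0 ∧ v x2⁻¹ < v x⁻¹ := by
  obtain ⟨e, rfl⟩ : ∃ e, x = e⁻¹ := ⟨x⁻¹, (inv_inv _).symm⟩
  rw [inv_inv] at he
  have h0 : e ≠ 0 := by rintro rfl; simp at hx
  simp only [inv_inv]
  have h4 : v (4 : K) < 1 := by
    have : (4 : K) = 2 * 2 := by norm_num
    rw [this]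
    vsm
  set D₁ : K := 4 + (b₂ * e + 2 * b₄ * e ^ 2 + b₆ * e ^ 3) with hD₁
  set D₂ : K := 1 - (b₄ * e ^ 2 + 2 * b₆ * e ^ 3 + b₈ * e ^ 4) with hD₂
  have hD₁s : v D₁ < 1 := by vsm
  have hD₂u : v D₂ = 1 := u_sub_s u_one (by vsm)
  have hD₂0 := ne_zero_of_u hD₂u
  have key : x2 * (e * D₁) = D₂ := by
    rw [hψ] at hdup
    field_simp at hdup
    rw [hD₁, hD₂]
    linear_combination hdup
  have hx2 : x2 ≠ 0 := by
    rintro rfl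
    rw [zero_mul] at key
    exact hD₂0 key.symm
  have hinv : x2⁻¹ = e * D₁ / D₂ := by
    rw [eq_div_iff hD₂0, ← key, ← mul_assoc, inv_mul_cancel₀ hx2, one_mul]
  refine ⟨hx2, ?_⟩
  rw [hinv, map_div₀, hD₂u, div_one, map_mul]
  have hve : 0 < v e := by
    rw [zero_lt_iff]; exact (v.ne_zero_iff).mpr h0
  calc v e * v D₁ < v e * 1 := by
        exact mul_lt_mul_of_pos_left hD₁s hve
    _ = v e := mul_one _

variable {G : Type*} [AddCommGroup G] {D : XData G K}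

/-- the filtration of the kernel of reduction. -/
def InE (D : XData G K) (v : Valuation K Γ₀) (r : Γ₀) (P : G) : Prop :=
  P = 0 ∨ (D.x P ≠ 0 ∧ v (D.x P)⁻¹ ≤ r)

theorem InE.add (hb₂ : v D.b₂ ≤ 1) (hb₄ : v D.b₄ ≤ 1) (hb₆ : v D.b₆ ≤ 1) (hb₈ : v D.b₈ ≤ 1)
    (h2 : v (2 : K) < 1) {r : Γ₀} (hr : r < 1) {P Q : G} (hP : InE D v r P) (hQ : InE D v r Q) :
    InE D v r (P + Q) := by
  by_cases hP0 : P = 0
  · rw [hP0, zero_add]; exact hQ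
  by_cases hQ0 : Q = 0
  · rw [hQ0, add_zero]; exact hP
  have hP' := hP.resolve_left hP0
  have hQ' := hQ.resolve_left hQ0
  by_cases hxx : D.x P = D.x Q
  · rcases D.eq_or P Q hP0 hQ0 hxx with h | h
    · subst h
      by_cases h2P : 2 • P = 0
      · left; rw [← two_nsmul]; exact h2P
      · right
        have hψ0 : D.ψ P ≠ 0 := fun h => h2P ((D.two P hP0).mpr h)
        have := E1_dup_alg hb₂ hb₄ hb₆ hb₈ h2 (D.ψ_sq P hP0) (D.dup P hP0 hψ0) hP'.1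
          (lt_of_le_of_lt hP'.2 hr)
        rw [← two_nsmul]
        exact ⟨this.1, (this.2.le).trans hP'.2⟩
    · left; rw [h, neg_add_cancel]
  · right
    exact (E1_generic_alg hr hb₂ hb₄ hb₆ hb₈ (D.sum P Q hP0 hQ0 hxx) (D.prod P Q hP0 hQ0 hxx)
      hP'.1 hQ'.1 hP'.2 hQ'.2).1

theorem InE.nsmul (hb₂ : v D.b₂ ≤ 1) (hb₄ : v D.b₄ ≤ 1) (hb₆ : v D.b₆ ≤ 1) (hb₈ : v D.b₈ ≤ 1)
    (h2 : v (2 : K) < 1) {r : Γ₀} (hr : r < 1) {P : G} (hP : InE D v r P) (n : ℕ) :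
    InE D v r (n • P) := by
  induction n with
  | zero => left; simp
  | succ n ih =>
    rw [succ_nsmul]
    exact InE.add hb₂ hb₄ hb₆ hb₈ h2 hr ih hP

theorem no_torsion_E1_two (hb₂ : v D.b₂ ≤ 1) (hb₄ : v D.b₄ ≤ 1) (hb₆ : v D.b₆ ≤ 1)
    (hb₈ : v D.b₈ ≤ 1) (h2 : v (2 : K) < 1) {p : ℕ} (hp : p.Prime) (hp2 : p ≠ 2) {R : G}
    (hR : R ≠ 0) (hx : 1 < v (D.x R)) (hpR : p • R = 0) : False := by
  have hx0 := ne_zero_of_big hx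
  have he := s_inv_of_big hx
  have hodd : Odd p := hp.odd_of_ne_two hp2
  have h2R : 2 • R ≠ 0 := nsmul_ne_zero_of_prime hp hR hpR (fun hd => by
    have := (Nat.prime_dvd_prime_iff_eq hp Nat.prime_two).mp hd
    exact hp2 this)
  have hψ0 : D.ψ R ≠ 0 := fun h => h2R ((D.two R hR).mpr h)
  have hdup := E1_dup_alg hb₂ hb₄ hb₆ hb₈ h2 (D.ψ_sq R hR) (D.dup R hR hψ0) hx0 he
  have hin : InE D v (v (D.x (2 • R))⁻¹) (2 • R) := Or.inr ⟨hdup.1, le_rfl⟩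
  obtain ⟨k, hk⟩ := hodd
  have h3 := InE.nsmul hb₂ hb₄ hb₆ hb₈ h2 (hdup.2.trans he) hin (k + 1)
  have h4 : (k + 1) • (2 • R) = R := by
    rw [← mul_nsmul']
    have : (k + 1) * 2 = p + 1 := by omega
    rw [this, add_nsmul, hpR, zero_add, one_nsmul]
  rw [h4] at h3
  rcases h3 with h3 | h3
  · exact hR h3
  · exact absurd h3.2 (not_le.mpr hdup.2)

end Fermat.Agent.S13
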