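import Mathlib
import Fermat.Prelude.Def_FLTPrelim_FreyPackage
import Fermat.Prelude.Def_FLTPrelim_GaloisRep
import Fermat.Prelude.Def_FLTPrelim_Ramification
import Fermat.Agent.S05.XOnly

set_option autoImplicit false

/-! reference stubs for the S13 assembly: NEVER import from a final file -/

namespace Fermat.Agent.S13

open WeierstrassCurve WeierstrassCurve.Affine WeierstrassCurve.Affine.Point Fermat.Agent.S05

local notation "Qb" => AlgebraicClosure ℚ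
local notation "GQ" => (AlgebraicClosure ℚ ≃ₐ[ℚ] AlgebraicClosure ℚ)

theorem exists_torsion (E : Affine ℚ) (hΔ : E.Δ ≠ 0) {p : ℕ} (hodd : Odd p) (h1 : 1 < p) :
    ∃ P : (E⁄Qb).Point, P ≠ 0 ∧ p • P = 0 := sorry

theorem tor_finite (E : Affine ℚ) {p : ℕ} (hodd : Odd p) :
    ((Submodule.torsionBy ℤ (E⁄Qb).Point (p : ℕ) : Submodule ℤ (E⁄Qb).Point) :
      Set (E⁄Qb).Point).Finite ∧
    ((Submodule.torsionBy ℤ (E⁄Qb).Point (p : ℕ) : Submodule ℤ (E⁄Qb).Point) :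
      Set (E⁄Qb).Point).ncard ≤ p ^ 2 := sorry

theorem exists_integral_torsion (E : Affine ℚ) (hΔ : E.Δ ≠ 0) {p : ℕ} (hp : p.Prime) (hp5 : 5 ≤ p)
    (A : ValuationSubring Qb) (hA : A.LiesOverPrime p)
    (hb : (E⁄Qb).b₂ ∈ A ∧ (E⁄Qb).b₄ ∈ A ∧ (E⁄Qb).b₆ ∈ A ∧ (E⁄Qb).b₈ ∈ A)
    {P₀ : (E⁄Qb).Point} (h0 : P₀ ≠ 0) (hp0 : p • P₀ = 0)
    (hst : ∀ σ : Qb ≃ₐ[ℚ] Qb, ∃ k : ℕ, σ • P₀ = k • P₀) :
    ∃ P : (E⁄Qb).Point, P ≠ 0 ∧ p • P = 0 ∧ px P ∈ A := sorry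

theorem loc2 (P : FreyPackage) (A : ValuationSubring Qb) (hA : A.LiesOverPrime 2) :
    ∃ Z : AddSubgroup (P.freyCurve⁄Qb).Point,
      (∀ σ ∈ A.inertiaSubgroupIn ℚ, ∀ X : (P.freyCurve⁄Qb).Point, P.p • X = 0 → σ • X - X ∈ Z) ∧
      (∀ σ ∈ A.inertiaSubgroupIn ℚ, ∀ X ∈ Z, P.p • X = 0 → σ • X = X) := sorry

theorem no_rational_torsion (P : FreyPackage) {X : (P.freyCurve⁄Qb).Point} (hX : X ≠ 0)
    (hpX : P.p • X = 0) (hfix : ∀ σ : GQ, σ • X = X) : False := sorry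

theorem locp (P : FreyPackage) (A : ValuationSubring Qb) (hA : A.LiesOverPrime P.p)
    (hE : ∃ X : (P.freyCurve⁄Qb).Point, X ≠ 0 ∧ P.p • X = 0 ∧ px X ∈ A) :
    ∃ Y : AddSubgroup (P.freyCurve⁄Qb).Point, (∃ X, P.p • X = 0 ∧ X ∉ Y) ∧
      ∀ σ ∈ A.inertiaSubgroupIn ℚ, ∀ X : (P.freyCurve⁄Qb).Point, P.p • X = 0 → σ • X - X ∈ Y := sorry

end Fermat.Agent.S13
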