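import Mathlib
import Fermat.Prelude.Def_FLTPrelim_Ramification

set_option autoImplicit false

/-!
# S13 (B2): elements of the decomposition group preserve the valuation
-/

namespace Fermat.Agent.S13

open scoped Pointwise

local notation "Qb" => AlgebraicClosure ℚ
local notation "GQ" => (AlgebraicClosure ℚ ≃ₐ[ℚ] AlgebraicClosure ℚ)

theorem mem_iff_of_mem_decomposition (A : ValuationSubring Qb) {σ : GQ}
    (hσ : σ ∈ A.decompositionSubgroup ℚ) (x : Qb) : σ x ∈ A ↔ x ∈ A := by
  have h1 : σ • A = A := hσ
  constructor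
  · intro h
    rw [← h1] at h
    exact (ValuationSubring.smul_mem_pointwise_smul_iff (g := σ) (S := A) (x := x)).mp h
  · intro h
    rw [← h1]
    exact (ValuationSubring.smul_mem_pointwise_smul_iff (g := σ) (S := A) (x := x)).mpr h

theorem exists_pow_apply_eq (σ : GQ) (a : Qb) : ∃ n : ℕ, 0 < n ∧ (σ ^ n) a = a := by
  have halg : IsAlgebraic ℚ a := (AlgebraicClosure.isAlgebraic ℚ).isAlgebraic a
  have hfin : ((minpoly ℚ a).rootSet Qb).Finite := Polynomial.rootSet_finite _ _
  have hmem : ∀ k : ℕ, (σ ^ k) a ∈ (minpoly ℚ a).rootSet Qb := by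
    intro k
    rw [Polynomial.mem_rootSet]
    refine ⟨minpoly.ne_zero halg.isIntegral, ?_⟩
    have h0 := Polynomial.aeval_algHom_apply ((σ ^ k : GQ) : Qb →ₐ[ℚ] Qb) a (minpoly ℚ a)
    rw [minpoly.aeval, map_zero] at h0
    exact h0
  have : Finite ((minpoly ℚ a).rootSet Qb) := hfin
  obtain ⟨i, j, hij, h⟩ := Finite.exists_ne_map_eq_of_infinite
    (fun k : ℕ => (⟨(σ ^ k) a, hmem k⟩ : (minpoly ℚ a).rootSet Qb))
  have h' : (σ ^ i) a = (σ ^ j) a := congrArg Subtype.val h
  wlog hlt : i < j generalizing i j
  · exact this j i hij.symm h.symm h'.symm (lt_of_le_of_ne (not_lt.mp hlt) hij.symm)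
  refine ⟨j - i, by omega, ?_⟩
  have h2 : σ ^ j = σ ^ i * σ ^ (j - i) := by rw [← pow_add]; congr 1; omega
  rw [h2, AlgEquiv.mul_apply] at h'
  exact ((σ ^ i).injective h').symm

theorem valuation_map_eq_of_mem_decomposition (A : ValuationSubring Qb) {σ : GQ}
    (hσ : σ ∈ A.decompositionSubgroup ℚ) (a : Qb) : A.valuation (σ a) = A.valuation a := by
  by_cases ha : a = 0
  · simp [ha]
  -- monotonicity
  have hmono : ∀ x y : Qb, A.valuation x < A.valuation y → A.valuation (σ x) < A.valuation (σ y) := by
    intro x y hxy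
    have hy : y ≠ 0 := by
      rintro rfl
      simp at hxy
    have hσy : σ y ≠ 0 := by simpa using hy
    have h1 : ¬ (y / x ∈ A) ∨ x = 0 := by
      by_cases hx : x = 0
      · exact Or.inr hx
      · left
        rw [← A.valuation_le_one_iff, map_div₀, not_le]
        rw [one_lt_div₀ (by simpa [pos_iff_ne_zero] using hx)]
        exact hxy
    rcases h1 with h1 | rfl
    · have hx : x ≠ 0 := by
        rintro rfl
        simp at h1
      have hσx : σ x ≠ 0 := by simpa using hx
      have h2 : ¬ (σ (y / x) ∈ A) := fun h => h1 ((mem_iff_of_mem_decomposition A hσ _).mp h)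
      rw [← A.valuation_le_one_iff, map_div₀, map_div₀, not_le,
        one_lt_div₀ (by simpa [pos_iff_ne_zero] using hx)] at h2
      exact h2
    · simpa [pos_iff_ne_zero] using hy
  obtain ⟨n, hn, hna⟩ := exists_pow_apply_eq σ a
  rcases lt_trichotomy (A.valuation (σ a)) (A.valuation a) with h | h | h
  · exfalso
    have hk : ∀ k : ℕ, A.valuation ((σ ^ (k + 1)) a) < A.valuation a := by
      intro k
      induction k with
      | zero => simpa using h
      | succ k ih =>
        have := hmono _ _ ih
        rw [pow_succ' σ (k + 1), AlgEquiv.mul_apply]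
        exact this.trans h
    have := hk (n - 1)
    rw [Nat.sub_add_cancel hn, hna] at this
    exact lt_irrefl _ this
  · exact h
  · exfalso
    have hk : ∀ k : ℕ, A.valuation a < A.valuation ((σ ^ (k + 1)) a) := by
      intro k
      induction k with
      | zero => simpa using h
      | succ k ih =>
        have := hmono _ _ ih
        rw [pow_succ' σ (k + 1), AlgEquiv.mul_apply]
        exact h.trans this
    have := hk (n - 1)
    rw [Nat.sub_add_cancel hn, hna] at this
    exact lt_irrefl _ this

theorem valuation_map_eq (A : ValuationSubring Qb) {σ : GQ} (hσ : σ ∈ A.inertiaSubgroupIn ℚ)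
    (a : Qb) : A.valuation (σ a) = A.valuation a := by
  obtain ⟨τ, -, rfl⟩ := hσ
  exact valuation_map_eq_of_mem_decomposition A τ.2 a

end Fermat.Agent.S13
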